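import Fermat.Agent.TateLocal.Unfold
import Fermat.Agent.HeckeCharFE.Primitive
import Fermat.Agent.ClassFieldTheory.Conductor

/-!
# The characters of finite order

An idele class character with no imaginary exponents and no windings gives a character of the ideals
that is primitive modulo the conductor, odd at the real places where it is `-1` at `-1`.
-/

set_option autoImplicit false
set_option linter.unusedSectionVars false
set_option linter.style.haveILetI false

noncomputable section

open NumberField NumberField.InfinitePlace NumberField.InfinitePlace.Completion IsDedekindDomain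
open WithZero
open FA.Ideles FA.IdeleClass
open FA.ArtinRec (ordI unif intU ord_intU_eq_ordI valuation_eq_exp coprime_iff_ordI)
open FA.QuadFormsNF (valued_algebraMap exists_element_near)
open FA.Ext (primeIdeal)
open FA.Hecke (IsRayElt IsNontrivial IsRayChar eq_one_of_not_isNontrivial)
open FA.HeckeCharFE (HasSigns IsPrimitiveChar sgnS rv)
open FA.HeckeTorus (infChar_zero balanced_zero)
open scoped nonZeroDivisors Classical

set_option maxHeartbeats 400000

namespace FA.TateLocal

universe u

variable {K : Type u} [Field K] [NumberField K] {χ : Idele K →* ℂˣ}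
  {m : InfinitePlace K → ℤ}

local notation "𝐀" => AdeleRing (𝓞 K) K

/-- The real places with a sign. -/
def signSet (m : InfinitePlace K → ℤ) : Finset (InfinitePlace K) :=
  Finset.univ.filter fun w => IsReal w ∧ m w ≠ 0

theorem zpow_eq_of_natAbs_le_one {a : ℂ} (ha : a * a = 1) {k : ℤ} (hk : k.natAbs ≤ 1) :
    a ^ k = if k = 0 then 1 else a := by
  rcases (show k = 0 ∨ k = 1 ∨ k = -1 by omega) with rfl | rfl | rfl
  · simp
  · simp
  · simp [inv_eq_of_mul_eq_one_right ha]

theorem infCharVal_principal (hm : ∀ w, IsReal w → (m w).natAbs ≤ 1)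
    (hm0 : ∀ w, IsComplex w → m w = 0) (a : Kˣ) :
    infCharVal 0 m (infVec (principal a)) = sgnS (signSet m) (a : K) := by
  rw [infVec_principal, infCharVal]
  have hc : ∏ w : {w : InfinitePlace K // IsComplex w},
      cplxChar ((0 : InfinitePlace K → ℝ) w.1) (m w.1) ((mixedEmbedding K (a : K)).2 w) = 1 :=
    Finset.prod_eq_one fun w _ => by simp [cplxChar, hm0 w.1 w.2]
  rw [hc, mul_one, sgnS, signSet,
    ← Finset.prod_subtype_eq_prod_filter (s := Finset.univ)
      (p := fun w : InfinitePlace K => IsReal w ∧ m w ≠ 0)]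
  rw [show (Finset.univ : Finset (InfinitePlace K)).subtype (fun w => IsReal w ∧ m w ≠ 0) =
    Finset.univ by ext; simp]
  rw [← Finset.prod_filter_mul_prod_filter_not Finset.univ
    (fun w : {w : InfinitePlace K // IsReal w} => m w.1 ≠ 0)]
  rw [Finset.prod_eq_one (s := Finset.univ.filter fun w : {w : InfinitePlace K // IsReal w} => ¬m w.1 ≠ 0)
    (fun w hw => by
      simp only [Finset.mem_filter, not_not] at hw
      simp [realChar, hw.2]), mul_one]
  refine Finset.prod_bij (fun w hw => ⟨w.1, w.2, (Finset.mem_filter.1 hw).2⟩)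
    (fun w hw => Finset.mem_univ _) (fun w _ w' _ e => Subtype.ext (congrArg Subtype.val e :))
    (fun w _ => ⟨⟨w.1, w.2.1⟩, Finset.mem_filter.2 ⟨Finset.mem_univ _, w.2.2⟩, rfl⟩) fun w hw => ?_
  rw [mixedEmbedding.mixedEmbedding_apply_isReal, FA.HeckeCharFE.rv_eq_embedding w.2]
  set x : ℝ := embedding_of_isReal w.2 (a : K)
  have hx : x ≠ 0 := (map_ne_zero _).2 a.ne_zero
  rw [realChar, Pi.zero_apply, zero_mul, Complex.ofReal_zero, zero_mul, Complex.exp_zero, one_mul,
    zpow_eq_of_natAbs_le_one ?_ (hm w.1 w.2), if_neg (Finset.mem_filter.1 hw).2]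
  · rcases lt_or_gt_of_ne hx with h | h
    · rw [abs_of_neg h, Real.sign_of_neg h, Complex.ofReal_neg, div_neg,
        div_self (Complex.ofReal_ne_zero.2 hx)]
      simp
    · rw [abs_of_pos h, Real.sign_of_pos h, div_self (Complex.ofReal_ne_zero.2 hx)]
      simp
  · rw [div_mul_div_comm, ← Complex.ofReal_mul, ← Complex.ofReal_mul, ← sq, ← sq, sq_abs,
      div_self (Complex.ofReal_ne_zero.2 (pow_ne_zero 2 hx))]

theorem hasType_zero (hv : HasLocalType χ 0 m) (hm0 : ∀ w, IsComplex w → m w = 0) :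
    HasType χ 0 0 := fun y hy => by
  refine Units.ext ?_
  rw [Units.val_mul, typeChar_val, infChar_zero, mul_one, Units.val_one]
  conv_lhs => rw [← infPart_eq_self hy]
  rw [map_infPart_eq hv, infCharVal, Finset.prod_eq_one, Finset.prod_eq_one, mul_one]
  · exact fun w _ => by simp [cplxChar, hm0 w.1 w.2]
  · intro w _
    have hpos : 0 < (infVec y).1 w := hy.2 w.1 w.2
    rw [realChar, abs_of_pos hpos, div_self (Complex.ofReal_ne_zero.2 hpos.ne'), one_zpow]
    simp

/-- **The character of the ideals.** -/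
theorem exists_idealChar (h : IsIdeleChar χ) (hv : HasLocalType χ 0 m)
    (hm0 : ∀ w, IsComplex w → m w = 0) :
    ∃ f : Ideal (𝓞 K) →* ℂ,
      (∀ v : HeightOneSpectrum (𝓞 K), f v.asIdeal = if v ∈ ramSet χ then 0
        else ((χ (single v (localEmb v (unif v))) : ℂˣ) : ℂ)) ∧
      (∀ I : Ideal (𝓞 K), I ≠ ⊥ → (f I ≠ 0 ↔ I ⊔ condIdeal χ = ⊤)) ∧
      ∀ J : (Ideal (𝓞 K))⁰, f J.1 = if ∀ v ∈ ramSet χ, ordI v J.1 = 0
        then ((χ (primeIdele (ramSet χ) J) : ℂˣ) : ℂ) else 0 := by
  obtain ⟨𝔪, f, hf, hdvd, hval⟩ := exists_isTorusChar_of_hasType h balanced_zero (hasType_zero hv hm0)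
  have hiff : ∀ I : Ideal (𝓞 K), I ⊔ 𝔪 = ⊤ ↔ ∀ v ∈ ramSet χ, ordI v I = 0 := fun I => by
    rw [coprime_iff_ordI]
    exact forall_congr' fun v => by rw [hdvd]
  refine ⟨f, hval, fun I hI => ?_, fun J => ?_⟩
  · rw [hf.ne_zero_iff I hI, hiff, coprime_iff_ordI]
    refine forall_congr' fun v => ?_
    rw [show v.asIdeal ∣ condIdeal χ ↔ v ∈ ramSet χ from by
      rw [← not_iff_not, ← FA.ArtinRec.ordI_eq_zero_iff, ordI_condIdeal h, condExp_eq_zero_iff h]]
  by_cases hJ : ∀ v ∈ ramSet χ, ordI v J.1 = 0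
  swap
  · rw [if_neg hJ]
    by_contra h0
    exact hJ ((hiff _).1 ((hf.ne_zero_iff _ (nonZeroDivisors.coe_ne_zero J)).1 h0))
  rw [if_pos hJ]
  induction J using ideal_induction with
  | h1 =>
    rw [OneMemClass.coe_one, map_one, map_one, map_one]
    rfl
  | hmul v I ih =>
    have h1 : ∀ u ∈ ramSet χ, ordI u I.1 = 0 ∧ u ≠ v := fun u hu => by
      have h2 := hJ u hu
      rw [ordI_primeIdeal_mul, Nat.add_eq_zero_iff] at h2
      exact ⟨h2.2, fun e => by simp [e] at h2⟩
    have hv' : v ∉ ramSet χ := fun hv' => (h1 v hv').2 rfl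
    rw [Submonoid.coe_mul, map_mul, ih fun u hu => (h1 u hu).1, primeIdele_prime_mul, if_neg hv',
      map_mul, Units.val_mul, show (primeIdeal v).1 = v.asIdeal from rfl, hval, if_neg hv']

/-- **The value at a principal ideal.** -/
theorem map_principalIdeal (h : IsIdeleChar χ) (hv : HasLocalType χ 0 m)
    (hm0 : ∀ w, IsComplex w → m w = 0) {x : 𝓞 K} (hx0 : x ≠ 0) {f : Ideal (𝓞 K) →* ℂ}
    (hf : ∀ J : (Ideal (𝓞 K))⁰, f J.1 = if ∀ v ∈ ramSet χ, ordI v J.1 = 0
      then ((χ (primeIdele (ramSet χ) J) : ℂˣ) : ℂ) else 0)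
    (hx : ∀ v ∈ ramSet χ, ordI v (Ideal.span {x}) = 0) :
    f (Ideal.span {x}) * (sgnS (signSet m) (x : K) *
      ∏ v ∈ (finite_ramSet h).toFinset, locVal χ v (algebraMap K (v.adicCompletion K) (x : K))) = 1 := by
  set I : (Ideal (𝓞 K))⁰ := ⟨Ideal.span {x}, mem_nonZeroDivisors_iff_ne_zero.mpr
    fun e => hx0 (Ideal.span_singleton_eq_bot.mp e)⟩
  have hfI : f (Ideal.span {x}) = _ := hf I
  rw [hfI, if_pos hx]
  set a := intU x hx0
  set p := primeIdele (ramSet χ) I
  set y := principal a / p
  have hy : ∀ u, Valued.v ((finComp u y : (u.adicCompletion K)ˣ) : u.adicCompletion K) = 1 :=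
    fun u => by
    rw [map_div, Units.val_div_eq_div_val, map_div₀, finComp_principal, localEmb_val,
      valued_algebraMap, valuation_eq_exp, ord_intU_eq_ordI u hx0]
    by_cases hu : u ∈ ramSet χ
    · rw [finComp_primeIdele_of_mem I hu, Units.val_one, map_one, div_one, hx u hu,
        Nat.cast_zero, neg_zero, exp_zero]
    · rw [valued_primeIdele I hu]
      exact div_self exp_ne_zero
  have hinf : infVec y = infVec (principal a) := by
    rw [show principal a = p * y from (mul_div_cancel _ _).symm, infVec_mul,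
      infVec_eq_one (fun w => infComp_primeIdele (ramSet χ) I w), one_mul]
  have h1 := map_of_units h hy
  rw [map_infPart_eq hv, hinf, infCharVal_principal hv.small hm0, map_div, h.principal_eq, one_div,
    Units.val_inv_eq_inv_val] at h1
  have h2 : ∏ v ∈ (finite_ramSet h).toFinset, locVal χ v ((y : 𝐀).2 v) =
      ∏ v ∈ (finite_ramSet h).toFinset, locVal χ v (algebraMap K (v.adicCompletion K) (x : K)) := by
    refine Finset.prod_congr rfl fun v hv' => ?_
    rw [← finComp_val, map_div, finComp_primeIdele_of_mem I ((finite_ramSet h).mem_toFinset.1 hv'),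
      div_one, finComp_principal, localEmb_val]
    rfl
  rw [h2, show ((a : Kˣ) : K) = (x : K) from FA.ArtinRec.intU_val x hx0] at h1
  rw [← h1, mul_inv_cancel₀ (Units.ne_zero _)]

theorem locVal_near_one (h : IsIdeleChar χ) {v : HeightOneSpectrum (𝓞 K)} (hv : v ∈ ramSet χ)
    {x : 𝓞 K} {n : ℕ} (hn : condExp χ v ≤ n) (hx : x - 1 ∈ v.asIdeal ^ n) :
    locVal χ v (algebraMap K (v.adicCompletion K) (x : K)) = 1 := by
  have h1 : Valued.v (algebraMap K (v.adicCompletion K) ((x - 1 : 𝓞 K) : K)) ≤
      exp (-(condExp χ v : ℤ)) := by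
    rw [valued_algebraMap]
    refine ((v.valuation_of_algebraMap _).le.trans ((v.intValuation_le_pow_iff_mem _ _).2 hx)).trans ?_
    exact exp_le_exp.2 (by omega)
  rw [show algebraMap K (v.adicCompletion K) (x : K) =
    ((1 : (v.adicCompletion K)ˣ) : v.adicCompletion K) +
      algebraMap K (v.adicCompletion K) ((x - 1 : 𝓞 K) : K) by
    rw [Units.val_one, ← map_one (algebraMap K (v.adicCompletion K)), ← map_add]; congr 1; simp,
    locVal_add h hv h1, locVal_unit χ (z := 1) (map_one _), map_one, map_one, Units.val_one]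

theorem ordI_le_of_mem {I : Ideal (𝓞 K)} {x : 𝓞 K} (hx : x ∈ I) (v : HeightOneSpectrum (𝓞 K)) :
    x ∈ v.asIdeal ^ ordI v I := Ideal.le_of_dvd (pow_multiplicity_dvd v.asIdeal I) hx

/-- **It is primitive modulo the conductor, with these signs.** -/
theorem exists_primitive_idealChar (h : IsIdeleChar χ) (hv : HasLocalType χ 0 m)
    (hm0 : ∀ w, IsComplex w → m w = 0) :
    ∃ f : Ideal (𝓞 K) →* ℂ,
      (∀ v : HeightOneSpectrum (𝓞 K), f v.asIdeal = if v ∈ ramSet χ then 0
        else ((χ (single v (localEmb v (unif v))) : ℂˣ) : ℂ)) ∧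
      HasSigns (condIdeal χ) f (signSet m) ∧ IsPrimitiveChar (condIdeal χ) f ∧
      (χ ≠ 1 → IsNontrivial f) ∧
      ∀ J : (Ideal (𝓞 K))⁰, f J.1 = if ∀ v ∈ ramSet χ, ordI v J.1 = 0
        then ((χ (primeIdele (ramSet χ) J) : ℂˣ) : ℂ) else 0 := by
  obtain ⟨f, hval, hne, hf⟩ := exists_idealChar h hv hm0
  have hcong : ∀ x : 𝓞 K, x - 1 ∈ condIdeal χ → ∀ v ∈ ramSet χ,
      x - 1 ∈ v.asIdeal ^ condExp χ v := fun x hx v _ => by
    rw [← ordI_condIdeal h v]; exact ordI_le_of_mem hx v
  have hord : ∀ x : 𝓞 K, ∀ v : HeightOneSpectrum (𝓞 K), x - 1 ∈ v.asIdeal →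
      ordI v (Ideal.span {x}) = 0 := fun x v hx => (FA.ArtinRec.ordI_eq_zero_iff v).2 fun hd => by
    have hxv : x ∈ v.asIdeal := Ideal.le_of_dvd hd (Ideal.mem_span_singleton_self x)
    refine v.isPrime.ne_top ((Ideal.eq_top_iff_one _).2 ?_)
    simpa using v.asIdeal.sub_mem hxv hx
  have hsgn : ∀ x : 𝓞 K, x ≠ 0 → x - 1 ∈ condIdeal χ →
      f (Ideal.span {x}) = sgnS (signSet m) (x : K) := fun x hx0 hx => by
    have h1 := map_principalIdeal h hv hm0 hx0 hf fun v hv' => hord x v
      (Ideal.pow_le_self (condExp_pos h hv').ne' (hcong x hx v hv'))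
    rw [Finset.prod_eq_one fun v hv' => locVal_near_one h ((finite_ramSet h).mem_toFinset.1 hv')
      le_rfl (hcong x hx v ((finite_ramSet h).mem_toFinset.1 hv')), mul_one] at h1
    rw [eq_inv_of_mul_eq_one_left h1]
    refine inv_eq_of_mul_eq_one_right ?_
    exact FA.HeckeCharFE.sgnS_sq (fun w hw => (Finset.mem_filter.1 hw).2.1)
      (RingOfIntegers.coe_ne_zero_iff.2 hx0)
  have hray : IsRayChar (condIdeal χ) f := ⟨condIdeal_ne_bot χ, hne, fun x hx0 hx hp => by
    rw [hsgn x hx0 hx, sgnS]
    refine Finset.prod_eq_one fun w hw => ?_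
    rw [FA.HeckeCharFE.rv_eq_embedding (Finset.mem_filter.1 hw).2.1,
      Real.sign_of_pos (hp _), Complex.ofReal_one]⟩
  refine ⟨f, hval, ⟨hray, fun w hw => (Finset.mem_filter.1 hw).2.1, hsgn⟩, fun 𝔫 hlt => ?_,
    fun hχ => ?_, hf⟩
  · have h𝔫 : 𝔫 ≠ ⊥ := fun e => not_lt_bot (e ▸ hlt)
    have hle : ∀ u, ordI u 𝔫 ≤ condExp χ u := fun u => by
      rw [← ordI_condIdeal h u]
      exact (FiniteMultiplicity.of_prime_left u.prime (condIdeal_ne_bot χ)).le_multiplicity_of_pow_dvd
        ((pow_multiplicity_dvd u.asIdeal 𝔫).trans (Ideal.dvd_iff_le.2 hlt.le))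
    obtain ⟨v, hvlt⟩ : ∃ v, ordI v 𝔫 < condExp χ v := by
      by_contra hall
      push Not at hall
      exact hlt.ne (FA.ArtinRec.ideal_eq_of_ordI (condIdeal_ne_bot χ) h𝔫 fun u => by
        rw [ordI_condIdeal h]; exact le_antisymm (hall u) (hle u))
    set c := condExp χ v
    have hvram : v ∈ ramSet χ := by
      by_contra hv'
      have := (condExp_eq_zero_iff h).2 hv'
      omega
    obtain ⟨z, hz1, hzc, hzne⟩ : ∃ z : (v.adicCompletion K)ˣ,
        Valued.v (z : v.adicCompletion K) = 1 ∧
        Valued.v ((z : v.adicCompletion K) - 1) ≤ exp (-((c - 1 : ℕ) : ℤ)) ∧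
        χ (single v z) ≠ 1 := by
      have h1 : ¬LevelTriv χ v (c - 1) := fun hl => by
        have := (condExp_le_iff h).2 hl
        omega
      unfold LevelTriv at h1
      push Not at h1
      exact h1
    obtain ⟨r, hr⟩ : ∃ r : 𝓞 K, Valued.v ((z : v.adicCompletion K) -
        algebraMap K (v.adicCompletion K) (r : K)) ≤ exp (-(c : ℤ)) := by
      obtain ⟨b, hb⟩ := exists_element_near v (z : v.adicCompletion K) c
      have hb1 : v.valuation K (b : K) ≤ 1 := by
        rw [← valued_algebraMap v, ← add_sub_cancel (z : v.adicCompletion K)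
          (algebraMap K (v.adicCompletion K) (b : K))]
        refine Valuation.map_add_le _ hz1.le (hb.trans ?_)
        rw [← exp_zero, exp_le_exp]
        omega
      obtain ⟨r, hr⟩ := exists_integer_near_any v (c - 1) hb1
      refine ⟨r, ?_⟩
      rw [Valuation.map_sub_swap,
        ← sub_add_sub_cancel _ (algebraMap K (v.adicCompletion K) (b : K)) (z : v.adicCompletion K)]
      refine Valuation.map_add_le _ ?_ hb
      rw [← map_sub, valued_algebraMap]
      refine (hr r (by simp)).trans (exp_le_exp.2 ?_)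
      omega
    obtain ⟨J, hJ0, hJ⟩ := FA.ArtinRec.exists_ideal_ordI (fun u => if u = v then c - 1 else condExp χ u)
      ((finite_ramSet h).subset fun u hu => by
        by_contra hu'
        refine hu ?_
        rw [if_neg fun e : u = v => hu' (e ▸ hvram), (condExp_eq_zero_iff h).2 hu'])
    have hJ𝔫 : J ≤ 𝔫 := Ideal.le_of_dvd (FA.ArtinRec.dvd_of_ordI_le h𝔫 hJ0 fun u => by
      rw [hJ]
      split_ifs with e
      · subst e; omega
      · exact hle u)
    have hr1 : r - 1 ∈ v.asIdeal ^ c ⊔ J := by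
      obtain ⟨i, -, hi⟩ := (dvd_prime_pow v.prime c).1
        (Ideal.dvd_iff_le.2 (le_sup_left : v.asIdeal ^ c ≤ v.asIdeal ^ c ⊔ J))
      rw [associated_iff_eq] at hi
      have hiJ : i ≤ c - 1 := by
        have h2 := (FiniteMultiplicity.of_prime_left v.prime hJ0).le_multiplicity_of_pow_dvd
          (hi ▸ Ideal.dvd_iff_le.2 (le_sup_right : J ≤ v.asIdeal ^ c ⊔ J))
        change i ≤ ordI v J at h2
        rwa [hJ, if_pos rfl] at h2
      rw [hi]
      refine Ideal.pow_le_pow_right hiJ ((v.intValuation_le_pow_iff_mem _ _).1 ?_)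
      rw [← v.valuation_of_algebraMap (K := K), ← valued_algebraMap]
      show Valued.v (algebraMap K (v.adicCompletion K) ((r - 1 : 𝓞 K) : K)) ≤ _
      rw [show algebraMap K (v.adicCompletion K) ((r - 1 : 𝓞 K) : K) =
        (algebraMap K (v.adicCompletion K) (r : K) - (z : v.adicCompletion K)) +
          ((z : v.adicCompletion K) - 1) by
        rw [sub_add_sub_cancel, ← map_one (algebraMap K (v.adicCompletion K)), ← map_sub]
        congr 1]
      refine Valuation.map_add_le _ ?_ hzc
      rw [Valuation.map_sub_swap]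
      exact hr.trans (exp_le_exp.2 (by omega))
    obtain ⟨x, ⟨hx0, hxJ, hxp⟩, hxr⟩ :=
      FA.RayFields.exists_ray_congr (pow_ne_zero c v.ne_bot) hJ0 hr1
    have hxz : Valued.v (algebraMap K (v.adicCompletion K) (x : K) - (z : v.adicCompletion K)) ≤
        exp (-(c : ℤ)) := by
      rw [← sub_add_sub_cancel _ (algebraMap K (v.adicCompletion K) (r : K))]
      refine Valuation.map_add_le _ ?_ (by rwa [Valuation.map_sub_swap])
      rw [Valuation.map_sub_swap, ← map_sub, valued_algebraMap]
      show v.valuation K ((r - x : 𝓞 K) : K) ≤ _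
      exact (v.valuation_of_algebraMap _).le.trans ((v.intValuation_le_pow_iff_mem _ _).2 hxr)
    have hcz : 0 < c := by omega
    have hord0 : ∀ u ∈ ramSet χ, ordI u (Ideal.span {x}) = 0 := fun u hu => by
      rcases eq_or_ne u v with rfl | huv
      · refine (FA.ArtinRec.ordI_eq_zero_iff u).2 fun hd => ?_
        have hxv : x ∈ u.asIdeal ^ 1 := by
          rw [pow_one]; exact Ideal.le_of_dvd hd (Ideal.mem_span_singleton_self x)
        have h1 : Valued.v (algebraMap K (u.adicCompletion K) (x : K)) < 1 := by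
          rw [valued_algebraMap]
          refine ((u.valuation_of_algebraMap _).le.trans
            ((u.intValuation_le_pow_iff_mem _ _).2 hxv)).trans_lt ?_
          rw [← exp_zero, exp_lt_exp]; norm_num
        have h2 : Valued.v (z : u.adicCompletion K) < 1 := by
          rw [← sub_sub_cancel (algebraMap K (u.adicCompletion K) (x : K)) (z : u.adicCompletion K)]
          exact Valuation.map_sub_lt _ h1 (hxz.trans_lt (by rw [← exp_zero, exp_lt_exp]; omega))
        exact h2.ne hz1
      · refine hord x u ?_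
        have h1 := ordI_le_of_mem hxJ u
        rw [hJ, if_neg huv] at h1
        exact Ideal.pow_le_self (condExp_pos h hu).ne' h1
    refine ⟨x, hx0, ?_, hJ𝔫 hxJ, hxp, fun he => hzne ?_⟩
    · rw [coprime_iff_ordI]
      intro u hu
      refine hord0 u ?_
      by_contra hu'
      exact (FA.ArtinRec.ordI_eq_zero_iff u).1
        ((ordI_condIdeal h u).trans ((condExp_eq_zero_iff h).2 hu')) hu
    have h1 := map_principalIdeal h hv hm0 hx0 hf hord0
    rw [he, one_mul, show sgnS (signSet m) (x : K) = 1 from Finset.prod_eq_one fun w hw => by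
      rw [FA.HeckeCharFE.rv_eq_embedding (Finset.mem_filter.1 hw).2.1,
        Real.sign_of_pos (hxp _), Complex.ofReal_one], one_mul,
      Finset.prod_eq_single v (fun u hu huv => locVal_near_one h ((finite_ramSet h).mem_toFinset.1 hu)
        le_rfl (by
          have h2 := ordI_le_of_mem hxJ u
          rwa [hJ, if_neg huv] at h2))
        (fun hnot => absurd ((finite_ramSet h).mem_toFinset.2 hvram) hnot),
      ← add_sub_cancel (z : v.adicCompletion K) (algebraMap K (v.adicCompletion K) (x : K)),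
      locVal_add h hvram hxz, locVal_unit χ hz1] at h1
    exact Units.ext h1
  · by_contra hnt
    refine hχ (eq_one_of_unif h (finite_ramSet h) fun v hv' => Units.ext ?_)
    have h1 := hval v
    rw [if_neg hv'] at h1
    rw [← h1, Units.val_one]
    exact eq_one_of_not_isNontrivial hnt v.ne_bot (h1 ▸ Units.ne_zero _)

end FA.TateLocal

end
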