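import Mathlib.Analysis.SpecialFunctions.Gamma.Deligne
import Mathlib.Analysis.SpecialFunctions.Gaussian.FourierTransform
import Mathlib.Analysis.SpecialFunctions.PolarCoord
import Mathlib.Analysis.Calculus.ParametricIntegral
import Mathlib.MeasureTheory.Measure.Lebesgue.Complex
import Mathlib.MeasureTheory.Measure.Lebesgue.Integral

/-!
# Tate's local computations at the infinite places

`x ^ e exp (- π x²)` on the reals and `z̄ ^ n exp (- 2 π |z|²)`, `z ^ n exp (- 2 π |z|²)` on the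
complex numbers are carried to multiples of themselves or their conjugates by the transform for the
trace, and their zeta integrals against the matching characters are the Gamma factors of Deligne.
-/

set_option autoImplicit false
set_option linter.unusedSectionVars false
set_option linter.style.haveILetI false

noncomputable section

open MeasureTheory Filter Topology
open scoped Real ComplexConjugate ENNReal

namespace FA.TateLocal

/-- `x ^ |m| exp (- π x²)`. -/
def realTest (m : ℤ) (x : ℝ) : ℂ := (x : ℂ) ^ m.natAbs * Complex.exp ((-(π * x ^ 2) : ℝ) : ℂ)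

/-- `z̄ ^ m exp (- 2 π |z|²)` for `0 ≤ m` and `z ^ (- m) exp (- 2 π |z|²)` otherwise. -/
def cplxTest (m : ℤ) (z : ℂ) : ℂ :=
  conj z ^ m.toNat * z ^ (-m).toNat * Complex.exp ((-(2 * π * (z.re ^ 2 + z.im ^ 2)) : ℝ) : ℂ)

/-- `|x| ^ (i τ) sgn x ^ m`. -/
def realChar (τ : ℝ) (m : ℤ) (x : ℝ) : ℂ :=
  Complex.exp ((τ * Real.log |x| : ℝ) * Complex.I) * ((x : ℂ) / (|x| : ℝ)) ^ m

/-- `|z| ^ (2 i τ) (z / |z|) ^ m`. -/
def cplxChar (τ : ℝ) (m : ℤ) (z : ℂ) : ℂ :=
  Complex.exp ((2 * τ * Real.log ‖z‖ : ℝ) * Complex.I) * (z / (‖z‖ : ℝ)) ^ m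

/-- `exp (2 π i b x)`. -/
def realKer (b x : ℝ) : ℂ := Complex.exp ((2 * π * (b * x) : ℝ) * Complex.I)

/-- `exp (2 π i Tr (b z))`. -/
def cplxKer (b z : ℂ) : ℂ := Complex.exp ((2 * π * (2 * (b * z).re) : ℝ) * Complex.I)

theorem conj_realTest (m : ℤ) (x : ℝ) : conj (realTest m x) = realTest m x := by
  rw [realTest, map_mul, map_pow, Complex.conj_ofReal, ← Complex.exp_conj, Complex.conj_ofReal]

theorem realTest_neg (m : ℤ) (x : ℝ) : realTest (-m) x = realTest m x := by
  rw [realTest, realTest, Int.natAbs_neg]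

theorem conj_cplxTest (m : ℤ) (z : ℂ) : conj (cplxTest m z) = cplxTest (-m) z := by
  rw [cplxTest, cplxTest, map_mul, map_mul, map_pow, map_pow, Complex.conj_conj, ← Complex.exp_conj,
    Complex.conj_ofReal, neg_neg, mul_comm (z ^ m.toNat)]

/-! ### The transforms -/

/-- The integrand with a linear term and a power. -/
def realMoment (b : ℝ) (k : ℕ) (l : ℂ) (x : ℝ) : ℂ :=
  (x : ℂ) ^ k * Complex.exp (-(π : ℂ) * x ^ 2 + (l + 2 * π * b * Complex.I) * x + 0)

theorem integral_realMoment_zero (b : ℝ) (l : ℂ) :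
    ∫ x, realMoment b 0 l x = Complex.exp ((l + 2 * π * b * Complex.I) ^ 2 / (4 * π)) := by
  simp only [realMoment, pow_zero, one_mul]
  rw [integral_cexp_quadratic (by simp [Real.pi_pos]), neg_neg,
    div_self (Complex.ofReal_ne_zero.2 Real.pi_ne_zero), Complex.one_cpow, one_mul]
  congr 1
  field_simp
  ring

/-- **The transform of `x ^ e exp (- π x²)`.** -/
theorem fourier_realTest {m : ℤ} (hm : m.natAbs ≤ 1) (b : ℝ) :
    ∫ x, realTest m x * realKer b x = Complex.I ^ m.natAbs * realTest m b := by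
  have hπ : (π : ℂ) ≠ 0 := Complex.ofReal_ne_zero.2 Real.pi_ne_zero
  have hval : Complex.exp ((2 * π * b * Complex.I) ^ 2 / (4 * π)) =
      Complex.exp ((-(π * b ^ 2) : ℝ) : ℂ) := by
    congr 1
    push_cast
    field_simp
    rw [Complex.I_sq]
    ring
  have hint : ∀ x : ℝ, realTest m x * realKer b x = realMoment b m.natAbs 0 x := fun x => by
    rw [realTest, realKer, realMoment, mul_assoc, ← Complex.exp_add]
    congr 2
    push_cast
    ring
  simp_rw [hint]
  rcases Nat.le_one_iff_eq_zero_or_eq_one.1 hm with h | h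
  · rw [h, integral_realMoment_zero, zero_add, hval, realTest, h]
    simp
  have hd : HasDerivAt (fun l => ∫ x, realMoment b 0 l x) (∫ x, realMoment b 1 0 x) 0 := by
    have hi : ∀ l : ℂ, Integrable fun x : ℝ => Complex.exp (-(π : ℂ) * x ^ 2 + l * x + 0) := fun l =>
      integrable_cexp_quadratic (by simp [Real.pi_pos]) l 0
    refine (hasDerivAt_integral_of_dominated_loc_of_deriv_le (Metric.ball_mem_nhds (0 : ℂ) one_pos)
      (F := fun (l : ℂ) (x : ℝ) => realMoment b 0 l x)
      (F' := fun (l : ℂ) (x : ℝ) => realMoment b 1 l x)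
      (bound := fun x : ℝ => ‖Complex.exp (-(π : ℂ) * x ^ 2 + 2 * x + 0)‖ +
        ‖Complex.exp (-(π : ℂ) * x ^ 2 + (-2) * x + 0)‖)
      (Eventually.of_forall fun l => by unfold realMoment; fun_prop)
      ((hi (0 + 2 * π * b * Complex.I)).congr (Eventually.of_forall fun x => by simp [realMoment]))
      (by unfold realMoment; fun_prop)
      (Eventually.of_forall fun x l hl => ?_) ((hi _).norm.add (hi _).norm)
      (Eventually.of_forall fun x l _ => ?_)).2
    · have hl' : |l.re| ≤ 1 := (Complex.abs_re_le_norm l).trans (by simpa using (mem_ball_iff_norm.1 hl).le)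
      simp only [realMoment, pow_one, norm_mul, Complex.norm_real, Real.norm_eq_abs, Complex.norm_exp]
      simp [← Complex.ofReal_pow]
      rcases le_total 0 x with hx | hx
      · refine le_trans ?_ (le_add_of_nonneg_right (Real.exp_pos _).le)
        rw [abs_of_nonneg hx]
        calc x * Real.exp (-(π * x ^ 2) + l.re * x)
            ≤ Real.exp x * Real.exp (-(π * x ^ 2) + x) := by
              refine mul_le_mul (by linarith [Real.add_one_le_exp x]) (Real.exp_le_exp.2 ?_)
                (Real.exp_pos _).le (Real.exp_pos _).le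
              nlinarith [abs_le.1 hl']
          _ = _ := by rw [← Real.exp_add]; ring_nf
      · refine le_trans ?_ (le_add_of_nonneg_left (Real.exp_pos _).le)
        rw [abs_of_nonpos hx]
        calc -x * Real.exp (-(π * x ^ 2) + l.re * x)
            ≤ Real.exp (-x) * Real.exp (-(π * x ^ 2) - x) := by
              refine mul_le_mul (by linarith [Real.add_one_le_exp (-x)]) (Real.exp_le_exp.2 ?_)
                (Real.exp_pos _).le (Real.exp_pos _).le
              nlinarith [abs_le.1 hl']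
          _ = _ := by rw [← Real.exp_add]; ring_nf
    · simp only [realMoment]
      refine HasDerivAt.congr_deriv (((((hasDerivAt_id l).add_const (2 * π * b * Complex.I)).mul_const
        (x : ℂ)).const_add (-(π : ℂ) * x ^ 2)).add_const (0 : ℂ) |>.cexp.const_mul ((x : ℂ) ^ 0)) ?_
      simp only [id_eq]
      ring
  have hd' := (((hasDerivAt_id (0 : ℂ)).add_const (2 * π * b * Complex.I)).pow 2).div_const
    (4 * (π : ℂ)) |>.cexp
  have h1 := hd.unique (hd'.congr_of_eventuallyEq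
    (Eventually.of_forall fun l => integral_realMoment_zero b l))
  rw [h, h1, realTest, h]
  simp only [Pi.pow_apply, id_eq, zero_add, Nat.cast_ofNat, pow_one, hval]
  field_simp
  ring

/-- The integrand with a linear term in `z̄` and a power. -/
def cplxMoment (b : ℂ) (k : ℕ) (l : ℂ) (z : ℂ) : ℂ :=
  conj z ^ k * Complex.exp (-(2 * π : ℂ) * (z.re ^ 2 + z.im ^ 2) + l * conj z +
    2 * π * (2 * (b * z).re : ℝ) * Complex.I)

theorem integral_cplxMoment_zero (b l : ℂ) :
    ∫ z, cplxMoment b 0 l z =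
      1 / 2 * Complex.exp ((-(2 * π * (b.re ^ 2 + b.im ^ 2)) : ℝ) : ℂ) *
        Complex.exp (l * (Complex.I * b)) := by
  have hπ : (π : ℂ) ≠ 0 := Complex.ofReal_ne_zero.2 Real.pi_ne_zero
  have hneg : (-(2 * π) : ℂ).re < 0 := by simp [Real.pi_pos]
  have hpt : ∀ z : ℂ, cplxMoment b 0 l z =
      Complex.exp (-(2 * π) * (z.re : ℂ) ^ 2 + (l + 4 * π * b.re * Complex.I) * z.re + 0) *
      Complex.exp (-(2 * π) * (z.im : ℂ) ^ 2 + (-(l * Complex.I) - 4 * π * b.im * Complex.I) * z.im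
        + 0) := fun z => by
    rw [cplxMoment, pow_zero, one_mul, ← Complex.exp_add]
    congr 1
    have hc : conj z = (z.re : ℂ) - z.im * Complex.I := by
      apply Complex.ext <;> simp
    rw [hc, Complex.mul_re]
    push_cast
    ring
  simp_rw [hpt]
  have h := Complex.volume_preserving_equiv_real_prod.integral_comp
    Complex.measurableEquivRealProd.measurableEmbedding
    (fun p : ℝ × ℝ =>
      Complex.exp (-(2 * π) * (p.1 : ℂ) ^ 2 + (l + 4 * π * b.re * Complex.I) * p.1 + 0) *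
      Complex.exp (-(2 * π) * (p.2 : ℂ) ^ 2 + (-(l * Complex.I) - 4 * π * b.im * Complex.I) * p.2
        + 0))
  simp only [Complex.measurableEquivRealProd_apply] at h
  rw [h, Measure.volume_eq_prod, integral_prod_mul
    (fun x : ℝ => Complex.exp (-(2 * π) * (x : ℂ) ^ 2 + (l + 4 * π * b.re * Complex.I) * x + 0))
    (fun y : ℝ => Complex.exp (-(2 * π) * (y : ℂ) ^ 2 +
      (-(l * Complex.I) - 4 * π * b.im * Complex.I) * y + 0)),
    integral_cexp_quadratic hneg, integral_cexp_quadratic hneg, neg_neg,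
    mul_mul_mul_comm, ← Complex.exp_add]
  have e1 : ((π : ℂ) / (2 * π)) ^ (1 / 2 : ℂ) * ((π : ℂ) / (2 * π)) ^ (1 / 2 : ℂ) = 1 / 2 := by
    have e2 : (π : ℂ) / (2 * π) = 1 / 2 := by field_simp
    rw [e2, ← Complex.cpow_add _ _ (by norm_num), show (1 / 2 : ℂ) + 1 / 2 = 1 by norm_num,
      Complex.cpow_one]
  rw [e1, mul_assoc (1 / 2 : ℂ), ← Complex.exp_add]
  congr 2
  conv_rhs => rw [← Complex.re_add_im b]
  simp only [Complex.re_add_im]
  conv_rhs => arg 2; rw [← Complex.re_add_im b]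
  push_cast
  field_simp
  ring_nf
  simp only [Complex.I_sq]
  ring

theorem norm_cplxMoment (b l z : ℂ) (k : ℕ) : ‖cplxMoment b k l z‖ =
    ‖z‖ ^ k * Real.exp (-(2 * π) * ‖z‖ ^ 2 + (l * conj z).re) := by
  rw [cplxMoment, norm_mul, norm_pow, RCLike.norm_conj, Complex.norm_exp]
  congr 2
  have h : ‖z‖ ^ 2 = z.re ^ 2 + z.im ^ 2 := by rw [Complex.sq_norm, Complex.normSq_apply]; ring
  rw [h]
  simp [← Complex.ofReal_pow]

theorem norm_cplxMoment_le (b : ℂ) {l : ℂ} {R : ℝ} (hl : ‖l‖ ≤ R) (k : ℕ) (z : ℂ) :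
    ‖cplxMoment b k l z‖ ≤
      Real.exp ((k + R) ^ 2 / (4 * π)) * ‖Complex.exp (-(π : ℂ) * ‖z‖ ^ 2)‖ := by
  rw [norm_cplxMoment, Complex.norm_exp]
  simp [← Complex.ofReal_pow]
  have h1 : ‖z‖ ^ k ≤ Real.exp (k * ‖z‖) := by
    rw [Real.exp_nat_mul]
    exact pow_le_pow_left₀ (norm_nonneg z) (by linarith [Real.add_one_le_exp ‖z‖]) k
  have h2 : (l * conj z).re ≤ R * ‖z‖ := by
    refine (Complex.re_le_norm _).trans ?_
    rw [norm_mul, RCLike.norm_conj]
    exact mul_le_mul_of_nonneg_right hl (norm_nonneg z)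
  simp only [Complex.mul_re, Complex.conj_re, Complex.conj_im, mul_neg, sub_neg_eq_add] at h2
  refine (mul_le_mul h1 le_rfl (Real.exp_pos _).le (Real.exp_pos _).le).trans ?_
  rw [← Real.exp_add, ← Real.exp_add, Real.exp_le_exp]
  have h3 : (k + R) * ‖z‖ ≤ π * ‖z‖ ^ 2 + (k + R) ^ 2 / (4 * π) := by
    have := sq_nonneg (2 * π * ‖z‖ - (k + R))
    rw [← sub_nonneg]
    have e : π * ‖z‖ ^ 2 + (k + R) ^ 2 / (4 * π) - (k + R) * ‖z‖ =
        (2 * π * ‖z‖ - (k + R)) ^ 2 / (4 * π) := by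
      field_simp
      ring
    rw [e]
    positivity
  linarith

theorem integrable_gaussC : Integrable fun z : ℂ => Complex.exp (-(π : ℂ) * ‖z‖ ^ 2) := by
  simpa using GaussianFourier.integrable_cexp_neg_mul_sq_norm_add (V := ℂ)
    (b := (π : ℂ)) (by simp [Real.pi_pos]) 0 0

theorem continuous_cplxMoment (b : ℂ) (k : ℕ) (l : ℂ) : Continuous (cplxMoment b k l) := by
  unfold cplxMoment
  fun_prop

theorem integral_cplxMoment (b : ℂ) (k : ℕ) (l : ℂ) :
    ∫ z, cplxMoment b k l z = (Complex.I * b) ^ k *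
      (1 / 2 * Complex.exp ((-(2 * π * (b.re ^ 2 + b.im ^ 2)) : ℝ) : ℂ) *
        Complex.exp (l * (Complex.I * b))) := by
  induction k generalizing l with
  | zero => rw [integral_cplxMoment_zero, pow_zero, one_mul]
  | succ k ih =>
    have hd : HasDerivAt (fun l => ∫ z, cplxMoment b k l z) (∫ z, cplxMoment b (k + 1) l z) l := by
      refine (hasDerivAt_integral_of_dominated_loc_of_deriv_le (Metric.ball_mem_nhds l one_pos)
        (F := fun l z => cplxMoment b k l z) (F' := fun l z => cplxMoment b (k + 1) l z)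
        (bound := fun z => Real.exp ((((k + 1 : ℕ) : ℝ) + (‖l‖ + 1)) ^ 2 / (4 * π)) *
          ‖Complex.exp (-(π : ℂ) * ‖z‖ ^ 2)‖)
        (Eventually.of_forall fun w => (continuous_cplxMoment b k w).aestronglyMeasurable)
        ?_ (continuous_cplxMoment b (k + 1) l).aestronglyMeasurable
        (Eventually.of_forall fun z w hw => norm_cplxMoment_le b ?_ _ z)
        (integrable_gaussC.norm.const_mul _) (Eventually.of_forall fun z w _ => ?_)).2
      · exact (integrable_gaussC.norm.const_mul _).mono' (continuous_cplxMoment b k l).aestronglyMeasurable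
          (Eventually.of_forall fun z => norm_cplxMoment_le b le_rfl k z)
      · have := (mem_ball_iff_norm.1 hw).le
        have := norm_le_norm_add_norm_sub' w l
        linarith [norm_sub_rev w l]
      · simp only [cplxMoment]
        refine HasDerivAt.congr_deriv ((((hasDerivAt_id w).mul_const (conj z)).const_add
          (-(2 * π : ℂ) * (z.re ^ 2 + z.im ^ 2))).add_const
            (2 * π * (2 * (b * z).re : ℝ) * Complex.I) |>.cexp.const_mul (conj z ^ k)) ?_
        simp only [id_eq, one_mul]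
        ring
    have hd' := (((hasDerivAt_id l).mul_const (Complex.I * b)).cexp.const_mul
      (1 / 2 * Complex.exp ((-(2 * π * (b.re ^ 2 + b.im ^ 2)) : ℝ) : ℂ))).const_mul
        ((Complex.I * b) ^ k)
    rw [hd.unique (hd'.congr_of_eventuallyEq (Eventually.of_forall fun w => ih w))]
    simp only [id_eq]
    ring

/-- **The transform of `z̄ ^ n exp (- 2 π |z|²)` and of its conjugate.** -/
theorem fourier_cplxTest (m : ℤ) (b : ℂ) :
    ∫ z, cplxTest m z * cplxKer b z = 1 / 2 * Complex.I ^ m.natAbs * cplxTest (-m) b := by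
  have hnn : ∀ (k : ℕ) (b : ℂ), ∫ z, cplxTest k z * cplxKer b z =
      1 / 2 * Complex.I ^ k * cplxTest (-(k : ℤ)) b := fun k b => by
    have hint : ∀ z : ℂ, cplxTest k z * cplxKer b z = cplxMoment b k 0 z := fun z => by
      rw [cplxTest, cplxKer, cplxMoment, Int.toNat_natCast, show (-(k : ℤ)).toNat = 0 by omega,
        pow_zero, mul_one, mul_assoc, ← Complex.exp_add]
      congr 2
      push_cast
      ring
    simp_rw [hint]
    rw [integral_cplxMoment, zero_mul, Complex.exp_zero, mul_one, cplxTest, neg_neg,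
      Int.toNat_natCast, show (-(k : ℤ)).toNat = 0 by omega, pow_zero, one_mul, mul_pow]
    ring
  obtain ⟨k, rfl | rfl⟩ := m.eq_nat_or_neg
  · rw [hnn, Int.natAbs_natCast]
  · rw [Int.natAbs_neg, Int.natAbs_natCast, neg_neg]
    have h := congrArg (starRingEnd ℂ) (hnn k (-b))
    rw [← integral_conj] at h
    have he : ∀ z : ℂ, conj (cplxTest k z * cplxKer (-b) z) = cplxTest (-(k : ℤ)) z * cplxKer b z :=
      fun z => by
        rw [map_mul, conj_cplxTest]
        congr 1
        rw [cplxKer, cplxKer, ← Complex.exp_conj, map_mul, Complex.conj_ofReal, Complex.conj_I]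
        congr 1
        simp [Complex.mul_re]
        ring
    simp_rw [he] at h
    rw [h, map_mul, map_mul, map_pow, conj_cplxTest, neg_neg, Complex.conj_I, map_div₀, map_one,
      map_ofNat]
    have hb : cplxTest (k : ℤ) (-b) = (-1) ^ k * cplxTest k b := by
      simp only [cplxTest, Int.toNat_natCast, show (-(k : ℤ)).toNat = 0 by omega, pow_zero,
        mul_one, map_neg, neg_pow (conj b) k, Complex.neg_re, Complex.neg_im, neg_sq]
      ring
    rw [hb, neg_pow Complex.I k]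
    have h1 : ((-1 : ℂ)) ^ k * (-1) ^ k = 1 := by rw [← mul_pow]; norm_num
    linear_combination (1 / 2 * Complex.I ^ k * cplxTest (k : ℤ) b) * h1

/-! ### The zeta integrals -/

theorem integral_radial {a : ℂ} (ha : 0 < a.re) {b : ℝ} (hb : 0 < b) :
    ∫ r in Set.Ioi (0 : ℝ), (2 * r) • (((r ^ 2 : ℝ) : ℂ) ^ (a - 1) * Complex.exp (-(b * r ^ 2 : ℝ))) =
      (b : ℂ) ^ (-a) * Complex.Gamma a := by
  have h := integral_comp_rpow_Ioi_of_pos
    (g := fun t : ℝ => (t : ℂ) ^ (a - 1) * Complex.exp (-(b * t : ℝ))) (p := 2) two_pos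
  have e : ∀ r : ℝ, r ^ ((2 : ℝ) - 1) = r := fun r => by norm_num
  simp only [Real.rpow_two, e] at h
  rw [h]
  have h2 := Complex.integral_cpow_mul_exp_neg_mul_Ioi ha hb
  rw [one_div, Complex.inv_cpow _ _ (by rw [Complex.arg_ofReal_of_nonneg hb.le]; exact Real.pi_ne_zero.symm),
    ← Complex.cpow_neg] at h2
  simp only [Complex.ofReal_mul] at h2 ⊢
  exact h2

theorem map_abs_volume :
    Measure.map (fun x : ℝ => |x|) volume = (2 : ℝ≥0∞) • (volume : Measure ℝ).restrict (Set.Ioi 0) := by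
  have hm : Measurable fun x : ℝ => |x| := continuous_abs.measurable
  have h : (volume : Measure ℝ) =
      (volume : Measure ℝ).restrict (Set.Iio 0) + (volume : Measure ℝ).restrict (Set.Ioi 0) := by
    rw [Measure.restrict_congr_set Iio_ae_eq_Iic, ← Set.compl_Iic,
      Measure.restrict_add_restrict_compl measurableSet_Iic]
  have hpos : Measure.map (fun x : ℝ => |x|) ((volume : Measure ℝ).restrict (Set.Ioi 0)) =
      (volume : Measure ℝ).restrict (Set.Ioi 0) := by
    refine (Measure.map_congr ((ae_restrict_of_forall_mem measurableSet_Ioi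
      fun x (hx : 0 < x) => abs_of_pos hx))).trans Measure.map_id
  have hneg : Measure.map (fun x : ℝ => |x|) ((volume : Measure ℝ).restrict (Set.Iio 0)) =
      (volume : Measure ℝ).restrict (Set.Ioi 0) := by
    refine (Measure.map_congr (g := fun x : ℝ => -x) ((ae_restrict_of_forall_mem measurableSet_Iio
      fun x (hx : x < 0) => abs_of_neg hx))).trans ?_
    rw [show Set.Iio (0 : ℝ) = (fun x => -x) ⁻¹' Set.Ioi 0 by ext x; simp,
      ← Measure.restrict_map measurable_neg measurableSet_Ioi,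
      (Measure.measurePreserving_neg (volume : Measure ℝ)).map_eq]
  conv_lhs => rw [h, Measure.map_add _ _ hm, hpos, hneg]
  rw [two_smul]

/-- The integrand of the real zeta integral. -/
def realInt (τ : ℝ) (m : ℤ) (s : ℂ) (x : ℝ) : ℂ :=
  realTest m x * realChar τ m x * ((|x| : ℝ) : ℂ) ^ s

theorem realInt_eq {x : ℝ} (hx : x ≠ 0) (τ : ℝ) (m : ℤ) (s : ℂ) :
    realInt τ m s x = ((|x| : ℝ) : ℂ) ^ (s + τ * Complex.I + m.natAbs) *
      Complex.exp ((-(π * |x| ^ 2) : ℝ) : ℂ) := by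
  have hr : (0 : ℝ) < |x| := abs_pos.2 hx
  have hr' : ((|x| : ℝ) : ℂ) ≠ 0 := Complex.ofReal_ne_zero.2 hr.ne'
  have hP : (x : ℂ) ^ m.natAbs * ((x : ℂ) / (|x| : ℝ)) ^ m = ((|x| : ℝ) : ℂ) ^ m.natAbs := by
    rcases lt_or_gt_of_ne hx with hx0 | hx0
    · rw [abs_of_neg hx0, Complex.ofReal_neg, div_neg, div_self (Complex.ofReal_ne_zero.2 hx),
        neg_pow (x : ℂ) m.natAbs, mul_comm]
      congr 1
      rcases m.natAbs_eq with h | h <;> conv_lhs => rw [h]
      · rw [zpow_natCast]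
      · rw [zpow_neg, zpow_natCast, ← inv_pow, inv_neg, inv_one]
    · rw [abs_of_pos hx0, div_self (Complex.ofReal_ne_zero.2 hx), one_zpow, mul_one]
  rw [Complex.cpow_add _ _ hr', Complex.cpow_add _ _ hr', Complex.cpow_natCast, ← hP, realInt,
    realTest, realChar, sq_abs]
  rw [Complex.cpow_def_of_ne_zero hr' ((τ : ℂ) * Complex.I), ← Complex.ofReal_log hr.le]
  push_cast
  ring_nf

/-- **The real zeta integral.** -/
theorem zeta_realTest (τ : ℝ) (m : ℤ) {s : ℂ} (hs : 0 < s.re) :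
    ∫ x : ℝ, |x|⁻¹ • realInt τ m s x = Complex.Gammaℝ (s + τ * Complex.I + m.natAbs) := by
  set w : ℂ := s + τ * Complex.I + m.natAbs
  have hw : 0 < (w / 2).re := by
    have : (w / 2).re = (s.re + m.natAbs) / 2 := by simp [w, Complex.div_ofNat_re]
    rw [this]
    positivity
  set g : ℝ → ℂ := fun r => r⁻¹ • ((r : ℂ) ^ w * Complex.exp ((-(π * r ^ 2) : ℝ) : ℂ))
  have h1 : ∫ x : ℝ, |x|⁻¹ • realInt τ m s x = ∫ x : ℝ, g |x| := by
    refine integral_congr_ae ((ae_iff.2 ?_))
    refine measure_mono_null (fun x hx => ?_) (measure_singleton (0 : ℝ))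
    by_contra h0
    exact hx (by show |x|⁻¹ • realInt τ m s x = g |x|; rw [realInt_eq h0])
  have h2 : ∫ x : ℝ, g |x| = 2 * ∫ x in Set.Ioi (0 : ℝ), g x := by
    rw [← integral_map continuous_abs.measurable.aemeasurable
      (by fun_prop : Measurable g).aestronglyMeasurable, map_abs_volume, integral_smul_measure,
      show ((2 : ℝ≥0∞).toReal : ℝ) = 2 by simp, Complex.real_smul, Complex.ofReal_ofNat]
  rw [h1, h2, Complex.Gammaℝ_def, show -w / 2 = -(w / 2) by ring,
    ← integral_radial hw Real.pi_pos, ← integral_const_mul]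
  refine setIntegral_congr_fun measurableSet_Ioi fun r hr => ?_
  have hr0 : (r : ℂ) ≠ 0 := Complex.ofReal_ne_zero.2 (ne_of_gt hr)
  have e : ((r ^ 2 : ℝ) : ℂ) ^ (w / 2 - 1) = (r : ℂ) ^ w / (r : ℂ) ^ 2 := by
    rw [Complex.ofReal_pow, sq, Complex.mul_cpow_ofReal_nonneg (le_of_lt hr) (le_of_lt hr),
      ← Complex.cpow_add _ _ hr0, show w / 2 - 1 + (w / 2 - 1) = w - 2 by ring,
      Complex.cpow_sub _ _ hr0]
    congr 1
    rw [show (2 : ℂ) = ((2 : ℕ) : ℂ) by norm_num, Complex.cpow_natCast, sq]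
  simp only [g, Complex.real_smul, e]
  push_cast
  field_simp

/-- The integrand of the complex zeta integral. -/
def cplxInt (τ : ℝ) (m : ℤ) (s : ℂ) (z : ℂ) : ℂ :=
  cplxTest m z * cplxChar τ m z * ((‖z‖ ^ 2 : ℝ) : ℂ) ^ s

theorem cplxInt_eq {z : ℂ} (hz : z ≠ 0) (τ : ℝ) (m : ℤ) (s : ℂ) :
    cplxInt τ m s z = ((‖z‖ ^ 2 : ℝ) : ℂ) ^ (s + τ * Complex.I + m.natAbs / 2) *
      Complex.exp ((-(2 * π * ‖z‖ ^ 2) : ℝ) : ℂ) := by
  have hr : (0 : ℝ) < ‖z‖ := norm_pos_iff.2 hz
  have hr' : ((‖z‖ : ℝ) : ℂ) ≠ 0 := Complex.ofReal_ne_zero.2 hr.ne'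
  have hq' : ((‖z‖ ^ 2 : ℝ) : ℂ) ≠ 0 := Complex.ofReal_ne_zero.2 (pow_ne_zero _ hr.ne')
  have hhalf : ∀ k : ℕ, ((‖z‖ ^ 2 : ℝ) : ℂ) ^ ((k : ℂ) / 2) = ((‖z‖ : ℝ) : ℂ) ^ k := fun k => by
    rw [Complex.cpow_def_of_ne_zero hq', ← Complex.ofReal_log (pow_nonneg hr.le 2), Real.log_pow,
      ← Complex.cpow_natCast, Complex.cpow_def_of_ne_zero hr', ← Complex.ofReal_log hr.le]
    push_cast
    congr 1
    ring
  have hP : conj z ^ m.toNat * z ^ (-m).toNat * (z / (‖z‖ : ℝ)) ^ m =
      ((‖z‖ : ℝ) : ℂ) ^ m.natAbs := by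
    have hmn : conj z * (z / (‖z‖ : ℝ)) = ((‖z‖ : ℝ) : ℂ) := by
      rw [mul_div_assoc', Complex.conj_mul', sq]
      field_simp
    obtain ⟨k, rfl | rfl⟩ := m.eq_nat_or_neg
    · rw [Int.toNat_natCast, Int.natAbs_natCast, show (-(k : ℤ)).toNat = 0 by omega, pow_zero,
        mul_one, zpow_natCast, ← mul_pow, hmn]
    · rw [Int.natAbs_neg, Int.natAbs_natCast, neg_neg, Int.toNat_natCast,
        show (-(k : ℤ)).toNat = 0 by omega, pow_zero, one_mul, zpow_neg, zpow_natCast, ← inv_pow,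
        ← mul_pow]
      congr 1
      field_simp
  rw [Complex.cpow_add _ _ hq', Complex.cpow_add _ _ hq', hhalf, ← hP, cplxInt, cplxTest, cplxChar,
    show z.re ^ 2 + z.im ^ 2 = ‖z‖ ^ 2 by rw [Complex.sq_norm, Complex.normSq_apply]; ring,
    Complex.cpow_def_of_ne_zero hq' ((τ : ℂ) * Complex.I), ← Complex.ofReal_log (pow_nonneg hr.le 2),
    Real.log_pow]
  push_cast
  ring_nf

theorem integral_radial_plane (g : ℝ → ℂ) :
    ∫ z : ℂ, g ‖z‖ = (2 * π : ℝ) * ∫ r in Set.Ioi (0 : ℝ), (r : ℂ) * g r := by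
  rw [← Complex.integral_comp_polarCoord_symm]
  have h : ∀ p ∈ polarCoord.target, p.1 • g ‖Complex.polarCoord.symm p‖ =
      (p.1 : ℂ) * g p.1 * (fun _ : ℝ => (1 : ℂ)) p.2 := fun p hp => by
    rw [Complex.norm_polarCoord_symm, abs_of_pos (show (0 : ℝ) < p.1 from hp.1), Complex.real_smul,
      mul_one]
  rw [setIntegral_congr_fun polarCoord.open_target.measurableSet h,
    polarCoord_target, Measure.volume_eq_prod,
    setIntegral_prod_mul (fun r : ℝ => (r : ℂ) * g r) (fun _ : ℝ => (1 : ℂ)), setIntegral_const,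
    mul_comm]
  congr 1
  simp
  rw [max_eq_left (by linarith [Real.pi_pos])]
  push_cast
  ring

/-- **The complex zeta integral.** -/
theorem zeta_cplxTest (τ : ℝ) (m : ℤ) {s : ℂ} (hs : 0 < s.re) :
    ∫ z : ℂ, (‖z‖ ^ 2)⁻¹ • cplxInt τ m s z =
      (π / 2 : ℝ) * Complex.Gammaℂ (s + τ * Complex.I + m.natAbs / 2) := by
  set w : ℂ := s + τ * Complex.I + m.natAbs / 2
  have hw : 0 < w.re := by
    have : w.re = s.re + (m.natAbs : ℝ) / 2 := by simp [w]
    rw [this]
    positivity
  set g : ℝ → ℂ := fun r => (r ^ 2)⁻¹ •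
    (((r ^ 2 : ℝ) : ℂ) ^ w * Complex.exp ((-(2 * π * r ^ 2) : ℝ) : ℂ))
  have h1 : ∫ z : ℂ, (‖z‖ ^ 2)⁻¹ • cplxInt τ m s z = ∫ z : ℂ, g ‖z‖ := by
    refine integral_congr_ae ((ae_iff.2 ?_))
    refine measure_mono_null (fun z hz => ?_) (measure_singleton (0 : ℂ))
    by_contra h0
    exact hz (by show (‖z‖ ^ 2)⁻¹ • cplxInt τ m s z = g ‖z‖; rw [cplxInt_eq h0])
  rw [h1, integral_radial_plane, Complex.Gammaℂ_def,
    show (2 : ℂ) * (2 * π) ^ (-w) * Complex.Gamma w =
      2 * (((2 * π : ℝ) : ℂ) ^ (-w) * Complex.Gamma w) by push_cast; ring,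
    ← integral_radial hw (by positivity : (0 : ℝ) < 2 * π), ← integral_const_mul,
    ← integral_const_mul, ← integral_const_mul]
  refine setIntegral_congr_fun measurableSet_Ioi fun r hr => ?_
  have hr0 : ((r ^ 2 : ℝ) : ℂ) ≠ 0 := Complex.ofReal_ne_zero.2 (pow_ne_zero _ (ne_of_gt hr))
  simp only [g, Complex.real_smul, Complex.cpow_sub _ _ hr0, Complex.cpow_one]
  push_cast at hr0 ⊢
  field_simp

end FA.TateLocal

end
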