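import Fermat.Agent.TateLocal.LocalZeta
import Fermat.Agent.TateLocal.Gauss
import Fermat.Agent.IdeleClass.InfType
import Mathlib.Analysis.Distribution.SchwartzSpace.Fourier
import Mathlib.Analysis.SpecialFunctions.Complex.Log

/-!
# The local functional equation at the infinite places

The unitary characters of the real and complex units, the zeta integrals of Schwartz functions
against them, and Tate's equation with the powers of `I` as root numbers.
-/

set_option autoImplicit false
set_option linter.unusedSectionVars false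
set_option linter.style.haveILetI false

noncomputable section

open MeasureTheory Filter Topology
open scoped Real ComplexConjugate ENNReal NNReal SchwartzMap FourierTransform

set_option maxHeartbeats 400000

namespace FA.TateLocal

/-- The standard character of the reals, conjugated. -/
def realPsi (x : ℝ) : ℂ := realKer 1 x

/-- The standard character of the complex numbers, conjugated. -/
def cplxPsi (z : ℂ) : ℂ := cplxKer 1 z

/-- The self-dual measure of the complex numbers. -/
def cplxDual : Measure ℂ := (2 : ℝ≥0∞) • volume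

instance sFinite_cplxDual : SFinite cplxDual := by unfold cplxDual; infer_instance

/-- The normalised absolute value of the complex numbers. -/
def cplxAbs (z : ℂ) : ℝ := ‖z‖ ^ 2

theorem isScale_real : IsScale (volume : Measure ℝ) (fun x : ℝ => |x|) where
  meas := continuous_abs.measurable
  zero := abs_zero
  pos _ hy := abs_pos.2 hy
  mul := abs_mul
  null := measure_singleton 0
  map a ha := by rw [Real.map_volume_mul_left ha, abs_inv]

theorem map_volume_mul_cplx {a : ℂ} (ha : a ≠ 0) :
    Measure.map (a * ·) (volume : Measure ℂ) = ENNReal.ofReal (‖a‖ ^ 2)⁻¹ • volume := by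
  have hdet : LinearMap.det (LinearMap.mulLeft ℝ a) = ‖a‖ ^ 2 := by
    rw [show LinearMap.mulLeft ℝ a = Algebra.lmul ℝ ℂ a from rfl, ← Algebra.norm_apply,
      Algebra.norm_complex_apply, ← Complex.sq_norm]
  have h := Measure.map_linearMap_addHaar_eq_smul_addHaar (volume : Measure ℂ)
    (f := LinearMap.mulLeft ℝ a) (by rw [hdet]; exact pow_ne_zero _ (norm_ne_zero_iff.2 ha))
  rw [hdet, abs_inv, abs_of_nonneg (by positivity)] at h
  exact h

theorem isScale_cplx : IsScale cplxDual cplxAbs where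
  meas := (continuous_norm.pow 2).measurable
  zero := by simp [cplxAbs]
  pos y hy := pow_pos (norm_pos_iff.2 hy) 2
  mul x y := by rw [cplxAbs, cplxAbs, cplxAbs, norm_mul, mul_pow]
  null := by simp [cplxDual]
  map a ha := by
    rw [cplxDual, Measure.map_smul, map_volume_mul_cplx ha, smul_comm]
    rfl

/-! ### The characters -/

theorem isUnitChar_realChar (τ : ℝ) (m : ℤ) : IsUnitChar (realChar τ m) where
  meas := by unfold realChar; fun_prop
  norm y hy := by
    rw [realChar, norm_mul, Complex.norm_exp_ofReal_mul_I, one_mul, norm_zpow, norm_div,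
      Complex.norm_real, Complex.norm_real, Real.norm_eq_abs, Real.norm_eq_abs, abs_abs,
      div_self (abs_ne_zero.2 hy), one_zpow]
  mul x y hx hy := by
    simp only [realChar, abs_mul, Real.log_mul (abs_ne_zero.2 hx) (abs_ne_zero.2 hy), mul_add,
      Complex.ofReal_add, add_mul, Complex.exp_add, Complex.ofReal_mul, mul_div_mul_comm, mul_zpow]
    ring

theorem isUnitChar_cplxChar (τ : ℝ) (m : ℤ) : IsUnitChar (cplxChar τ m) where
  meas := by unfold cplxChar; fun_prop
  norm y hy := by
    rw [cplxChar, norm_mul, Complex.norm_exp_ofReal_mul_I, one_mul, norm_zpow, norm_div,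
      Complex.norm_real, norm_norm, div_self (norm_ne_zero_iff.2 hy), one_zpow]
  mul x y hx hy := by
    simp only [cplxChar, norm_mul, Real.log_mul (norm_ne_zero_iff.2 hx) (norm_ne_zero_iff.2 hy),
      mul_add, Complex.ofReal_add, add_mul, Complex.exp_add, Complex.ofReal_mul, mul_div_mul_comm,
      mul_zpow]
    ring

theorem conj_realChar (τ : ℝ) (m : ℤ) (x : ℝ) : conj (realChar τ m x) = realChar (-τ) (-m) x := by
  rw [realChar, realChar, map_mul, ← Complex.exp_conj, map_mul, Complex.conj_ofReal,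
    Complex.conj_I, map_zpow₀, map_div₀, Complex.conj_ofReal, Complex.conj_ofReal]
  rcases eq_or_ne x 0 with rfl | hx
  · rcases eq_or_ne m 0 with rfl | hm
    · simp
    · simp [zero_zpow m hm, zero_zpow (-m) (neg_ne_zero.2 hm)]
  congr 1
  · push_cast
    ring_nf
  · rw [zpow_neg, ← inv_zpow, inv_div]
    congr 1
    rcases lt_or_gt_of_ne hx with h | h
    · rw [abs_of_neg h]
      push_cast
      have : (x : ℂ) ≠ 0 := Complex.ofReal_ne_zero.2 hx
      field_simp
    · rw [abs_of_pos h]

theorem conj_cplxChar (τ : ℝ) (m : ℤ) (z : ℂ) : conj (cplxChar τ m z) = cplxChar (-τ) (-m) z := by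
  rw [cplxChar, cplxChar, map_mul, ← Complex.exp_conj, map_mul, Complex.conj_ofReal,
    Complex.conj_I, map_zpow₀, map_div₀, Complex.conj_ofReal]
  rcases eq_or_ne z 0 with rfl | hz
  · rcases eq_or_ne m 0 with rfl | hm
    · simp
    · simp [zero_zpow m hm, zero_zpow (-m) (neg_ne_zero.2 hm)]
  congr 1
  · push_cast
    ring_nf
  · rw [zpow_neg, ← inv_zpow, inv_div]
    congr 1
    have hn : ((‖z‖ : ℝ) : ℂ) ≠ 0 := Complex.ofReal_ne_zero.2 (norm_ne_zero_iff.2 hz)
    rw [div_eq_div_iff hn hz, Complex.conj_mul', sq]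

/-- A continuous unitary character of the real units is `|x| ^ (i τ) sgn x ^ m`. -/
theorem exists_realChar {η : ℝˣ →* ℂˣ} (hc : Continuous η)
    (hu : ∀ x, ‖((η x : ℂˣ) : ℂ)‖ = 1) :
    ∃ (τ : ℝ) (m : ℤ), m.natAbs ≤ 1 ∧ ∀ x : ℝˣ, ((η x : ℂˣ) : ℂ) = realChar τ m x := by
  set e : ℝ → ℝˣ := fun t => Units.mk0 (Real.exp t) (Real.exp_pos t).ne' with he
  have hce : Continuous e :=
    Units.isEmbedding_val₀.continuous_iff.2 Real.continuous_exp
  obtain ⟨τ, hτ⟩ := FA.IdeleClass.exists_real_of_hom (f := fun t => ((η (e t) : ℂˣ) : ℂ))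
    (Units.continuous_val.comp (hc.comp hce)) (fun t => hu _) fun s t => by
      rw [← Units.val_mul, ← map_mul]
      exact congrArg (fun z => ((η z : ℂˣ) : ℂ)) (Units.ext (Real.exp_add s t))
  have hpos : ∀ x : ℝˣ, 0 < (x : ℝ) →
      ((η x : ℂˣ) : ℂ) = Complex.exp ((τ * Real.log (x : ℝ) : ℝ) * Complex.I) := fun x hx => by
    rw [← hτ]
    exact congrArg (fun z => ((η z : ℂˣ) : ℂ)) (Units.ext (Real.exp_log hx).symm)
  set σ : ℂ := ((η (-1) : ℂˣ) : ℂ)
  have hσ : σ * σ = 1 := by
    rw [← Units.val_mul, ← map_mul, neg_one_mul, neg_neg, map_one, Units.val_one]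
  refine ⟨τ, if σ = 1 then 0 else 1, by split_ifs <;> simp, fun x => ?_⟩
  rcases lt_or_gt_of_ne (x.ne_zero : (x : ℝ) ≠ 0) with hneg | hp
  · have h1 : ((η x : ℂˣ) : ℂ) = σ * ((η (-x) : ℂˣ) : ℂ) := by
      rw [← Units.val_mul, ← map_mul, neg_one_mul, neg_neg]
    rw [h1, hpos (-x) (by simpa using hneg), realChar, Units.val_neg, abs_of_neg hneg,
      Complex.ofReal_neg, div_neg, div_self (Complex.ofReal_ne_zero.2 x.ne_zero), mul_comm σ]
    congr 1
    split_ifs with h
    · rw [h, zpow_zero]
    · rw [zpow_one]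
      rcases mul_self_eq_one_iff.1 hσ with h' | h'
      exacts [absurd h' h, h']
  · rw [hpos x hp, realChar, abs_of_pos hp, div_self (Complex.ofReal_ne_zero.2 x.ne_zero),
      one_zpow, mul_one]

/-- A continuous unitary character of the complex units is `|z| ^ (2 i τ) (z / |z|) ^ m`. -/
theorem exists_cplxChar {η : ℂˣ →* ℂˣ} (hc : Continuous η)
    (hu : ∀ x, ‖((η x : ℂˣ) : ℂ)‖ = 1) :
    ∃ (τ : ℝ) (m : ℤ), ∀ z : ℂˣ, ((η z : ℂˣ) : ℂ) = cplxChar τ m z := by
  set e : ℂ → ℂˣ := fun t => Units.mk0 (Complex.exp t) (Complex.exp_ne_zero t) with he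
  have hce : Continuous e := Units.isEmbedding_val₀.continuous_iff.2 Complex.continuous_exp
  have hadd : ∀ a b, ((η (e (a + b)) : ℂˣ) : ℂ) = η (e a) * η (e b) := fun a b => by
    rw [← Units.val_mul, ← map_mul]
    exact congrArg (fun z => ((η z : ℂˣ) : ℂ)) (Units.ext (Complex.exp_add a b))
  obtain ⟨τ, hτ⟩ := FA.IdeleClass.exists_real_of_hom (f := fun t : ℝ => ((η (e t) : ℂˣ) : ℂ))
    (Units.continuous_val.comp (hc.comp (hce.comp Complex.continuous_ofReal))) (fun t => hu _)
    fun s t => by rw [Complex.ofReal_add, hadd]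
  obtain ⟨k, hk⟩ := FA.IdeleClass.exists_real_of_hom
    (f := fun t : ℝ => ((η (e (t * Complex.I)) : ℂˣ) : ℂ))
    (Units.continuous_val.comp (hc.comp (hce.comp (Complex.continuous_ofReal.mul continuous_const))))
    (fun t => hu _) fun s t => by rw [Complex.ofReal_add, add_mul, hadd]
  have h2 : Complex.exp ((k * (2 * π) : ℝ) * Complex.I) = 1 := by
    rw [← hk, show e ((2 * π : ℝ) * Complex.I) = 1 from Units.ext (by
      show Complex.exp _ = 1
      push_cast
      exact Complex.exp_two_pi_mul_I), map_one, Units.val_one]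
  obtain ⟨n, hn⟩ := Complex.exp_eq_one_iff.1 h2
  have hkn : k = n := by
    have h := congrArg Complex.im hn
    simp at h
    exact h
  refine ⟨τ / 2, n, fun z => ?_⟩
  have hz : (z : ℂ) ≠ 0 := z.ne_zero
  have hdec : z = e ((Real.log ‖(z : ℂ)‖ : ℝ) + (Complex.arg z : ℝ) * Complex.I) := Units.ext (by
    show (z : ℂ) = Complex.exp _
    rw [Complex.exp_add, ← Complex.ofReal_exp, Real.exp_log (norm_pos_iff.2 hz),
      Complex.norm_mul_exp_arg_mul_I])
  conv_lhs => rw [hdec]
  rw [hadd, hτ, hk, hkn, cplxChar, show 2 * (τ / 2) = τ by ring]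
  congr 1
  have hph : (z : ℂ) / (‖(z : ℂ)‖ : ℝ) = Complex.exp ((Complex.arg z : ℝ) * Complex.I) := by
    rw [div_eq_iff (Complex.ofReal_ne_zero.2 (norm_ne_zero_iff.2 hz)), mul_comm,
      Complex.norm_mul_exp_arg_mul_I]
  rw [hph, ← Complex.exp_int_mul]
  push_cast
  ring_nf

/-! ### The zeta integrals of the reference functions -/

theorem zetaLoc_realTest (τ : ℝ) (m : ℤ) {s : ℂ} (hs : 0 < s.re) :
    zetaLoc volume (fun x : ℝ => |x|) (realTest m) (realChar τ m) s =
      Complex.Gammaℝ (s + τ * Complex.I + m.natAbs) := by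
  rw [← zeta_realTest τ m hs]
  refine integral_congr_ae (isScale_real.ae_ne.mono fun x hx => ?_)
  show realTest m x * realChar τ m x * ((|x| : ℝ) : ℂ) ^ (s - 1) = _
  beta_reduce
  rw [realInt, Complex.real_smul, Complex.cpow_sub _ _ (Complex.ofReal_ne_zero.2 (abs_ne_zero.2 hx)),
    Complex.cpow_one]
  push_cast
  ring

theorem zetaLoc_cplxTest (τ : ℝ) (m : ℤ) {s : ℂ} (hs : 0 < s.re) :
    zetaLoc cplxDual cplxAbs (cplxTest m) (cplxChar τ m) s =
      π * Complex.Gammaℂ (s + τ * Complex.I + m.natAbs / 2) := by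
  rw [zetaLoc, cplxDual, integral_smul_measure, show (2 : ℝ≥0∞).toReal = 2 by simp,
    Complex.real_smul]
  have h : ∫ z : ℂ, cplxTest m z * cplxChar τ m z * (cplxAbs z : ℂ) ^ (s - 1) =
      ∫ z : ℂ, (‖z‖ ^ 2)⁻¹ • cplxInt τ m s z := by
    refine integral_congr_ae (((ae_iff.2 (by simpa using measure_singleton (0 : ℂ))) :
      ∀ᵐ z : ℂ, z ≠ 0).mono fun z hz => ?_)
    show cplxTest m z * cplxChar τ m z * ((‖z‖ ^ 2 : ℝ) : ℂ) ^ (s - 1) = _
    beta_reduce
    rw [cplxInt, Complex.real_smul, Complex.cpow_sub _ _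
      (Complex.ofReal_ne_zero.2 (pow_ne_zero 2 (norm_ne_zero_iff.2 hz))), Complex.cpow_one]
    push_cast
    ring
  rw [h, zeta_cplxTest τ m hs]
  push_cast
  ring

/-! ### Test functions -/

theorem integrable_zeta_realTest (m : ℤ) {σ : ℝ} (hσ : 0 < σ) :
    Integrable (fun x : ℝ => ‖realTest m x‖ * |x| ^ (σ - 1)) := by
  have hs : 0 < (σ : ℂ).re := by simpa using hσ
  have hi : Integrable (fun x : ℝ => |x|⁻¹ • realInt 0 m σ x) := by
    by_contra h
    have h1 := zeta_realTest 0 m hs
    rw [integral_undef h] at h1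
    exact Complex.Gammaℝ_ne_zero_of_re_pos (by simp; positivity) h1.symm
  refine hi.norm.congr (isScale_real.ae_ne.mono fun x hx => ?_)
  show ‖|x|⁻¹ • realInt 0 m σ x‖ = _
  beta_reduce
  rw [realInt, norm_smul, norm_mul, norm_mul, (isUnitChar_realChar 0 m).norm x hx,
    Complex.norm_cpow_eq_rpow_re_of_pos (abs_pos.2 hx), Real.rpow_sub_one (abs_ne_zero.2 hx),
    Real.norm_eq_abs, abs_inv, abs_abs, Complex.ofReal_re]
  ring

theorem integrable_zeta_cplxTest (m : ℤ) {σ : ℝ} (hσ : 0 < σ) :
    Integrable (fun z : ℂ => ‖cplxTest m z‖ * cplxAbs z ^ (σ - 1)) := by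
  have hs : 0 < (σ : ℂ).re := by simpa using hσ
  have hi : Integrable (fun z : ℂ => (‖z‖ ^ 2)⁻¹ • cplxInt 0 m σ z) := by
    by_contra h
    have h1 := zeta_cplxTest 0 m hs
    rw [integral_undef h] at h1
    refine mul_ne_zero (Complex.ofReal_ne_zero.2 (by positivity)) ?_ h1.symm
    rw [Complex.Gammaℂ_def]
    refine mul_ne_zero (mul_ne_zero two_ne_zero ?_) (Complex.Gamma_ne_zero_of_re_pos ?_)
    · simp [Real.pi_ne_zero]
    · simp
      positivity
  refine hi.norm.congr (((ae_iff.2 (by simpa using measure_singleton (0 : ℂ))) :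
      ∀ᵐ z : ℂ, z ≠ 0).mono fun z hz => ?_)
  show ‖(‖z‖ ^ 2)⁻¹ • cplxInt 0 m σ z‖ = _
  beta_reduce
  rw [cplxInt, norm_smul, norm_mul, norm_mul, (isUnitChar_cplxChar 0 m).norm z hz,
    Complex.norm_cpow_eq_rpow_re_of_pos (pow_pos (norm_pos_iff.2 hz) 2), cplxAbs,
    Real.rpow_sub_one (pow_ne_zero 2 (norm_ne_zero_iff.2 hz)), norm_inv, norm_pow, norm_norm,
    Complex.ofReal_re]
  ring

theorem isTestFn_realTest (m : ℤ) : IsTestFn volume (fun x : ℝ => |x|) (realTest m) where
  meas := (by unfold realTest; fun_prop : Continuous (realTest m)).stronglyMeasurable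
  int := by
    refine (integrable_norm_iff
      (by unfold realTest; fun_prop : Continuous (realTest m)).aestronglyMeasurable).1 ?_
    simpa using integrable_zeta_realTest m one_pos
  zeta σ hσ := integrable_zeta_realTest m hσ

theorem IsTestFn.smul_measure {F : Type*} [Field F] [MeasurableSpace F] {μ : Measure F}
    {md : F → ℝ} {f : F → ℂ} (h : IsTestFn μ md f) {c : ℝ≥0∞} (hc : c ≠ ⊤) :
    IsTestFn (c • μ) md f :=
  ⟨h.meas, h.int.smul_measure hc, fun σ hσ => (h.zeta σ hσ).smul_measure hc⟩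

theorem isTestFn_cplxTest (m : ℤ) : IsTestFn cplxDual cplxAbs (cplxTest m) := by
  refine IsTestFn.smul_measure ⟨?_, ?_, fun σ hσ => integrable_zeta_cplxTest m hσ⟩ (by simp)
  · exact (by unfold cplxTest; fun_prop : Continuous (cplxTest m)).stronglyMeasurable
  · refine (integrable_norm_iff
      (by unfold cplxTest; fun_prop : Continuous (cplxTest m)).aestronglyMeasurable).1 ?_
    simpa using integrable_zeta_cplxTest m one_pos

theorem isTestFn_schwartz_real (f : 𝓢(ℝ, ℂ)) : IsTestFn volume (fun x : ℝ => |x|) f where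
  meas := f.continuous.stronglyMeasurable
  int := f.integrable
  zeta σ hσ := by
    set C := SchwartzMap.seminorm ℝ 0 0 f
    refine (((integrable_zeta_realTest 0 hσ).const_mul (C * Real.exp π)).add
      (f.integrable_pow_mul volume ⌈σ⌉₊)).mono'
      (f.continuous.norm.measurable.mul (continuous_abs.measurable.pow_const _)).aestronglyMeasurable
      (Eventually.of_forall fun x => ?_)
    have h0 : (0 : ℝ) ≤ |x| ^ (σ - 1) := Real.rpow_nonneg (abs_nonneg x) _
    have hC : 0 ≤ C := apply_nonneg _ _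
    show ‖‖f x‖ * |x| ^ (σ - 1)‖ ≤
      C * Real.exp π * (‖realTest 0 x‖ * |x| ^ (σ - 1)) + ‖x‖ ^ ⌈σ⌉₊ * ‖f x‖
    rw [Real.norm_of_nonneg (mul_nonneg (norm_nonneg _) h0)]
    rcases le_total |x| 1 with h | h
    · refine le_add_of_le_of_nonneg ?_ (by positivity)
      rw [← mul_assoc]
      refine mul_le_mul_of_nonneg_right ((f.norm_le_seminorm ℝ x).trans ?_) h0
      rw [mul_assoc]
      refine le_mul_of_one_le_right hC ?_
      simp only [realTest, Int.natAbs_zero, pow_zero, one_mul, Complex.norm_exp, Complex.ofReal_re,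
        ← Real.exp_add]
      have h2 : x ^ 2 ≤ 1 := (sq_le_one_iff_abs_le_one x).2 h
      exact Real.one_le_exp (by nlinarith [Real.pi_pos])
    · refine le_add_of_nonneg_of_le (by positivity) ?_
      rw [mul_comm, Real.norm_eq_abs, ← Real.rpow_natCast]
      refine mul_le_mul_of_nonneg_right (Real.rpow_le_rpow_of_exponent_le h ?_) (norm_nonneg _)
      linarith [Nat.le_ceil σ]

theorem isTestFn_schwartz_cplx (f : 𝓢(ℂ, ℂ)) : IsTestFn cplxDual cplxAbs f := by
  refine IsTestFn.smul_measure ⟨f.continuous.stronglyMeasurable, f.integrable, fun σ hσ => ?_⟩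
    (by simp)
  set C := SchwartzMap.seminorm ℝ 0 0 f
  refine (((integrable_zeta_cplxTest 0 hσ).const_mul (C * Real.exp (2 * π))).add
    (f.integrable_pow_mul volume (2 * ⌈σ⌉₊))).mono'
    (f.continuous.norm.measurable.mul
      ((continuous_norm.pow 2).measurable.pow_const _)).aestronglyMeasurable
    (Eventually.of_forall fun z => ?_)
  have h0 : (0 : ℝ) ≤ cplxAbs z ^ (σ - 1) := Real.rpow_nonneg (sq_nonneg _) _
  have hC : 0 ≤ C := apply_nonneg _ _
  show ‖‖f z‖ * cplxAbs z ^ (σ - 1)‖ ≤
    C * Real.exp (2 * π) * (‖cplxTest 0 z‖ * cplxAbs z ^ (σ - 1)) + ‖z‖ ^ (2 * ⌈σ⌉₊) * ‖f z‖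
  rw [Real.norm_of_nonneg (mul_nonneg (norm_nonneg _) h0)]
  rcases le_total ‖z‖ 1 with h | h
  · refine le_add_of_le_of_nonneg ?_ (by positivity)
    rw [← mul_assoc]
    refine mul_le_mul_of_nonneg_right ((f.norm_le_seminorm ℝ z).trans ?_) h0
    rw [mul_assoc]
    refine le_mul_of_one_le_right hC ?_
    simp only [cplxTest, Int.toNat_zero, neg_zero, pow_zero, one_mul, Complex.norm_exp,
      Complex.ofReal_re, ← Real.exp_add]
    refine Real.one_le_exp ?_
    have h2 : z.re ^ 2 + z.im ^ 2 ≤ 1 := by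
      have : ‖z‖ ^ 2 ≤ 1 := pow_le_one₀ (norm_nonneg z) h
      rw [Complex.sq_norm, Complex.normSq_apply] at this
      linarith
    nlinarith [Real.pi_pos]
  · refine le_add_of_nonneg_of_le (by positivity) ?_
    rw [mul_comm, cplxAbs, pow_mul, ← Real.rpow_natCast _ ⌈σ⌉₊]
    refine mul_le_mul_of_nonneg_right
      (Real.rpow_le_rpow_of_exponent_le (one_le_pow₀ h) ?_) (norm_nonneg _)
    linarith [Nat.le_ceil σ]

/-- The transform of a Schwartz function on the reals. -/
theorem exists_fourier_real (f : 𝓢(ℝ, ℂ)) :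
    ∃ g : 𝓢(ℝ, ℂ), fourierLoc volume realPsi f = g := by
  refine ⟨SchwartzMap.compCLMOfContinuousLinearEquiv ℂ (ContinuousLinearEquiv.neg ℝ) (𝓕 f),
    funext fun b => ?_⟩
  rw [SchwartzMap.compCLMOfContinuousLinearEquiv_apply, Function.comp_apply, SchwartzMap.fourier_coe,
    Real.fourier_real_eq_integral_exp_smul]
  refine integral_congr_ae (Eventually.of_forall fun x => ?_)
  show f x * Complex.exp ((2 * π * (1 * (b * x)) : ℝ) * Complex.I) =
    Complex.exp (((-2 * π * x * (-b)) : ℝ) * Complex.I) • f x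
  rw [smul_eq_mul, mul_comm]
  congr 2
  push_cast
  ring

/-- The transform of a Schwartz function on the complex numbers. -/
theorem exists_fourier_cplx (f : 𝓢(ℂ, ℂ)) :
    ∃ g : 𝓢(ℂ, ℂ), fourierLoc cplxDual cplxPsi f = g := by
  set L : ℂ ≃L[ℝ] ℂ := Complex.conjCLE.trans
    (LinearEquiv.smulOfNeZero ℝ ℂ (-2) (by norm_num)).toContinuousLinearEquiv
  refine ⟨(2 : ℂ) • SchwartzMap.compCLMOfContinuousLinearEquiv ℂ L (𝓕 f), funext fun b => ?_⟩
  rw [SchwartzMap.smul_apply, SchwartzMap.compCLMOfContinuousLinearEquiv_apply, Function.comp_apply,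
    SchwartzMap.fourier_coe, Real.fourier_eq', fourierLoc, cplxDual, integral_smul_measure,
    show (2 : ℝ≥0∞).toReal = 2 by simp, Complex.real_smul, smul_eq_mul, Complex.ofReal_ofNat]
  congr 1
  refine integral_congr_ae (Eventually.of_forall fun z => ?_)
  show f z * Complex.exp ((2 * π * (2 * (1 * (b * z)).re) : ℝ) * Complex.I) =
    Complex.exp (((-2 * π * inner ℝ z ((-2 : ℝ) • conj b)) : ℝ) * Complex.I) • f z
  rw [smul_eq_mul, mul_comm]
  congr 2
  simp [Complex.inner, Complex.mul_re]
  ring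

/-! ### The functional equations -/

/-- **Tate's local functional equation at a real place.** -/
theorem exists_local_equation_real (τ : ℝ) {m : ℤ} (hm : m.natAbs ≤ 1) (f : 𝓢(ℝ, ℂ)) :
    ∃ E : ℂ → ℂ, Differentiable ℂ E ∧
      (∀ s : ℂ, 0 < s.re → E s = zetaLoc volume (fun x : ℝ => |x|) f (realChar τ m) s *
        (Complex.Gammaℝ (s + τ * Complex.I + m.natAbs))⁻¹) ∧
      ∀ s : ℂ, s.re < 1 → zetaLoc volume (fun x : ℝ => |x|) (fourierLoc volume realPsi f)
          (fun x => conj (realChar τ m x)) (1 - s) *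
          (Complex.Gammaℝ (1 - s - τ * Complex.I + m.natAbs))⁻¹ =
        Complex.I ^ m.natAbs * E s := by
  have hker : Measurable realPsi := by unfold realPsi realKer; fun_prop
  have hghat : fourierLoc volume realPsi (realTest m) =
      fun b => Complex.I ^ m.natAbs * realTest m b := funext fun b => by
    rw [← fourier_realTest hm b]
    refine integral_congr_ae (Eventually.of_forall fun x => ?_)
    show realTest m x * realKer 1 (b * x) = realTest m x * realKer b x
    rw [realKer, realKer, one_mul]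
  obtain ⟨F, hF⟩ := exists_fourier_real f
  have hg' : IsTestFn volume (fun x : ℝ => |x|) (fourierLoc volume realPsi (realTest m)) := by
    rw [hghat]
    have h := isTestFn_realTest m
    exact ⟨h.meas.const_mul _, h.int.const_mul _, fun σ hσ =>
      ((h.zeta σ hσ).const_mul ‖Complex.I ^ m.natAbs‖).congr (Eventually.of_forall fun x => by
        show _ = ‖Complex.I ^ m.natAbs * realTest m x‖ * _
        rw [norm_mul, mul_assoc])⟩
  refine exists_local_equation isScale_real (isUnitChar_realChar τ m) hker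
    (fun x => le_of_eq (Complex.norm_exp_ofReal_mul_I _)) (isTestFn_schwartz_real f)
    (isTestFn_realTest m) (hF ▸ isTestFn_schwartz_real F) hg' (C := 1) one_ne_zero
    (R := fun s => (Complex.Gammaℝ (s + τ * Complex.I + m.natAbs))⁻¹)
    (R' := fun s => (Complex.Gammaℝ (s - τ * Complex.I + m.natAbs))⁻¹)
    (ε := fun _ => Complex.I ^ m.natAbs)
    (Complex.differentiable_Gammaℝ_inv.comp
      ((differentiable_id.add_const _).add_const _))
    (Complex.differentiable_Gammaℝ_inv.comp
      ((differentiable_id.sub_const _).add_const _))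
    (differentiable_const _) (fun _ => pow_ne_zero _ Complex.I_ne_zero) (fun s hs => ?_)
    fun s hs => ?_
  · rw [zetaLoc_realTest τ m hs, mul_inv_cancel₀]
    exact Complex.Gammaℝ_ne_zero_of_re_pos (by simp; positivity)
  · have hs' : 0 < (1 - s).re := by simpa using hs
    rw [hghat, one_mul]
    have h1 : zetaLoc volume (fun x : ℝ => |x|) (fun b => Complex.I ^ m.natAbs * realTest m b)
        (fun x => conj (realChar τ m x)) (1 - s) = Complex.I ^ m.natAbs *
          zetaLoc volume (fun x : ℝ => |x|) (realTest (-m)) (realChar (-τ) (-m)) (1 - s) := by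
      rw [zetaLoc, zetaLoc, ← integral_const_mul]
      refine integral_congr_ae (Eventually.of_forall fun x => ?_)
      simp only [conj_realChar, realTest_neg, mul_assoc]
    rw [h1, zetaLoc_realTest _ _ hs', Int.natAbs_neg,
      show (1 - s + (-τ : ℝ) * Complex.I + m.natAbs) = 1 - s - τ * Complex.I + m.natAbs by
        push_cast; ring,
      mul_assoc, mul_inv_cancel₀, mul_one]
    exact Complex.Gammaℝ_ne_zero_of_re_pos (by simp at hs' ⊢; positivity)

/-- **Tate's local functional equation at a complex place.** -/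
theorem exists_local_equation_cplx (τ : ℝ) (m : ℤ) (f : 𝓢(ℂ, ℂ)) :
    ∃ E : ℂ → ℂ, Differentiable ℂ E ∧
      (∀ s : ℂ, 0 < s.re → E s = zetaLoc cplxDual cplxAbs f (cplxChar τ m) s *
        (Complex.Gammaℂ (s + τ * Complex.I + m.natAbs / 2))⁻¹) ∧
      ∀ s : ℂ, s.re < 1 → zetaLoc cplxDual cplxAbs (fourierLoc cplxDual cplxPsi f)
          (fun z => conj (cplxChar τ m z)) (1 - s) *
          (Complex.Gammaℂ (1 - s - τ * Complex.I + m.natAbs / 2))⁻¹ =
        Complex.I ^ m.natAbs * E s := by
  have hker : Measurable cplxPsi := by unfold cplxPsi cplxKer; fun_prop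
  have hne : ∀ {w : ℂ}, 0 < w.re → Complex.Gammaℂ w ≠ 0 := fun {w} hw => by
    rw [Complex.Gammaℂ_def]
    exact mul_ne_zero (mul_ne_zero two_ne_zero (by simp [Real.pi_ne_zero]))
      (Complex.Gamma_ne_zero_of_re_pos hw)
  have hghat : fourierLoc cplxDual cplxPsi (cplxTest m) =
      fun b => Complex.I ^ m.natAbs * cplxTest (-m) b := funext fun b => by
    rw [fourierLoc, cplxDual, integral_smul_measure, show (2 : ℝ≥0∞).toReal = 2 by simp,
      Complex.real_smul, show ∫ z, cplxTest m z * cplxPsi (b * z) =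
        ∫ z, cplxTest m z * cplxKer b z from integral_congr_ae (Eventually.of_forall fun z => by
          show cplxTest m z * cplxKer 1 (b * z) = cplxTest m z * cplxKer b z
          rw [cplxKer, cplxKer, one_mul]), fourier_cplxTest]
    push_cast
    ring
  obtain ⟨F, hF⟩ := exists_fourier_cplx f
  have hg' : IsTestFn cplxDual cplxAbs (fourierLoc cplxDual cplxPsi (cplxTest m)) := by
    rw [hghat]
    have h := isTestFn_cplxTest (-m)
    exact ⟨h.meas.const_mul _, h.int.const_mul _, fun σ hσ =>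
      ((h.zeta σ hσ).const_mul ‖Complex.I ^ m.natAbs‖).congr (Eventually.of_forall fun x => by
        show _ = ‖Complex.I ^ m.natAbs * cplxTest (-m) x‖ * _
        rw [norm_mul, mul_assoc])⟩
  refine exists_local_equation isScale_cplx (isUnitChar_cplxChar τ m) hker
    (fun x => le_of_eq (Complex.norm_exp_ofReal_mul_I _)) (isTestFn_schwartz_cplx f)
    (isTestFn_cplxTest m) (hF ▸ isTestFn_schwartz_cplx F) hg' (C := π)
    (Complex.ofReal_ne_zero.2 Real.pi_ne_zero)
    (R := fun s => (Complex.Gammaℂ (s + τ * Complex.I + m.natAbs / 2))⁻¹)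
    (R' := fun s => (Complex.Gammaℂ (s - τ * Complex.I + m.natAbs / 2))⁻¹)
    (ε := fun _ => Complex.I ^ m.natAbs)
    (Complex.differentiable_Gammaℂ_inv.comp
      ((differentiable_id.add_const _).add_const _))
    (Complex.differentiable_Gammaℂ_inv.comp
      ((differentiable_id.sub_const _).add_const _))
    (differentiable_const _) (fun _ => pow_ne_zero _ Complex.I_ne_zero) (fun s hs => ?_)
    fun s hs => ?_
  · rw [zetaLoc_cplxTest τ m hs, mul_assoc, mul_inv_cancel₀ (hne (by simp; positivity)), mul_one]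
  · have hs' : 0 < (1 - s).re := by simpa using hs
    rw [hghat]
    have h1 : zetaLoc cplxDual cplxAbs (fun b => Complex.I ^ m.natAbs * cplxTest (-m) b)
        (fun x => conj (cplxChar τ m x)) (1 - s) = Complex.I ^ m.natAbs *
          zetaLoc cplxDual cplxAbs (cplxTest (-m)) (cplxChar (-τ) (-m)) (1 - s) := by
      rw [zetaLoc, zetaLoc, ← integral_const_mul]
      refine integral_congr_ae (Eventually.of_forall fun x => ?_)
      simp only [conj_cplxChar, mul_assoc]
    rw [h1, zetaLoc_cplxTest _ _ hs', Int.natAbs_neg,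
      show (1 - s + (-τ : ℝ) * Complex.I + m.natAbs / 2) =
        1 - s - τ * Complex.I + m.natAbs / 2 by push_cast; ring]
    have hG : Complex.Gammaℂ (1 - s - τ * Complex.I + m.natAbs / 2) ≠ 0 :=
      hne (by simp at hs' ⊢; positivity)
    rw [show Complex.I ^ m.natAbs * (π * Complex.Gammaℂ (1 - s - τ * Complex.I + m.natAbs / 2)) *
        (Complex.Gammaℂ (1 - s - τ * Complex.I + m.natAbs / 2))⁻¹ = π * Complex.I ^ m.natAbs *
        (Complex.Gammaℂ (1 - s - τ * Complex.I + m.natAbs / 2) *
          (Complex.Gammaℂ (1 - s - τ * Complex.I + m.natAbs / 2))⁻¹) by ring, mul_inv_cancel₀ hG,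
      mul_one]

end FA.TateLocal

end
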