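import Fermat.Agent.TateLocal.Unfold
import Fermat.Agent.TateThesis.Continuation

/-!
# The functional equation of the completed L-series of an idele class character

The zeta integral of the test function and that of its transform are the completed L-series of the
character and of its inverse up to constants and powers of the discriminant times the norm of the
conductor, so Tate's equation becomes Hecke's.
-/

set_option autoImplicit false
set_option linter.unusedSectionVars false
set_option linter.style.haveILetI false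

noncomputable section

open NumberField NumberField.InfinitePlace IsDedekindDomain
open MeasureTheory MeasureTheory.Measure Filter Topology
open FA.AdeleDual FA.Ideles FA.IdeleClass FA.TateThesis
open scoped Classical ComplexConjugate NNReal

set_option maxHeartbeats 800000

namespace FA.TateLocal

universe u

variable {K : Type u} [Field K] [NumberField K]

local notation "𝐀" => AdeleRing (𝓞 K) K

attribute [local instance] secondCountable_idele locallyCompact_idele countable_field

/-- The absolute discriminant times the norm of the conductor. -/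
def analyticCond (χ : Idele K →* ℂˣ) : ℝ :=
  |((discr K : ℤ) : ℝ)| * ((Ideal.absNorm (condIdeal χ) : ℕ) : ℝ)

theorem analyticCond_pos (χ : Idele K →* ℂˣ) : 0 < analyticCond χ :=
  mul_pos (abs_pos.2 (Int.cast_ne_zero.2 (NumberField.discr_ne_zero K)))
    (Nat.cast_pos.2 (Nat.pos_of_ne_zero fun h0 =>
      condIdeal_ne_bot χ (Ideal.absNorm_eq_zero_iff.1 h0)))

theorem analyticCond_inv (χ : Idele K →* ℂˣ) : analyticCond χ⁻¹ = analyticCond χ := by
  rw [analyticCond, analyticCond, condIdeal_inv]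

/-- **The completed L-series.** -/
def completedL (χ : Idele K →* ℂˣ) (τ : InfinitePlace K → ℝ) (m : InfinitePlace K → ℤ) (s : ℂ) : ℂ :=
  ((analyticCond χ : ℝ) : ℂ) ^ (s / 2) * infGamma τ m s * lSeries χ s

theorem differentiable_condPow (χ : Idele K →* ℂˣ) :
    Differentiable ℂ fun s : ℂ => ((analyticCond χ : ℝ) : ℂ) ^ (s / 2) :=
  (differentiable_id.div_const 2).const_cpow
    (Or.inl (Complex.ofReal_ne_zero.2 (analyticCond_pos χ).ne'))

section

/-- `W` is the constant read off from the transform of the test function. -/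
def rootConst [MeasurableSpace (AdeleRing (𝓞 K) K)] (μ : Measure (AdeleRing (𝓞 K) K))
    (χ : Idele K →* ℂˣ) (m : InfinitePlace K → ℤ) (W : ℂ) : Prop :=
  ∃ κ : ℂ, (∀ a : 𝐀, adeleFourier μ (testFun χ m) a =
      κ * testFun χ⁻¹ (-m) ((shiftIdele χ : 𝐀) * a)) ∧
    W = κ * ((χ (shiftIdele χ) : ℂˣ) : ℂ) * ((√(ideleAbs K (shiftIdele χ))⁻¹ : ℝ) : ℂ)

/-- **The global root number**: the constant for a self-dual measure on the adeles. -/
def IsRootNumber (χ : Idele K →* ℂˣ) (m : InfinitePlace K → ℤ) (W : ℂ) : Prop :=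
  ∃ (_ : MeasurableSpace (AdeleRing (𝓞 K) K)) (_ : BorelSpace (AdeleRing (𝓞 K) K))
    (μ : Measure (AdeleRing (𝓞 K) K)) (_ : IsAddHaarMeasure μ),
    μ (funDom K) = 1 ∧ rootConst μ χ m W

variable [MeasurableSpace (AdeleRing (𝓞 K) K)] [BorelSpace (AdeleRing (𝓞 K) K)]
  [MeasurableSpace (Idele K)] [BorelSpace (Idele K)]
  {μ : Measure (AdeleRing (𝓞 K) K)} [IsAddHaarMeasure μ] (hμ : μ (funDom K) = 1)
  (ν : Measure (Idele K)) [IsHaarMeasure ν]
  {χ : Idele K →* ℂˣ} (h : IsIdeleChar χ) {τ : InfinitePlace K → ℝ} {m : InfinitePlace K → ℤ}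
  (hv : HasLocalType χ τ m)
include hμ h hv

/-- **The two zeta integrals.** -/
theorem exists_zeta_pair :
    ∃ c W : ℂ, c ≠ 0 ∧ ‖W‖ = 1 ∧ rootConst μ χ m W ∧
      (∀ s : ℂ, 1 < s.re → completedL χ τ m s = c * ((analyticCond χ : ℝ) : ℂ) ^ (s / 2) *
        ∫ x, zetaTerm (testFun χ m) χ s x ∂ν) ∧
      ∀ s : ℂ, 1 < s.re → W * completedL χ⁻¹ (-τ) (-m) s =
        c * ((analyticCond χ : ℝ) : ℂ) ^ ((1 - s) / 2) *
          ∫ x, zetaTerm (adeleFourier μ (testFun χ m)) χ⁻¹ s x ∂ν := by
  obtain ⟨C, hC0, hC⟩ := exists_unitMeasure_eq ν hμ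
  obtain ⟨κ, hκ⟩ := exists_fourier_testFun hμ h hv.small
  have hnorm := norm_sq_of_fourier_testFun hμ h hκ
  set A : ℝ := analyticCond χ
  have hA : 0 < A := analyticCond_pos χ
  have hA' : (A : ℂ) ≠ 0 := Complex.ofReal_ne_zero.2 hA.ne'
  have habs : ideleAbs K (shiftIdele χ) = A⁻¹ := ideleAbs_shiftIdele χ
  set P : ℂ := ((Real.pi / 2 : ℝ) : ℂ) ^ Fintype.card {w : InfinitePlace K // IsComplex w}
  have hP : P ≠ 0 := pow_ne_zero _ (Complex.ofReal_ne_zero.2 (by positivity))
  have hC' : (C : ℂ) ≠ 0 := Complex.ofReal_ne_zero.2 (NNReal.coe_ne_zero.2 hC0)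
  refine ⟨((C : ℂ) * P)⁻¹, κ * ((χ (shiftIdele χ) : ℂˣ) : ℂ) * ((A : ℂ) ^ ((1 : ℂ) / 2)),
    inv_ne_zero (mul_ne_zero hC' hP), ?_, ⟨κ, hκ, ?_⟩, fun s hs => ?_, fun s hs => ?_⟩
  · rw [norm_mul, norm_mul, h.norm_eq, mul_one,
      Complex.norm_cpow_eq_rpow_re_of_pos hA, show ((1 : ℂ) / 2).re = 1 / 2 by simp,
      ← Real.sqrt_eq_rpow]
    rw [habs, inv_inv] at hnorm
    have h1 : ‖κ‖ * √A = √(‖κ‖ ^ 2 * A) := by
      rw [Real.sqrt_mul (by positivity), Real.sqrt_sq (norm_nonneg κ)]
    rw [h1, hnorm, Real.sqrt_one]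
  · rw [habs, inv_inv, Real.sqrt_eq_rpow, Complex.ofReal_cpow hA.le]
    push_cast
    ring
  · rw [integral_zetaTerm_testFun ν hμ h hv hC hs, completedL]
    field_simp
    simp only [A, P]
    ring
  · have hpt : ∀ x, zetaTerm (adeleFourier μ (testFun χ m)) χ⁻¹ s x =
        κ * ((χ (shiftIdele χ) : ℂˣ) : ℂ) * (A : ℂ) ^ s *
          zetaTerm (testFun χ⁻¹ (-m)) χ⁻¹ s (shiftIdele χ * x) := fun x => by
      have hab : absPow s (shiftIdele χ * x) = ((A : ℂ) ^ s)⁻¹ * absPow s x := by
        simp only [absPow, logAbs_mul, Complex.ofReal_add, mul_add, Complex.exp_add]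
        congr 1
        rw [logAbs, habs, Real.log_inv, Complex.cpow_def_of_ne_zero hA', ← Complex.exp_neg,
          ← Complex.ofReal_log hA.le]
        push_cast
        ring_nf
      have hχ1 : ((χ (shiftIdele χ) : ℂˣ) : ℂ) ≠ 0 := Units.ne_zero _
      have hAs : (A : ℂ) ^ s ≠ 0 := by simp [hA']
      simp only [zetaTerm]
      rw [hκ, hab, Units.val_mul, map_mul, Units.val_mul]
      simp only [MonoidHom.inv_apply, Units.val_inv_eq_inv_val]
      field_simp
    rw [integral_congr_ae (Eventually.of_forall hpt), integral_const_mul,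
      integral_mul_left_eq_self (zetaTerm (testFun χ⁻¹ (-m)) χ⁻¹ s) (shiftIdele χ),
      integral_zetaTerm_testFun ν hμ h.inv hv.inv hC hs, completedL, analyticCond_inv]
    have e : (A : ℂ) ^ ((1 : ℂ) / 2) * (A : ℂ) ^ (s / 2) =
        (A : ℂ) ^ ((1 - s) / 2) * (A : ℂ) ^ s := by
      rw [← Complex.cpow_add _ _ hA', ← Complex.cpow_add _ _ hA']
      congr 1
      ring
    calc κ * ((χ (shiftIdele χ) : ℂˣ) : ℂ) * (A : ℂ) ^ ((1 : ℂ) / 2) *
          ((A : ℂ) ^ (s / 2) * infGamma (-τ) (-m) s * lSeries χ⁻¹ s)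
        = κ * ((χ (shiftIdele χ) : ℂˣ) : ℂ) * ((A : ℂ) ^ ((1 : ℂ) / 2) * (A : ℂ) ^ (s / 2)) *
          infGamma (-τ) (-m) s * lSeries χ⁻¹ s := by ring
      _ = _ := by
        rw [e]
        field_simp
        simp only [P]

end

/-- The two elementary factors of a power of the absolute value. -/
def poleFac (S : ℝ) (s : ℂ) : ℂ := (s + S * Complex.I) * (s + S * Complex.I - 1)

theorem poleFac_one_sub (S : ℝ) (s : ℂ) : poleFac (-S) (1 - s) = poleFac S s := by
  rw [poleFac, poleFac]
  push_cast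
  ring

/-- **Hecke's functional equation for all unitary idele class characters but the powers of the
absolute value.** -/
theorem exists_functional_equation_root {χ : Idele K →* ℂˣ} (h : IsIdeleChar χ)
    {τ : InfinitePlace K → ℝ} {m : InfinitePlace K → ℤ} (hv : HasLocalType χ τ m)
    (hne : ∀ S : ℝ, χ ≠ absChar K S) :
    ∃ (G G' : ℂ → ℂ) (W : ℂ), Differentiable ℂ G ∧ Differentiable ℂ G' ∧ ‖W‖ = 1 ∧ IsRootNumber χ m W ∧
      (∀ s : ℂ, 1 < s.re → G s = completedL χ τ m s) ∧
      (∀ s : ℂ, 1 < s.re → G' s = completedL χ⁻¹ (-τ) (-m) s) ∧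
      ∀ s, G s = W * G' (1 - s) := by
  letI : MeasurableSpace (AdeleRing (𝓞 K) K) := borel _
  haveI : BorelSpace (AdeleRing (𝓞 K) K) := ⟨rfl⟩
  letI : MeasurableSpace (Idele K) := borel _
  haveI : BorelSpace (Idele K) := ⟨rfl⟩
  obtain ⟨μ, hμh, hμ⟩ := exists_haar_funDom K
  haveI := hμh
  set ν : Measure (Idele K) := Measure.haar
  obtain ⟨D, hDm, hDW, hD⟩ := exists_domain K
  have hχ : IsClassChar χ := ⟨h.cont, h.norm_eq, h.principal_eq⟩
  have hf := testFun_mem h m
  have hfh := adeleFourier_mem hμ hf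
  obtain ⟨b, hb, hχb⟩ : ∃ b ∈ oneIdeles K, χ b ≠ 1 := by
    by_contra hall
    push Not at hall
    obtain ⟨S, hS⟩ := exists_power_of_trivial hχ hall
    refine hne S (MonoidHom.ext fun x => Units.ext ?_)
    rw [hS, absPow, absChar_val, logAbs]
    push_cast
    ring_nf
  have hχb' : (χ⁻¹) b ≠ 1 := fun e => hχb (inv_eq_one.1 e)
  have hinv2 : adeleFourier μ (adeleFourier μ (testFun χ m)) = fun y => testFun χ m (-y) :=
    funext fun y => fourier_inversion hμ hf y
  obtain ⟨c, W, hc, hW, hWr, hL, hL'⟩ := exists_zeta_pair hμ ν h hv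
  have hW0 : W ≠ 0 := fun e => by simp [e] at hW
  set q : ℂ → ℂ := fun s => c * ((analyticCond χ : ℝ) : ℂ) ^ (s / 2)
  have hq : Differentiable ℂ q := (differentiable_condPow χ).const_mul c
  set E : ℂ → ℂ := fun s => zetaUpper ν (testFun χ m) χ s +
    zetaUpper ν (adeleFourier μ (testFun χ m)) χ⁻¹ (1 - s)
  have hE : Differentiable ℂ E := (differentiable_zetaUpper hμ hDm hDW (hD ν) hf hχ).add
    ((differentiable_zetaUpper hμ hDm hDW (hD ν) hfh hχ.inv).comp
      ((differentiable_const 1).sub differentiable_id))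
  have h1 : ∀ s : ℂ, 1 < s.re → ∫ x, zetaTerm (testFun χ m) χ s x ∂ν = E s := fun s hs => by
    have h := integral_zetaTerm_eq hμ hDm hDW (hD ν) hf hχ hs
    rwa [integral_polarTerm_zero hDm hDW (hD ν) hχ hb hχb,
      integral_polarTerm_zero hDm hDW (hD ν) hχ hb hχb, mul_zero, mul_zero, sub_zero, add_zero] at h
  have h2 : ∀ s : ℂ, 1 < s.re →
      ∫ x, zetaTerm (adeleFourier μ (testFun χ m)) χ⁻¹ s x ∂ν = E (1 - s) := fun s hs => by
    have h := integral_zetaTerm_eq hμ hDm hDW (hD ν) hfh hχ.inv hs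
    rw [integral_polarTerm_zero hDm hDW (hD ν) hχ.inv hb hχb',
      integral_polarTerm_zero hDm hDW (hD ν) hχ.inv hb hχb', mul_zero, mul_zero, sub_zero, add_zero,
      hinv2, show (χ⁻¹)⁻¹ = χ from MonoidHom.ext fun x => inv_inv (χ x),
      zetaUpper_comp_neg hχ, add_comm] at h
    simpa only [E, sub_sub_cancel] using h
  refine ⟨fun s => q s * E s, fun s => W⁻¹ * (q (1 - s) * E (1 - s)), W, hq.mul hE,
    ((hq.mul hE).comp ((differentiable_const 1).sub differentiable_id)).const_mul _, hW,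
    ⟨_, inferInstance, μ, hμh, hμ, hWr⟩,
    fun s hs => ?_, fun s hs => ?_, fun s => ?_⟩
  · show q s * E s = _
    rw [hL s hs, h1 s hs]
  · show W⁻¹ * (q (1 - s) * E (1 - s)) = _
    rw [← h2 s hs, ← hL' s hs, inv_mul_cancel_left₀ hW0]
  · simp only [sub_sub_cancel]
    rw [mul_inv_cancel_left₀ hW0]

/-- **The powers of the absolute value**: the same after multiplying by the two elementary
factors. -/
theorem exists_functional_equation_absChar_root {χ : Idele K →* ℂˣ} (h : IsIdeleChar χ)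
    {τ : InfinitePlace K → ℝ} {m : InfinitePlace K → ℤ} (hv : HasLocalType χ τ m) {S : ℝ}
    (hS : χ = absChar K S) :
    ∃ (G G' : ℂ → ℂ) (W : ℂ), Differentiable ℂ G ∧ Differentiable ℂ G' ∧ ‖W‖ = 1 ∧ IsRootNumber χ m W ∧
      (∀ s : ℂ, 1 < s.re → G s = poleFac S s * completedL χ τ m s) ∧
      (∀ s : ℂ, 1 < s.re → G' s = poleFac (-S) s * completedL χ⁻¹ (-τ) (-m) s) ∧
      ∀ s, G s = W * G' (1 - s) := by
  letI : MeasurableSpace (AdeleRing (𝓞 K) K) := borel _
  haveI : BorelSpace (AdeleRing (𝓞 K) K) := ⟨rfl⟩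
  letI : MeasurableSpace (Idele K) := borel _
  haveI : BorelSpace (Idele K) := ⟨rfl⟩
  obtain ⟨μ, hμh, hμ⟩ := exists_haar_funDom K
  haveI := hμh
  set ν : Measure (Idele K) := Measure.haar
  obtain ⟨D, hDm, hDW, hD⟩ := exists_domain K
  obtain ⟨V, -, hV⟩ := exists_map_logAbs D hDW (hD ν)
  have hχ : IsClassChar χ := ⟨h.cont, h.norm_eq, h.principal_eq⟩
  have hf := testFun_mem h m
  have hfh := adeleFourier_mem hμ hf
  have hS1 : ∀ x, ((χ x : ℂˣ) : ℂ) = absPow ((S : ℂ) * Complex.I) x := fun x => by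
    rw [hS, absPow, absChar_val, logAbs]
    push_cast
    ring_nf
  have hS2 : ∀ x, (((χ⁻¹) x : ℂˣ) : ℂ) = absPow (((-S : ℝ) : ℂ) * Complex.I) x := fun x => by
    rw [MonoidHom.inv_apply, Units.val_inv_eq_inv_val, hS1, absPow, absPow, ← Complex.exp_neg]
    push_cast
    ring_nf
  have hinv2 : adeleFourier μ (adeleFourier μ (testFun χ m)) = fun y => testFun χ m (-y) :=
    funext fun y => fourier_inversion hμ hf y
  obtain ⟨c, W, hc, hW, hWr, hL, hL'⟩ := exists_zeta_pair hμ ν h hv
  have hW0 : W ≠ 0 := fun e => by simp [e] at hW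
  set q : ℂ → ℂ := fun s => c * ((analyticCond χ : ℝ) : ℂ) ^ (s / 2)
  have hq : Differentiable ℂ q := (differentiable_condPow χ).const_mul c
  set a₀ : ℂ := adeleFourier μ (testFun χ m) 0
  set a₁ : ℂ := testFun χ m 0
  set E : ℂ → ℂ := fun s => poleFac S s * (zetaUpper ν (testFun χ m) χ s +
    zetaUpper ν (adeleFourier μ (testFun χ m)) χ⁻¹ (1 - s)) +
      (V : ℂ) * (a₀ * (s + S * Complex.I) - a₁ * (s + S * Complex.I - 1))
  have hE : Differentiable ℂ E := by
    have hd := (differentiable_zetaUpper hμ hDm hDW (hD ν) hf hχ).add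
      ((differentiable_zetaUpper hμ hDm hDW (hD ν) hfh hχ.inv).comp
        ((differentiable_const (1 : ℂ)).sub differentiable_id))
    refine Differentiable.add (Differentiable.mul ?_ hd) (Differentiable.const_mul ?_ _)
    · exact (differentiable_id.add_const _).mul ((differentiable_id.add_const _).sub_const 1)
    · exact ((differentiable_id.add_const _).const_mul a₀).sub
        (((differentiable_id.add_const _).sub_const 1).const_mul a₁)
  have h1 : ∀ s : ℂ, 1 < s.re →
      poleFac S s * ∫ x, zetaTerm (testFun χ m) χ s x ∂ν = E s := fun s hs => by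
    have e0 : s + S * Complex.I ≠ 0 := fun e => by
      have := congrArg Complex.re e
      simp at this
      linarith
    have e1 : s + S * Complex.I - 1 ≠ 0 := fun e => by
      have := congrArg Complex.re e
      simp at this
      linarith
    rw [integral_zetaTerm_eq hμ hDm hDW (hD ν) hf hχ hs,
      integral_polarTerm_power hDm hDW (hD ν) hS1 hV (by rw [Complex.sub_re, Complex.one_re]; linarith),
      integral_polarTerm_power hDm hDW (hD ν) hS1 hV (by linarith),
      show s - 1 + (S : ℂ) * Complex.I = s + S * Complex.I - 1 by ring]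
    simp only [E, a₀, a₁, poleFac]
    field_simp
  have h2 : ∀ s : ℂ, 1 < s.re →
      poleFac (-S) s * ∫ x, zetaTerm (adeleFourier μ (testFun χ m)) χ⁻¹ s x ∂ν = E (1 - s) :=
    fun s hs => by
    have e0 : s - S * Complex.I ≠ 0 := fun e => by
      have := congrArg Complex.re e
      simp at this
      linarith
    have e1 : s - S * Complex.I - 1 ≠ 0 := fun e => by
      have := congrArg Complex.re e
      simp at this
      linarith
    rw [integral_zetaTerm_eq hμ hDm hDW (hD ν) hfh hχ.inv hs,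
      integral_polarTerm_power hDm hDW (hD ν) hS2 hV (by rw [Complex.sub_re, Complex.one_re]; linarith),
      integral_polarTerm_power hDm hDW (hD ν) hS2 hV (by linarith), hinv2,
      show (χ⁻¹)⁻¹ = χ from MonoidHom.ext fun x => inv_inv (χ x), zetaUpper_comp_neg hχ,
      show s - 1 + ((-S : ℝ) : ℂ) * Complex.I = s - S * Complex.I - 1 by push_cast; ring,
      show s + ((-S : ℝ) : ℂ) * Complex.I = s - S * Complex.I by push_cast; ring]
    simp only [E, a₀, a₁, poleFac, neg_zero, sub_sub_cancel]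
    push_cast
    field_simp
    ring
  refine ⟨fun s => q s * E s, fun s => W⁻¹ * (q (1 - s) * E (1 - s)), W, hq.mul hE,
    ((hq.mul hE).comp ((differentiable_const 1).sub differentiable_id)).const_mul _, hW,
    ⟨_, inferInstance, μ, hμh, hμ, hWr⟩,
    fun s hs => ?_, fun s hs => ?_, fun s => ?_⟩
  · show q s * E s = _
    rw [hL s hs, ← h1 s hs]
    simp only [q]
    ring
  · show W⁻¹ * (q (1 - s) * E (1 - s)) = _
    rw [← h2 s hs, inv_mul_eq_iff_eq_mul₀ hW0, mul_left_comm W, hL' s hs]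
    simp only [q]
    ring
  · simp only [sub_sub_cancel]
    rw [mul_inv_cancel_left₀ hW0]

/-- `exists_functional_equation_root` without the description of the constant. -/
theorem exists_functional_equation {χ : Idele K →* ℂˣ} (h : IsIdeleChar χ)
    {τ : InfinitePlace K → ℝ} {m : InfinitePlace K → ℤ} (hv : HasLocalType χ τ m)
    (hne : ∀ S : ℝ, χ ≠ absChar K S) :
    ∃ (G G' : ℂ → ℂ) (W : ℂ), Differentiable ℂ G ∧ Differentiable ℂ G' ∧ ‖W‖ = 1 ∧
      (∀ s : ℂ, 1 < s.re → G s = completedL χ τ m s) ∧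
      (∀ s : ℂ, 1 < s.re → G' s = completedL χ⁻¹ (-τ) (-m) s) ∧
      ∀ s, G s = W * G' (1 - s) := by
  obtain ⟨G, G', W, a, b, c, -, d⟩ := exists_functional_equation_root h hv hne
  exact ⟨G, G', W, a, b, c, d⟩

/-- `exists_functional_equation_absChar_root` without the description of the constant. -/
theorem exists_functional_equation_absChar {χ : Idele K →* ℂˣ} (h : IsIdeleChar χ)
    {τ : InfinitePlace K → ℝ} {m : InfinitePlace K → ℤ} (hv : HasLocalType χ τ m) {S : ℝ}
    (hS : χ = absChar K S) :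
    ∃ (G G' : ℂ → ℂ) (W : ℂ), Differentiable ℂ G ∧ Differentiable ℂ G' ∧ ‖W‖ = 1 ∧
      (∀ s : ℂ, 1 < s.re → G s = poleFac S s * completedL χ τ m s) ∧
      (∀ s : ℂ, 1 < s.re → G' s = poleFac (-S) s * completedL χ⁻¹ (-τ) (-m) s) ∧
      ∀ s, G s = W * G' (1 - s) := by
  obtain ⟨G, G', W, a, b, c, -, d⟩ := exists_functional_equation_absChar_root h hv hS
  exact ⟨G, G', W, a, b, c, d⟩

end FA.TateLocal

end
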