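import Fermat.Agent.TateLocal.Gauss
import Fermat.Agent.TateThesis.Fourier
import Mathlib.NumberTheory.NumberField.CanonicalEmbedding.Basic
import Mathlib.MeasureTheory.Integral.Pi
import Mathlib.Analysis.Calculus.ContDiff.Bounds

/-!
# The test functions at infinity

Products over the infinite places of the local test functions are Schwartz functions, their
transform for the trace is a constant times the product for the inverse character, and the transform
of a Schwartz-Bruhat product is that of its part at infinity times a function of the finite part.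
-/

set_option autoImplicit false
set_option linter.unusedSectionVars false
set_option linter.style.haveILetI false

noncomputable section

open NumberField NumberField.InfinitePlace NumberField.InfinitePlace.Completion IsDedekindDomain
open MeasureTheory MeasureTheory.Measure Filter Topology Module
open NumberField.mixedEmbedding (mixedSpace)
open FA.AdeleDual FA.TateThesis
open scoped Classical Real SchwartzMap NNReal RealInnerProductSpace FourierTransform ContDiff

set_option maxHeartbeats 800000

namespace FA.TateLocal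

universe u

variable {K : Type u} [Field K] [NumberField K]

local notation "𝐀" => AdeleRing (𝓞 K) K

/-- The product of the test functions. -/
def infTest (m : InfinitePlace K → ℤ) (v : mixedEmbedding.mixedSpace K) : ℂ :=
  (∏ w : {w : InfinitePlace K // IsReal w}, realTest (m w.1) (v.1 w)) *
    ∏ w : {w : InfinitePlace K // IsComplex w}, cplxTest (m w.1) (v.2 w)

/-- The character with exponents `τ` and parities or windings `m`. -/
def infCharVal (τ : InfinitePlace K → ℝ) (m : InfinitePlace K → ℤ)
    (v : mixedEmbedding.mixedSpace K) : ℂ :=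
  (∏ w : {w : InfinitePlace K // IsReal w}, realChar (τ w.1) (m w.1) (v.1 w)) *
    ∏ w : {w : InfinitePlace K // IsComplex w}, cplxChar (τ w.1) (m w.1) (v.2 w)

/-- The trace form. -/
def traceMixed (b v : mixedEmbedding.mixedSpace K) : ℝ :=
  (∑ w : {w : InfinitePlace K // IsReal w}, b.1 w * v.1 w) +
    ∑ w : {w : InfinitePlace K // IsComplex w}, 2 * (b.2 w * v.2 w).re

/-- The kernel of the transform. -/
def mixedKer (b v : mixedEmbedding.mixedSpace K) : ℂ :=
  Complex.exp ((2 * π * traceMixed b v : ℝ) * Complex.I)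

variable (K) in
/-- The quadratic form of the Gaussian. -/
def gaussForm (v : mixedEmbedding.mixedSpace K) : ℝ :=
  (∑ w : {w : InfinitePlace K // IsReal w}, v.1 w ^ 2) +
    ∑ w : {w : InfinitePlace K // IsComplex w}, 2 * ((v.2 w).re ^ 2 + (v.2 w).im ^ 2)

/-! ### The Gaussian -/

theorem hasTemperateGrowth_fst (w : {w : InfinitePlace K // IsReal w}) :
    Function.HasTemperateGrowth fun v : mixedEmbedding.mixedSpace K => v.1 w :=
  (((ContinuousLinearMap.proj (R := ℝ) (φ := fun _ : {w : InfinitePlace K // IsReal w} => ℝ) w).comp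
    (ContinuousLinearMap.fst ℝ _ _)) : mixedEmbedding.mixedSpace K →L[ℝ] ℝ).hasTemperateGrowth

theorem hasTemperateGrowth_snd (w : {w : InfinitePlace K // IsComplex w}) :
    Function.HasTemperateGrowth fun v : mixedEmbedding.mixedSpace K => v.2 w :=
  (((ContinuousLinearMap.proj (R := ℝ) (φ := fun _ : {w : InfinitePlace K // IsComplex w} => ℂ) w).comp
    (ContinuousLinearMap.snd ℝ _ _)) : mixedEmbedding.mixedSpace K →L[ℝ] ℂ).hasTemperateGrowth

variable (K) in
theorem hasTemperateGrowth_gaussForm : Function.HasTemperateGrowth (gaussForm K) := by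
  have h1 := fun w => (hasTemperateGrowth_fst (K := K) w)
  have h2 := fun w => Complex.reCLM.hasTemperateGrowth.comp (hasTemperateGrowth_snd (K := K) w)
  have h3 := fun w => Complex.imCLM.hasTemperateGrowth.comp (hasTemperateGrowth_snd (K := K) w)
  exact (Function.HasTemperateGrowth.sum fun w _ => (h1 w).pow 2).add
    (Function.HasTemperateGrowth.sum fun w _ =>
      (Function.HasTemperateGrowth.const (2 : ℝ)).mul (((h2 w).pow 2).add ((h3 w).pow 2)))

theorem norm_sq_le_gaussForm (v : mixedEmbedding.mixedSpace K) : ‖v‖ ^ 2 ≤ gaussForm K v := by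
  have h1 : 0 ≤ ∑ w : {w : InfinitePlace K // IsReal w}, v.1 w ^ 2 :=
    Finset.sum_nonneg fun w _ => sq_nonneg _
  have h2 : 0 ≤ ∑ w : {w : InfinitePlace K // IsComplex w}, 2 * ((v.2 w).re ^ 2 + (v.2 w).im ^ 2) :=
    Finset.sum_nonneg fun w _ => by positivity
  have h : ‖v‖ ≤ √(gaussForm K v) := by
    refine max_le ((pi_norm_le_iff_of_nonneg (Real.sqrt_nonneg _)).2 fun w => ?_)
      ((pi_norm_le_iff_of_nonneg (Real.sqrt_nonneg _)).2 fun w => ?_)
    · refine Real.le_sqrt_of_sq_le ?_
      rw [Real.norm_eq_abs, sq_abs, gaussForm]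
      linarith [Finset.single_le_sum (fun u _ => sq_nonneg (v.1 u)) (Finset.mem_univ w)]
    · refine Real.le_sqrt_of_sq_le ?_
      rw [Complex.sq_norm, Complex.normSq_apply, gaussForm]
      have := Finset.single_le_sum (f := fun u : {w : InfinitePlace K // IsComplex w} =>
        2 * ((v.2 u).re ^ 2 + (v.2 u).im ^ 2)) (fun u _ => by positivity) (Finset.mem_univ w)
      nlinarith [sq_nonneg (v.2 w).re, sq_nonneg (v.2 w).im]
  calc ‖v‖ ^ 2 ≤ √(gaussForm K v) ^ 2 := pow_le_pow_left₀ (norm_nonneg v) h 2
    _ = gaussForm K v := Real.sq_sqrt (add_nonneg h1 h2)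

theorem exists_pow_mul_exp_le (N : ℕ) :
    ∃ C : ℝ, ∀ r : ℝ, 0 ≤ r → (1 + r) ^ N * Real.exp (-(π * r ^ 2)) ≤ C := by
  refine ⟨2 ^ N * (1 + N.factorial / π ^ N), fun r hr => ?_⟩
  have h1 : (r ^ 2) ^ N * Real.exp (-(π * r ^ 2)) ≤ N.factorial / π ^ N := by
    rw [Real.exp_neg, ← div_eq_mul_inv, div_le_div_iff₀ (Real.exp_pos _) (by positivity)]
    have h := Real.pow_div_factorial_le_exp (π * r ^ 2) (by positivity) N
    rw [div_le_iff₀ (by positivity), mul_pow] at h
    linarith
  have h2 : (1 + r) ^ N ≤ 2 ^ N * (1 + (r ^ 2) ^ N) := by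
    rcases le_total r 1 with h | h
    · calc (1 + r) ^ N ≤ 2 ^ N := pow_le_pow_left₀ (by linarith) (by linarith) N
        _ ≤ 2 ^ N * (1 + (r ^ 2) ^ N) := le_mul_of_one_le_right (by positivity) (by
          have : 0 ≤ (r ^ 2) ^ N := by positivity
          linarith)
    · calc (1 + r) ^ N ≤ (2 * r ^ 2) ^ N := pow_le_pow_left₀ (by linarith) (by nlinarith) N
        _ = 2 ^ N * (r ^ 2) ^ N := mul_pow _ _ _
        _ ≤ 2 ^ N * (1 + (r ^ 2) ^ N) := mul_le_mul_of_nonneg_left (by linarith) (by positivity)
  have h3 : Real.exp (-(π * r ^ 2)) ≤ 1 := Real.exp_le_one_iff.2 (by nlinarith [Real.pi_pos])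
  calc (1 + r) ^ N * Real.exp (-(π * r ^ 2))
      ≤ 2 ^ N * (1 + (r ^ 2) ^ N) * Real.exp (-(π * r ^ 2)) :=
        mul_le_mul_of_nonneg_right h2 (Real.exp_pos _).le
    _ ≤ _ := by
        rw [mul_assoc, add_mul, one_mul]
        exact mul_le_mul_of_nonneg_left (add_le_add h3 h1) (by positivity)

variable (K) in
/-- **The Gaussian as a Schwartz function.** -/
def gaussSchwartz : 𝓢(mixedEmbedding.mixedSpace K, ℂ) where
  toFun := Complex.ofRealLI ∘ (Real.exp ∘ fun v => -π * gaussForm K v)
  smooth' := Complex.ofRealCLM.contDiff.comp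
    (Real.contDiff_exp.comp (contDiff_const.mul (hasTemperateGrowth_gaussForm K).1))
  decay' k n := by
    have hg : Function.HasTemperateGrowth fun v => -π * gaussForm K v :=
      (Function.HasTemperateGrowth.const (-π)).mul (hasTemperateGrowth_gaussForm K)
    have hcd : ContDiff ℝ ∞ (Real.exp ∘ fun v => -π * gaussForm K v) := Real.contDiff_exp.comp hg.1
    obtain ⟨d, C, hC, hb⟩ := hg.norm_iteratedFDeriv_le_uniform n
    obtain ⟨B, hB⟩ := exists_pow_mul_exp_le (k + d * n)
    refine ⟨n.factorial * (max 1 C) ^ n * B, fun x => ?_⟩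
    set D := max 1 C * (1 + ‖x‖) ^ d
    have hD1 : 1 ≤ D := one_le_mul_of_one_le_of_one_le (le_max_left _ _)
      (one_le_pow₀ (by linarith [norm_nonneg x]))
    have h := norm_iteratedFDeriv_comp_le (Real.contDiff_exp (n := ∞)) hg.1 (n := n)
      (by exact_mod_cast le_top) x (C := Real.exp (-π * gaussForm K x)) (D := D)
      (fun i _ => by
        rw [norm_iteratedFDeriv_eq_norm_iteratedDeriv, iteratedDeriv_eq_iterate, Real.iter_deriv_exp,
          Real.norm_of_nonneg (Real.exp_pos _).le])
      (fun i hi hin => ((hb i hin x).trans (mul_le_mul_of_nonneg_right (le_max_right _ _)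
        (by positivity))).trans (le_self_pow₀ hD1 (by omega)))
    rw [Complex.ofRealLI.norm_iteratedFDeriv_comp_left
      (hcd.of_le (by exact_mod_cast le_top) : ContDiff ℝ n _).contDiffAt le_rfl]
    refine (mul_le_mul_of_nonneg_left h (by positivity)).trans ?_
    have hx : ‖x‖ ^ k ≤ (1 + ‖x‖) ^ k := pow_le_pow_left₀ (norm_nonneg x) (by linarith) k
    have he : Real.exp (-π * gaussForm K x) ≤ Real.exp (-(π * ‖x‖ ^ 2)) :=
      Real.exp_le_exp.2 (by nlinarith [norm_sq_le_gaussForm x, Real.pi_pos])
    calc ‖x‖ ^ k * (n.factorial * Real.exp (-π * gaussForm K x) * D ^ n)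
        ≤ (1 + ‖x‖) ^ k * (n.factorial * Real.exp (-(π * ‖x‖ ^ 2)) * D ^ n) := by gcongr
      _ = n.factorial * (max 1 C) ^ n *
          ((1 + ‖x‖) ^ (k + d * n) * Real.exp (-(π * ‖x‖ ^ 2))) := by
        simp only [D, mul_pow, ← pow_mul, pow_add]
        ring
      _ ≤ _ := mul_le_mul_of_nonneg_left (hB _ (norm_nonneg x)) (by positivity)

theorem gaussSchwartz_apply (v : mixedEmbedding.mixedSpace K) :
    gaussSchwartz K v = (Real.exp (-π * gaussForm K v) : ℂ) := rfl

theorem hasTemperateGrowth_prod {E ι : Type*} [NormedAddCommGroup E] [NormedSpace ℝ E]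
    {s : Finset ι} {f : ι → E → ℂ} (h : ∀ i ∈ s, Function.HasTemperateGrowth (f i)) :
    Function.HasTemperateGrowth fun v => ∏ i ∈ s, f i v := by
  induction s using Finset.induction_on with
  | empty => simp only [Finset.prod_empty]; exact Function.HasTemperateGrowth.const (1 : ℂ)
  | insert a s has ih =>
    simp only [Finset.prod_insert has]
    exact (h a (Finset.mem_insert_self a s)).mul (ih fun i hi => h i (Finset.mem_insert_of_mem hi))

/-- The polynomial factor. -/
def infPoly (m : InfinitePlace K → ℤ) (v : mixedEmbedding.mixedSpace K) : ℂ :=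
  (∏ w : {w : InfinitePlace K // IsReal w}, ((v.1 w : ℂ) ^ (m w.1).natAbs)) *
    ∏ w : {w : InfinitePlace K // IsComplex w},
      (starRingEnd ℂ (v.2 w) ^ (m w.1).toNat * v.2 w ^ (-m w.1).toNat)

theorem hasTemperateGrowth_infPoly (m : InfinitePlace K → ℤ) :
    Function.HasTemperateGrowth (infPoly m) := by
  refine (hasTemperateGrowth_prod fun w _ => ?_).mul (hasTemperateGrowth_prod fun w _ => ?_)
  · exact (Complex.ofRealCLM.hasTemperateGrowth.comp (hasTemperateGrowth_fst w)).pow _
  · exact ((Complex.conjCLE.hasTemperateGrowth.comp (hasTemperateGrowth_snd w)).pow _).mul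
      ((hasTemperateGrowth_snd w).pow _)

theorem infTest_eq (m : InfinitePlace K → ℤ) (v : mixedEmbedding.mixedSpace K) :
    infTest m v = infPoly m v * gaussSchwartz K v := by
  rw [gaussSchwartz_apply, gaussForm, infTest, infPoly]
  simp only [realTest, cplxTest, Finset.prod_mul_distrib, ← Complex.exp_sum, Complex.ofReal_exp]
  rw [mul_mul_mul_comm, ← Complex.exp_add]
  congr 2
  push_cast
  simp only [Finset.mul_sum, mul_add, Finset.sum_neg_distrib, Finset.sum_add_distrib, neg_mul,
    neg_add, mul_assoc]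
  ring_nf

/-- **The test function as a Schwartz function.** -/
def infSchwartz (m : InfinitePlace K → ℤ) : 𝓢(mixedEmbedding.mixedSpace K, ℂ) :=
  SchwartzMap.smulLeftCLM ℂ (infPoly m) (gaussSchwartz K)

theorem infSchwartz_apply (m : InfinitePlace K → ℤ) (v : mixedEmbedding.mixedSpace K) :
    infSchwartz m v = infTest m v := by
  rw [infSchwartz, SchwartzMap.smulLeftCLM_apply_apply (hasTemperateGrowth_infPoly m), infTest_eq,
    smul_eq_mul]

/-- The constant of the transform. -/
def infConst (m : InfinitePlace K → ℤ) : ℂ :=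
  (∏ w : {w : InfinitePlace K // IsReal w}, Complex.I ^ (m w.1).natAbs) *
    ∏ w : {w : InfinitePlace K // IsComplex w}, (1 / 2 * Complex.I ^ (m w.1).natAbs)

theorem infConst_ne_zero (m : InfinitePlace K → ℤ) : infConst m ≠ 0 :=
  mul_ne_zero (Finset.prod_ne_zero_iff.2 fun _ _ => pow_ne_zero _ Complex.I_ne_zero)
    (Finset.prod_ne_zero_iff.2 fun _ _ =>
      mul_ne_zero (by norm_num) (pow_ne_zero _ Complex.I_ne_zero))

/-- **The transform of the test function.** -/
theorem integral_infTest_mul_ker {m : InfinitePlace K → ℤ}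
    (hm : ∀ w, IsReal w → (m w).natAbs ≤ 1) (b : mixedEmbedding.mixedSpace K) :
    ∫ v, infTest m v * mixedKer b v = infConst m * infTest (-m) b := by
  have hker : ∀ v, infTest m v * mixedKer b v =
      (∏ w : {w : InfinitePlace K // IsReal w}, realTest (m w.1) (v.1 w) * realKer (b.1 w) (v.1 w)) *
        ∏ w : {w : InfinitePlace K // IsComplex w},
          cplxTest (m w.1) (v.2 w) * cplxKer (b.2 w) (v.2 w) := fun v => by
    simp only [infTest, mixedKer, traceMixed, realKer, cplxKer, Finset.prod_mul_distrib,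
      ← Complex.exp_sum]
    rw [mul_mul_mul_comm, ← Complex.exp_add]
    congr 2
    push_cast
    simp only [Finset.mul_sum, Finset.sum_mul, mul_add, add_mul]
  simp_rw [hker]
  rw [Measure.volume_eq_prod, integral_prod_mul
    (fun x : {w : InfinitePlace K // IsReal w} → ℝ =>
      ∏ w, realTest (m w.1) (x w) * realKer (b.1 w) (x w))
    (fun z : {w : InfinitePlace K // IsComplex w} → ℂ =>
      ∏ w, cplxTest (m w.1) (z w) * cplxKer (b.2 w) (z w)), volume_pi, volume_pi,
    integral_fintype_prod_eq_prod (fun w x => realTest (m w.1) x * realKer (b.1 w) x),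
    integral_fintype_prod_eq_prod (fun w z => cplxTest (m w.1) z * cplxKer (b.2 w) z)]
  simp only [fun w : {w : InfinitePlace K // IsReal w} => fourier_realTest (hm w.1 w.2) (b.1 w),
    fourier_cplxTest, infConst, infTest, Finset.prod_mul_distrib, Pi.neg_apply, realTest_neg]
  ring

theorem traceInf_eq_traceMixed (y z : InfiniteAdeleRing K) :
    traceInf K (y * z) = traceMixed (InfiniteAdeleRing.ringEquiv_mixedSpace K y)
      (InfiniteAdeleRing.ringEquiv_mixedSpace K z) := by
  rw [traceInf_apply, traceMixed,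
    ← Fintype.sum_subtype_add_sum_subtype (fun w : InfinitePlace K => IsReal w)]
  congr 1
  · refine Finset.sum_congr rfl fun w _ => ?_
    rw [show (w.1.mult : ℝ) = 1 by simp [mult, w.2], one_mul]
    simp only [InfiniteAdeleRing.ringEquiv_mixedSpace_apply]
    rw [← map_mul, show (y * z) w.1 = y w.1 * z w.1 from rfl,
      ← extensionEmbeddingOfIsReal_apply w.2, Complex.ofReal_re]
  · refine Fintype.sum_equiv (Equiv.subtypeEquivRight fun _ => not_isReal_iff_isComplex) _ _
      fun w => ?_
    rw [show (w.1.mult : ℝ) = 2 by simp [mult, w.2]]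
    simp only [InfiniteAdeleRing.ringEquiv_mixedSpace_apply]
    rw [show (y * z) w.1 = y w.1 * z w.1 from rfl, map_mul]
    rfl

variable [MeasurableSpace (AdeleRing (𝓞 K) K)] [BorelSpace (AdeleRing (𝓞 K) K)]

/-- A product of a Schwartz function at infinity and a function of the finite part. -/
def prodFun (h : mixedEmbedding.mixedSpace K → ℂ) (φ : FiniteAdeleRing (𝓞 K) K → ℂ) :
    AdeleRing (𝓞 K) K → ℂ :=
  fun x => h (InfiniteAdeleRing.ringEquiv_mixedSpace K x.1) * φ x.2

theorem prodFun_mem (h : 𝓢(mixedEmbedding.mixedSpace K, ℂ)) {φ : FiniteAdeleRing (𝓞 K) K → ℂ}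
    (hlc : IsLocallyConstant φ) (hcs : HasCompactSupport φ) : prodFun h φ ∈ schwartzBruhat K :=
  mem_schwartzBruhat h hlc hcs

/-- **The transform of a product.** -/
theorem exists_fourier_prodFun {μ : Measure (AdeleRing (𝓞 K) K)} [IsAddHaarMeasure μ]
    (hμ : μ (funDom K) = 1) (h : 𝓢(mixedEmbedding.mixedSpace K, ℂ))
    {φ : FiniteAdeleRing (𝓞 K) K → ℂ} (hlc : IsLocallyConstant φ) (hcs : HasCompactSupport φ) :
    ∃ Φ : FiniteAdeleRing (𝓞 K) K → ℂ, ∀ a : 𝐀, adeleFourier μ (prodFun h φ) a =
      (∫ v, h v * mixedKer (InfiniteAdeleRing.ringEquiv_mixedSpace K a.1) v) * Φ a.2 := by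
  obtain ⟨N, hN, S, hS⟩ := exists_nat_decomp hlc hcs
  set g : 𝓢(CoordSpace K, ℂ) := SchwartzMap.compCLMOfContinuousLinearEquiv ℂ mixedCoord h
  obtain ⟨c₀, hc₀⟩ : ∃ c₀ : ℂ, ∀ a : InfiniteAdeleRing K,
      𝓕 (g : CoordSpace K → ℂ) (-traceVecInf a) =
        c₀ * ∫ v, h v * mixedKer (InfiniteAdeleRing.ringEquiv_mixedSpace K a) v := by
    set L : CoordSpace K ≃L[ℝ] mixedEmbedding.mixedSpace K := mixedCoord
    haveI : IsAddHaarMeasure (Measure.map L (volume : Measure (CoordSpace K))) :=
      L.isAddHaarMeasure_map volume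
    have hmap := isAddLeftInvariant_eq_smul (Measure.map L (volume : Measure (CoordSpace K)))
      (volume : Measure (mixedEmbedding.mixedSpace K))
    refine ⟨((addHaarScalarFactor (Measure.map L (volume : Measure (CoordSpace K)))
      (volume : Measure (mixedEmbedding.mixedSpace K)) : ℝ) : ℂ), fun a => ?_⟩
    have hcont : Continuous fun v => h v * mixedKer (InfiniteAdeleRing.ringEquiv_mixedSpace K a) v := by
      unfold mixedKer traceMixed
      fun_prop
    rw [← Complex.real_smul, ← NNReal.smul_def, ← integral_smul_nnreal_measure, ← hmap,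
      integral_map L.continuous.aemeasurable hcont.aestronglyMeasurable, Real.fourier_eq']
    refine integral_congr_ae (Eventually.of_forall fun u => ?_)
    obtain ⟨y, rfl⟩ : ∃ y, coordE K y = u := ⟨fromCoord K (WithLp.ofLp u), by
      ext i; rw [coordE_apply, coord_fromCoord]⟩
    simp only [g, SchwartzMap.compCLMOfContinuousLinearEquiv_apply, Function.comp_apply, smul_eq_mul,
      inner_neg_right, mixedKer, L, mixedCoord_coordE, ← traceInf_eq_traceMixed,
      traceInf_mul_eq_inner]
    rw [mul_comm]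
    congr 2
    push_cast
    ring
  have hterm : ∀ c, ∃ r : NNReal, ∀ a : 𝐀, adeleFourier μ (pureSB g c N) a =
      𝓕 (g : CoordSpace K → ℂ) (-traceVecInf a.1) * dualFactor r c N a.2 :=
    fun c => exists_fourier_pureSB μ g c hN
  choose r hr using hterm
  have hdec : prodFun h φ = ∑ c ∈ S, φ c • pureSB g c N := funext fun x => by
    rw [prodFun, hS x.2, Finset.mul_sum, Finset.sum_apply]
    refine Finset.sum_congr rfl fun c _ => ?_
    rw [Pi.smul_apply, smul_eq_mul, pureSB]
    by_cases hx : x ∈ finCoset c N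
    · rw [Set.indicator_of_mem hx, if_pos (show x.2 - c ∈ natMulInt K N from hx),
        SchwartzMap.compCLMOfContinuousLinearEquiv_apply, Function.comp_apply, mixedCoord_coordE,
        mul_comm]
    · rw [Set.indicator_of_notMem hx, if_neg (show x.2 - c ∉ natMulInt K N from hx), mul_zero,
        mul_zero]
  refine ⟨fun b => c₀ * ∑ c ∈ S, φ c * dualFactor (r c) c N b, fun a => ?_⟩
  have hsum : ∀ T : Finset (FiniteAdeleRing (𝓞 K) K),
      adeleFourier μ (∑ c ∈ T, φ c • pureSB g c N) a =
        ∑ c ∈ T, φ c * adeleFourier μ (pureSB g c N) a := fun T => by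
    induction T using Finset.induction_on with
    | empty => simp [adeleFourier]
    | insert d T hd ih =>
      rw [Finset.sum_insert hd, Finset.sum_insert hd, adeleFourier_add hμ
        (Submodule.smul_mem _ _ (Submodule.subset_span ⟨g, d, N, hN, rfl⟩))
        (Submodule.sum_mem _ fun c _ => Submodule.smul_mem _ _
          (Submodule.subset_span ⟨g, c, N, hN, rfl⟩)), ih, adeleFourier_smul, Pi.smul_apply,
        smul_eq_mul]
  beta_reduce
  rw [hdec, hsum, Finset.mul_sum, Finset.mul_sum]
  refine Finset.sum_congr rfl fun c _ => ?_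
  rw [hr, hc₀]
  ring

end FA.TateLocal

end
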