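import Fermat.Agent.TateLocal.Conductor
import Fermat.Agent.TateLocal.TestFunction
import Fermat.Agent.TateThesis.Inversion

/-!
# The transform of the test function

It is a constant times the test function of the inverse character composed with the multiplication
by an idele of conductor times different, and Fourier inversion gives the absolute value of the
constant.
-/

set_option autoImplicit false
set_option linter.unusedSectionVars false
set_option linter.style.haveILetI false

noncomputable section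

open NumberField NumberField.InfinitePlace IsDedekindDomain
open MeasureTheory MeasureTheory.Measure Filter Topology
open WithZero
open FA.AdeleDual FA.Ideles FA.IdeleClass FA.TateThesis
open FA.ArtinRec (ordI)
open scoped Classical ComplexConjugate SchwartzMap

set_option maxHeartbeats 800000

namespace FA.TateLocal

universe u

variable {K : Type u} [Field K] [NumberField K]

local notation "𝐀" => AdeleRing (𝓞 K) K

/-- **The test function.** -/
def testFun (χ : Idele K →* ℂˣ) (m : InfinitePlace K → ℤ) : AdeleRing (𝓞 K) K → ℂ :=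
  prodFun (infTest m) (finTest χ)

theorem infSchwartz_coe (m : InfinitePlace K → ℤ) :
    (infSchwartz m : mixedEmbedding.mixedSpace K → ℂ) = infTest m :=
  funext (infSchwartz_apply m)

theorem conj_testFun {χ : Idele K →* ℂˣ} (h : IsIdeleChar χ) (m : InfinitePlace K → ℤ) (x : 𝐀) :
    conj (testFun χ m x) = testFun χ⁻¹ (-m) x := by
  simp only [testFun, prodFun, infTest, map_mul, map_prod, conj_realTest, conj_cplxTest,
    conj_finTest h, Pi.neg_apply, realTest_neg]

theorem infTest_one_ne_zero (m : InfinitePlace K → ℤ) : infTest m 1 ≠ 0 := by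
  refine mul_ne_zero (Finset.prod_ne_zero_iff.2 fun w _ => ?_)
    (Finset.prod_ne_zero_iff.2 fun w _ => ?_) <;>
  simp [realTest, cplxTest, Complex.exp_ne_zero]

theorem finTest_one {χ : Idele K →* ℂˣ} (h : IsIdeleChar χ) : finTest χ 1 = 1 := by
  rw [finTest_of_mem h (mem_finInt.2 fun v => (map_one Valued.v).le)]
  refine Finset.prod_eq_one fun v _ => ?_
  rw [show (1 : FiniteAdeleRing (𝓞 K) K) v = ((1 : (v.adicCompletion K)ˣ) : v.adicCompletion K) from rfl,
    locVal_unit χ (z := 1) (map_one _), map_one, map_one, Units.val_one, map_one]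

variable [MeasurableSpace (AdeleRing (𝓞 K) K)] [BorelSpace (AdeleRing (𝓞 K) K)]
theorem testFun_mem {χ : Idele K →* ℂˣ} (h : IsIdeleChar χ) (m : InfinitePlace K → ℤ) :
    testFun χ m ∈ schwartzBruhat K := by
  rw [testFun, ← infSchwartz_coe]
  exact prodFun_mem _ (isLocallyConstant_finTest h) (hasCompactSupport_finTest χ)

variable {μ : Measure (AdeleRing (𝓞 K) K)} [IsAddHaarMeasure μ] {χ : Idele K →* ℂˣ}

theorem adeleFourier_unit (h : IsIdeleChar χ) (m : InfinitePlace K → ℤ) {u : Idele K}
    (hu : u ∈ unitFin K) (a : 𝐀) :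
    adeleFourier μ (testFun χ m) ((u : 𝐀) * a) =
      ((χ u : ℂˣ) : ℂ) * adeleFourier μ (testFun χ m) a := by
  have habs : ideleAbs K u = 1 := by
    rw [ideleAbs_of_units hu.1]
    exact Finset.prod_eq_one fun w _ => by rw [hu.2 w, Units.val_one, norm_one, one_pow]
  have h1 : (u : 𝐀).1 = 1 := funext fun w => congrArg Units.val (hu.2 w)
  have hc : conj ((χ u : ℂˣ) : ℂ) * ((χ u : ℂˣ) : ℂ) = 1 := by
    rw [← Complex.inv_eq_conj (h.norm_eq u), inv_mul_cancel₀ (Units.ne_zero _)]
  have hsub := integral_comp_mul μ u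
    fun y => testFun χ m y * conj ((stdChar K (a * y) : Circle) : ℂ)
  rw [habs, inv_one, one_smul] at hsub
  have hpt : ∀ y, testFun χ m ((u : 𝐀) * y) * conj ((stdChar K (a * ((u : 𝐀) * y)) : Circle) : ℂ) =
      conj ((χ u : ℂˣ) : ℂ) * (testFun χ m y *
        conj ((stdChar K ((u : 𝐀) * a * y) : Circle) : ℂ)) := fun y => by
    simp only [testFun, prodFun]
    rw [show ((u : 𝐀) * y).1 = (u : 𝐀).1 * y.1 from rfl, h1, one_mul,
      show ((u : 𝐀) * y).2 = (u : 𝐀).2 * y.2 from rfl, finTest_mul h hu,
      show a * ((u : 𝐀) * y) = (u : 𝐀) * a * y by ring]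
    ring
  simp only [hpt] at hsub
  rw [integral_const_mul] at hsub
  unfold adeleFourier
  rw [← hsub, ← mul_assoc, mul_comm ((χ u : ℂˣ) : ℂ), hc, one_mul]

/-- **The transform.** -/
theorem exists_fourier_testFun (hμ : μ (funDom K) = 1) (h : IsIdeleChar χ)
    {m : InfinitePlace K → ℤ} (hm : ∀ w, IsReal w → (m w).natAbs ≤ 1) :
    ∃ κ : ℂ, ∀ a : 𝐀, adeleFourier μ (testFun χ m) a =
      κ * testFun χ⁻¹ (-m) ((shiftIdele χ : 𝐀) * a) := by
  obtain ⟨Φ₀, hΦ₀⟩ := exists_fourier_prodFun hμ (infSchwartz m) (isLocallyConstant_finTest h)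
    (hasCompactSupport_finTest χ)
  simp only [infSchwartz_coe, integral_infTest_mul_ker hm] at hΦ₀
  change ∀ a : 𝐀, adeleFourier μ (testFun χ m) a = _ at hΦ₀
  set C : ℂ := infConst m * infTest (-m) 1
  have hC : C ≠ 0 := mul_ne_zero (infConst_ne_zero m) (infTest_one_ne_zero _)
  let e : FiniteAdeleRing (𝓞 K) K → 𝐀 :=
    fun b => ((1, b) : InfiniteAdeleRing K × FiniteAdeleRing (𝓞 K) K)
  have hF : ∀ b, adeleFourier μ (testFun χ m) (e b) = C * Φ₀ b := fun b => by
    rw [hΦ₀]
    show infConst m * infTest (-m) (InfiniteAdeleRing.ringEquiv_mixedSpace K 1) * Φ₀ b = _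
    rw [map_one]
  have hunit : ∀ (u : Idele K), u ∈ unitFin K → ∀ b,
      Φ₀ ((u : 𝐀).2 * b) = ((χ u : ℂˣ) : ℂ) * Φ₀ b := fun u hu b => by
    have h1 : (u : 𝐀) * e b = e ((u : 𝐀).2 * b) := Prod.ext (by
      show (u : 𝐀).1 * 1 = 1
      rw [mul_one]; exact funext fun w => congrArg Units.val (hu.2 w)) rfl
    have h2 := adeleFourier_unit (μ := μ) h m hu (e b)
    rw [h1, hF, hF] at h2
    exact mul_left_cancel₀ hC (h2.trans (by ring))
  have hper : ∀ b d, InTraceDual d → Φ₀ (b + d) = Φ₀ b := fun b d hd => by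
    refine mul_left_cancel₀ hC ?_
    rw [← hF, ← hF]
    refine integral_congr_ae (Eventually.of_forall fun y => ?_)
    show testFun χ m y * _ = testFun χ m y * _
    by_cases hy : y.2 ∈ finInt K
    · have h1 : e (b + d) = e b + inFin K d := Prod.ext (add_zero (1 : InfiniteAdeleRing K)).symm rfl
      rw [h1, add_mul, AddChar.map_add_eq_mul,
        show inFin K d * y = inFin K (d * y.2) from Prod.ext (zero_mul y.1) rfl, hd _ hy, mul_one]
    · rw [testFun, prodFun, finTest_of_notMem χ hy, mul_zero, zero_mul, zero_mul]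
  have hcond : ∀ b, Φ₀ b ≠ 0 → ∀ v, Valued.v (((shiftIdele χ : 𝐀).2 * b) v) ≤ 1 := fun b hb v => by
    have hT : InTraceDual (b * (idealIdele (condI χ) : 𝐀).2) := fun u hu => by
      set z : FiniteAdeleRing (𝓞 K) K := (idealIdele (condI χ) : 𝐀).2 * u
      have hz : ∀ v, Valued.v (z v) ≤ exp (-(condExp χ v : ℤ)) := fun v => by
        show Valued.v ((idealIdele (condI χ) : 𝐀).2 v * u v) ≤ _
        rw [map_mul, valued_idealIdele,
          show ordI v (condI χ).1 = condExp χ v from ordI_condIdeal h v]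
        exact mul_le_of_le_one_right' (mem_finInt.1 hu v)
      have hinv : (fun y => testFun χ m (y + inFin K z)) = testFun χ m := funext fun y => by
        simp only [testFun, prodFun]
        rw [show (y + inFin K z).1 = y.1 from add_zero y.1,
          show (y + inFin K z).2 = y.2 + z from rfl, finTest_add h _ hz]
      have h1 := adeleFourier_comp_add μ (testFun χ m) (inFin K z) (e b)
      rw [hinv, hF, show e b * inFin K z = inFin K (b * z) from Prod.ext (mul_zero _) rfl] at h1
      by_contra hne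
      refine hne (Circle.ext ?_)
      rw [mul_assoc, Circle.coe_one]
      exact (mul_eq_right₀ (mul_ne_zero hC hb)).1 h1.symm
    have h1 := (inTraceDual_iff _).1 hT v
    rw [show (b * (idealIdele (condI χ) : 𝐀).2) v = b v * (idealIdele (condI χ) : 𝐀).2 v from rfl,
      map_mul, valued_idealIdele, show ordI v (condI χ).1 = condExp χ v from ordI_condIdeal h v] at h1
    show Valued.v ((shiftIdele χ : 𝐀).2 v * b v) ≤ 1
    rw [map_mul, valued_shiftIdele h, Nat.cast_add, neg_add, exp_add, mul_assoc, mul_comm (exp _),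
      mul_assoc]
    refine (mul_le_mul' le_rfl h1).trans ?_
    rw [← exp_add, neg_add_cancel, exp_zero]
  have hsupp : ∀ b, Φ₀ b ≠ 0 → ∀ v ∈ ramSet χ,
      Valued.v (((shiftIdele χ : 𝐀).2 * b) v) = 1 := fun b hb v hv => by
    refine le_antisymm (hcond b hb v) (not_lt.1 fun hlt => ?_)
    set d := ordI v (diffI K).1
    set c := condExp χ v
    have hc : 0 < c := condExp_pos h hv
    obtain ⟨z, hz1, hzc, hzne⟩ : ∃ z : (v.adicCompletion K)ˣ,
        Valued.v (z : v.adicCompletion K) = 1 ∧
        Valued.v ((z : v.adicCompletion K) - 1) ≤ exp (-((c - 1 : ℕ) : ℤ)) ∧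
        χ (single v z) ≠ 1 := by
      have h1 : ¬LevelTriv χ v (c - 1) := fun hl => by
        have := (condExp_le_iff h).2 hl
        omega
      unfold LevelTriv at h1
      push Not at h1
      exact h1
    have hu : single v z ∈ unitFin K := ⟨fun w => by
      rcases eq_or_ne w v with rfl | hwv
      · rw [finComp_single_self, hz1]
      · rw [finComp_single_of_ne hwv, Units.val_one, map_one], fun w => infComp_single w v z⟩
    have hb1 : Valued.v (b v) ≤ exp ((c + d : ℕ) - 1 : ℤ) := by
      have h2 : exp (-((c + d : ℕ) : ℤ)) * Valued.v (b v) < 1 := by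
        rw [← valued_shiftIdele h, ← map_mul]; exact hlt
      rcases eq_or_ne (Valued.v (b v)) 0 with h0 | h0
      · rw [h0]; exact zero_le
      · rw [← exp_log h0, ← exp_add, ← exp_zero, exp_lt_exp] at h2
        rw [← exp_log h0, exp_le_exp]
        omega
    have hd : InTraceDual ((single v z : 𝐀).2 * b - b) := (inTraceDual_iff _).2 fun w => by
      show Valued.v ((single v z : 𝐀).2 w * b w - b w) ≤ _
      rcases eq_or_ne w v with rfl | hwv
      · rw [show (single w z : 𝐀).2 w = (z : w.adicCompletion K) by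
          rw [← finComp_val, finComp_single_self], ← sub_one_mul, map_mul]
        refine (mul_le_mul' hzc hb1).trans ?_
        rw [← exp_add, exp_le_exp]
        omega
      · rw [show (single v z : 𝐀).2 w = 1 by
          rw [← finComp_val, finComp_single_of_ne hwv, Units.val_one], one_mul, sub_self, map_zero]
        exact zero_le
    have h3 := hper b _ hd
    rw [add_sub_cancel, hunit _ hu] at h3
    exact hzne (Units.ext ((mul_eq_right₀ hb).1 h3))
  set b₁ : FiniteAdeleRing (𝓞 K) K := (((shiftIdele χ)⁻¹ : Idele K) : 𝐀).2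
  have hΦ : ∀ b, Φ₀ b = Φ₀ b₁ * finTest χ⁻¹ ((shiftIdele χ : 𝐀).2 * b) := fun b => by
    set y := (shiftIdele χ : 𝐀).2 * b
    by_cases hy : y ∈ finInt K ∧ ∀ v ∈ ramSet χ, Valued.v (y v) = 1
    swap
    · have h1 : Φ₀ b = 0 := by_contra fun hb =>
        hy ⟨mem_finInt.2 (hcond b hb), hsupp b hb⟩
      have h2 : finTest χ⁻¹ y = 0 := by
        by_cases hi : y ∈ finInt K
        · obtain ⟨v, hv, hne⟩ : ∃ v ∈ ramSet χ, Valued.v (y v) ≠ 1 := by
            by_contra hall
            push Not at hall
            exact hy ⟨hi, hall⟩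
          exact finTest_eq_zero_of_ne h.inv (ramSet_inv χ ▸ hv) hne
        · exact finTest_of_notMem _ hi
      rw [h1, h2, mul_zero]
    obtain ⟨hyi, hyu⟩ := hy
    set T := (finite_ramSet h).toFinset
    let f : ∀ v : HeightOneSpectrum (𝓞 K), (v.adicCompletion K)ˣ := fun v =>
      if hv : v ∈ ramSet χ then Units.mk0 (y v) fun h0 => by simpa [h0] using hyu v hv else 1
    have hf : ∀ v, Valued.v ((f v : (v.adicCompletion K)ˣ) : v.adicCompletion K) = 1 := fun v => by
      simp only [f]
      split_ifs with hv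
      · exact hyu v hv
      · rw [Units.val_one, map_one]
    have hfin : {v | Valued.v ((f v : (v.adicCompletion K)ˣ) : v.adicCompletion K) ≠ 1}.Finite :=
      Set.finite_empty.subset fun v hv => absurd (hf v) hv
    set u := ofFinite f hfin
    have hu : u ∈ unitFin K :=
      ⟨fun v => by rw [finComp_ofFinite]; exact hf v, fun w => infComp_ofFinite _ _ w⟩
    have hu2 : ∀ v, (u : 𝐀).2 v = ((f v : (v.adicCompletion K)ˣ) : v.adicCompletion K) := fun v => by
      rw [← finComp_val, finComp_ofFinite]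
    have hd : InTraceDual (b - (u : 𝐀).2 * b₁) := (inTraceDual_iff _).2 fun v => by
      have hb : b v = b₁ v * y v := by
        show b v = b₁ v * ((shiftIdele χ : 𝐀).2 v * b v)
        rw [← mul_assoc, show b₁ v * (shiftIdele χ : 𝐀).2 v = 1 from
          congrArg (fun x : 𝐀 => x.2 v) (shiftIdele χ).inv_mul, one_mul]
      show Valued.v (b v - (u : 𝐀).2 v * b₁ v) ≤ _
      rw [hb, hu2, mul_comm (b₁ v), ← sub_mul, map_mul]
      by_cases hv : v ∈ ramSet χ
      · simp only [f, dif_pos hv, Units.val_mk0, sub_self, map_zero, zero_mul]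
        exact zero_le
      · have hb₁ : Valued.v (b₁ v) = exp (ordI v (diffI K).1 : ℤ) := by
          show Valued.v ((((shiftIdele χ)⁻¹ : Idele K) : 𝐀).2 v) = _
          rw [shiftIdele, valued_idealIdele_inv, Submonoid.coe_mul,
            FA.ArtinRec.ordI_mul v (show (condI χ).1 ≠ ⊥ from condIdeal_ne_bot χ)
              (show (diffI K).1 ≠ ⊥ from differentIdeal_ne_bot),
            show ordI v (condI χ).1 = condExp χ v from ordI_condIdeal h v,
            (condExp_eq_zero_iff h).2 hv, zero_add]
        rw [hb₁]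
        refine mul_le_of_le_one_left' ?_
        simp only [f, dif_neg hv, Units.val_one]
        exact Valuation.map_sub_le _ (mem_finInt.1 hyi v) (map_one Valued.v).le
    have h1 := hper ((u : 𝐀).2 * b₁) _ hd
    rw [add_sub_cancel, hunit u hu] at h1
    rw [h1, mul_comm]
    congr 1
    have hinf : infPart u = 1 := idele_ext (fun v => by rw [finComp_infPart, map_one])
      fun w => by rw [infComp_infPart, hu.2, map_one]
    rw [map_of_units h hu.1, hinf, map_one, Units.val_one, one_mul, ← conj_finTest h,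
      finTest_of_mem h hyi, map_prod]
    refine Finset.prod_congr rfl fun v hv => ?_
    rw [Complex.conj_conj, hu2]
    simp only [f, dif_pos ((finite_ramSet h).mem_toFinset.1 hv), Units.val_mk0]
  refine ⟨infConst m * Φ₀ b₁, fun a => ?_⟩
  rw [hΦ₀, hΦ a.2]
  simp only [testFun, prodFun]
  rw [show ((shiftIdele χ : 𝐀) * a).1 = (shiftIdele χ : 𝐀).1 * a.1 from rfl, shiftIdele,
    fst_idealIdele, one_mul]
  rw [show ((idealIdele (condI χ * diffI K) : 𝐀) * a).2 =
    (idealIdele (condI χ * diffI K) : 𝐀).2 * a.2 from rfl]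
  ring

/-- **The absolute value of the constant.** -/
theorem norm_sq_of_fourier_testFun (hμ : μ (funDom K) = 1) (h : IsIdeleChar χ)
    {m : InfinitePlace K → ℤ} {κ : ℂ} (hκ : ∀ a : 𝐀, adeleFourier μ (testFun χ m) a =
      κ * testFun χ⁻¹ (-m) ((shiftIdele χ : 𝐀) * a)) :
    ‖κ‖ ^ 2 * (ideleAbs K (shiftIdele χ))⁻¹ = 1 := by
  set f := testFun χ m
  set f' := testFun χ⁻¹ (-m)
  set δ := shiftIdele χ
  have hconj : ∀ a, adeleFourier μ f' a = conj κ * f (-((δ : 𝐀) * a)) := fun a => by
    have h1 : adeleFourier μ f' a = conj (adeleFourier μ f (-a)) := by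
      unfold adeleFourier
      rw [← integral_conj]
      refine integral_congr_ae (Eventually.of_forall fun y => ?_)
      show f' y * _ = conj (f y * conj _)
      rw [neg_mul, AddChar.map_neg_eq_inv, Circle.coe_inv_eq_conj, map_mul (starRingEnd ℂ),
        Complex.conj_conj,
        show conj (f y) = f' y from conj_testFun h m y]
    have hff : ∀ z, conj (f' z) = f z := fun z => by
      rw [show f' z = conj (f z) from (conj_testFun h m z).symm, Complex.conj_conj]
    rw [h1, hκ, map_mul, hff, mul_neg]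
  have key : ∀ x, f (-x) = κ * conj κ * ((ideleAbs K δ)⁻¹ : ℝ) * f (-x) := fun x => by
    refine (fourier_inversion hμ (testFun_mem h m) x).symm.trans ?_
    unfold adeleFourier at hκ ⊢
    change ∫ b, (∫ y, f y * conj ((stdChar K (b * y) : Circle) : ℂ) ∂μ) *
      conj ((stdChar K (x * b) : Circle) : ℂ) ∂μ = _
    simp only [hκ, mul_assoc, integral_const_mul]
    congr 1
    have hsub := integral_comp_mul μ δ
      fun z => f' z * conj ((stdChar K (((δ⁻¹ : Idele K) : 𝐀) * x * z) : Circle) : ℂ)
    have hpt : ∀ b : 𝐀, ((δ⁻¹ : Idele K) : 𝐀) * x * ((δ : 𝐀) * b) = x * b := fun b => by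
      calc ((δ⁻¹ : Idele K) : 𝐀) * x * ((δ : 𝐀) * b)
          = ((δ⁻¹ : Idele K) : 𝐀) * (δ : 𝐀) * (x * b) := by ring
        _ = x * b := by rw [δ.inv_mul, one_mul]
    simp only [hpt] at hsub
    rw [hsub]
    have h2 := hconj (((δ⁻¹ : Idele K) : 𝐀) * x)
    unfold adeleFourier at h2
    rw [h2, ← mul_assoc (δ : 𝐀), δ.mul_inv, one_mul, Complex.real_smul]
    ring
  set e₀ : 𝐀 := ((1, 1) : InfiniteAdeleRing K × FiniteAdeleRing (𝓞 K) K)
  set x₀ : 𝐀 := -e₀ with hx₀
  have hne : f (-x₀) ≠ 0 := by
    rw [hx₀, neg_neg]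
    show infTest m (InfiniteAdeleRing.ringEquiv_mixedSpace K 1) * finTest χ 1 ≠ 0
    rw [map_one, finTest_one h, mul_one]
    exact infTest_one_ne_zero m
  have h3 := (mul_eq_right₀ hne).1 (key x₀).symm
  rw [Complex.mul_conj', ← Complex.ofReal_pow, ← Complex.ofReal_mul] at h3
  exact_mod_cast h3

end FA.TateLocal

end
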