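import Fermat.Agent.TateLocal.LocalFiniteFE
import Fermat.Agent.TateLocal.FourierTest

/-!
# The global root number as a product of the local ones

The integral over the adeles defining the constant of the transform of the test function splits off
one prime at a time, as the integral in the coordinate at a prime is invariant under translations.
-/

set_option autoImplicit false
set_option linter.unusedSectionVars false
set_option linter.style.haveILetI false

noncomputable section

open NumberField NumberField.InfinitePlace IsDedekindDomain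
open MeasureTheory MeasureTheory.Measure Filter Topology Module
open WithZero
open FA.AdeleDual FA.Ideles FA.IdeleClass FA.TateThesis
open FA.ArtinRec (ordI)
open scoped Classical ComplexConjugate ENNReal NNReal SchwartzMap

set_option maxHeartbeats 800000

namespace FA.TateLocal

universe u

variable {K : Type u} [Field K] [NumberField K]

local notation "𝐀" => AdeleRing (𝓞 K) K

/-- The component of a character at a prime. -/
def locComp (χ : Idele K →* ℂˣ) (v : HeightOneSpectrum (𝓞 K)) : (v.adicCompletion K)ˣ →* ℂˣ :=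
  χ.comp (single v)

theorem locCond_locComp (χ : Idele K →* ℂˣ) (v : HeightOneSpectrum (𝓞 K)) :
    locCond (locComp χ v) = condExp χ v := rfl

theorem continuous_single' (v : HeightOneSpectrum (𝓞 K)) :
    Continuous (single (K := K) v) := by
  have hval : ∀ z : (v.adicCompletion K)ˣ, ((single v z : Idele K) : 𝐀) =
      (1 : 𝐀) + inFin K (singleFin v ((z : v.adicCompletion K) - 1)) := fun z => by
    refine Prod.ext ?_ ?_
    · exact ((funext fun w => congrArg Units.val (infComp_single w v z)) :
        ((single v z : Idele K) : 𝐀).1 = 1).trans (add_zero _).symm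
    · refine FiniteAdeleRing.ext _ fun u => ?_
      show ((single v z : Idele K) : 𝐀).2 u = 1 + singleFin v ((z : v.adicCompletion K) - 1) u
      rw [← finComp_val]
      rcases eq_or_ne u v with rfl | hu
      · rw [finComp_single_self, singleFin_self, add_sub_cancel]
      · rw [finComp_single_of_ne hu, singleFin_of_ne hu, Units.val_one, add_zero]
  refine Units.continuous_iff.2 ⟨?_, ?_⟩
  · simp only [Function.comp_def, hval]
    exact continuous_const.add (continuous_inFin.comp ((continuous_singleFin v).comp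
      (Units.continuous_val.sub continuous_const)))
  · simp only [← map_inv, hval]
    exact continuous_const.add (continuous_inFin.comp ((continuous_singleFin v).comp
      (Units.continuous_coe_inv.sub continuous_const)))

theorem isLocChar_locComp {χ : Idele K →* ℂˣ} (h : IsIdeleChar χ) (v : HeightOneSpectrum (𝓞 K))
    [MeasurableSpace (v.adicCompletion K)] [BorelSpace (v.adicCompletion K)] :
    IsLocChar (locComp χ v) :=
  ⟨h.cont.comp (continuous_single' v), fun x => h.norm_eq _⟩

/-- The integral elements outside `T`. -/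
def restSet (T : Finset (HeightOneSpectrum (𝓞 K))) : Set (FiniteAdeleRing (𝓞 K) K) :=
  {u | ∀ w ∉ T, Valued.v (u w) ≤ 1}

/-- The indicator of a ball at a coordinate. -/
def ballInd (v : HeightOneSpectrum (𝓞 K)) (n : ℤ) (t : v.adicCompletion K) : ℂ :=
  (ball v n : Set (v.adicCompletion K)).indicator 1 t

theorem isBruhat_ballInd (v : HeightOneSpectrum (𝓞 K))
    [MeasurableSpace (v.adicCompletion K)] [BorelSpace (v.adicCompletion K)] (n : ℤ) :
    IsBruhat (ballInd v n) := by
  refine isBruhat_of_level (m := n) (k := n) (fun y hy => ?_) fun y z hz => ?_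
  · by_contra h
    exact hy (Set.indicator_of_notMem (show y ∉ (ball v n : Set _) from h) _)
  · simp only [ballInd, Set.indicator, SetLike.mem_coe, AddSubgroup.add_mem_cancel_right _ hz,
      Pi.one_apply]

theorem addChar_sum {A M ι : Type*} [AddCommMonoid A] [CommMonoid M] (ψ : AddChar A M) (s : Finset ι)
    (f : ι → A) : ψ (∑ i ∈ s, f i) = ∏ i ∈ s, ψ (f i) := by
  induction s using Finset.induction_on with
  | empty => simp
  | insert a s ha ih => rw [Finset.sum_insert ha, Finset.prod_insert ha, AddChar.map_add_eq_mul, ih]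

variable [∀ v : HeightOneSpectrum (𝓞 K), MeasurableSpace (v.adicCompletion K)]
  [∀ v : HeightOneSpectrum (𝓞 K), BorelSpace (v.adicCompletion K)]
  [MeasurableSpace (AdeleRing (𝓞 K) K)] [BorelSpace (AdeleRing (𝓞 K) K)]
  {μ : Measure (AdeleRing (𝓞 K) K)} [IsAddHaarMeasure μ]

theorem measurable_eval_fin (v : HeightOneSpectrum (𝓞 K)) : Measurable fun y : 𝐀 => y.2 v :=
  (continuous_finComp v).measurable

theorem norm_ballInd_mono {v : HeightOneSpectrum (𝓞 K)} {m n : ℤ} (hmn : m ≤ n)
    (t : v.adicCompletion K) : ‖ballInd v m t‖ ≤ ‖ballInd v n t‖ := by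
  by_cases h : t ∈ (ball v m : Set (v.adicCompletion K))
  · rw [ballInd, ballInd, Set.indicator_of_mem h, Set.indicator_of_mem (ball_mono hmn h)]
  · rw [ballInd, Set.indicator_of_notMem h, norm_zero]
    exact norm_nonneg _

theorem IsBruhat.norm_le_ballInd {v : HeightOneSpectrum (𝓞 K)} {g : v.adicCompletion K → ℂ}
    (hg : IsBruhat g) :
    ∃ (C : ℝ) (n : ℕ), 0 ≤ C ∧ ∀ t, ‖g t‖ ≤ C * ‖ballInd v n t‖ := by
  obtain ⟨n, hn, -⟩ := hg.exists_level
  obtain ⟨C, hC⟩ := hg.1.continuous.bounded_above_of_compact_support hg.2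
  refine ⟨C, n, (norm_nonneg _).trans (hC 0), fun t => ?_⟩
  by_cases h : g t = 0
  · rw [h, norm_zero]
    exact mul_nonneg ((norm_nonneg _).trans (hC 0)) (norm_nonneg _)
  · rw [ballInd, Set.indicator_of_mem (show t ∈ (ball v n : Set _) from hn t h), Pi.one_apply,
      norm_one, mul_one]
    exact hC t

/-- **Splitting off one prime.** -/
theorem integral_split_one {v : HeightOneSpectrum (𝓞 K)} (μv : Measure (v.adicCompletion K))
    [IsAddHaarMeasure μv] {g : v.adicCompletion K → ℂ} (hg : IsBruhat g) {R : 𝐀 → ℂ}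
    (hRm : Measurable R) (hinv : ∀ y z, R (y + inFin K (singleFin v z)) = R y)
    (hint : ∀ N : ℕ, Integrable (fun y => ballInd v N (y.2 v) * R y) μ) :
    ((μv.real (ball v 0 : Set (v.adicCompletion K)) : ℝ) : ℂ) * ∫ y, g (y.2 v) * R y ∂μ =
      (∫ t, g t ∂μv) * ∫ y, ballInd v 0 (y.2 v) * R y ∂μ := by
  haveI := secondCountable_adicCompletion v
  haveI := locallyCompact_adicCompletion v
  haveI := secondCountable_adele (K := K)
  haveI := locallyCompact_adele (K := K)
  obtain ⟨C, n, hC0, hC⟩ := hg.norm_le_ballInd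
  have hev := measurable_eval_fin (K := K) v
  have hb : ∀ k : ℤ, Measurable (ballInd v k) := fun k =>
    (isBruhat_ballInd v k).1.continuous.measurable
  have hgm : Measurable g := hg.1.continuous.measurable
  have dom : ∀ Φ : v.adicCompletion K × 𝐀 → ℂ, Measurable Φ →
      (∀ z y, ‖Φ (z, y)‖ ≤ C * (‖ballInd v n z‖ * ‖ballInd v n (y.2 v) * R y‖)) →
      Integrable Φ (μv.prod μ) := fun Φ hΦm hle =>
    (((((isBruhat_ballInd v n).isTestFn μv).int.norm.mul_prod (hint n).norm)).const_mul C).mono'
      hΦm.aestronglyMeasurable (Eventually.of_forall fun p => hle p.1 p.2)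
  set Φ : v.adicCompletion K × 𝐀 → ℂ := fun p => ballInd v 0 p.1 * (g (p.2.2 v + p.1) * R p.2)
  set Ψ : v.adicCompletion K × 𝐀 → ℂ := fun p => g p.1 * (ballInd v 0 (p.1 - p.2.2 v) * R p.2)
  have hΦ : Integrable Φ (μv.prod μ) := by
    refine dom Φ (((hb 0).comp measurable_fst).mul ((hgm.comp
      ((hev.comp measurable_snd).add measurable_fst)).mul (hRm.comp measurable_snd))) fun z y => ?_
    by_cases hz : z ∈ (ball v 0 : Set (v.adicCompletion K))
    swap
    · simp only [Φ, ballInd, Set.indicator_of_notMem hz, zero_mul, norm_zero]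
      positivity
    have hzn : z ∈ (ball v n : Set (v.adicCompletion K)) := ball_mono (by omega) hz
    have h2 : ‖g (y.2 v + z)‖ ≤ C * ‖ballInd v n (y.2 v)‖ := by
      refine (hC _).trans (mul_le_mul_of_nonneg_left (le_of_eq ?_) hC0)
      simp only [ballInd, Set.indicator, SetLike.mem_coe, AddSubgroup.add_mem_cancel_right _ hzn,
        Pi.one_apply]
    simp only [Φ, norm_mul, ballInd, Set.indicator_of_mem hz, Set.indicator_of_mem hzn,
      Pi.one_apply, norm_one, one_mul]
    exact (mul_le_mul_of_nonneg_right h2 (norm_nonneg _)).trans_eq (mul_assoc _ _ _)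
  have hΨ : Integrable Ψ (μv.prod μ) := by
    refine dom Ψ ((hgm.comp measurable_fst).mul (((hb 0).comp
      (measurable_fst.sub (hev.comp measurable_snd))).mul (hRm.comp measurable_snd))) fun z y => ?_
    by_cases hz : z ∈ (ball v n : Set (v.adicCompletion K))
    swap
    · have h0 : g z = 0 := norm_le_zero_iff.1 ((hC z).trans_eq (by
        rw [ballInd, Set.indicator_of_notMem hz, norm_zero, mul_zero]))
      simp only [Ψ, h0, zero_mul, norm_zero]
      positivity
    have h2 : ‖ballInd v 0 (z - y.2 v)‖ ≤ ‖ballInd v n (y.2 v)‖ := by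
      by_cases h : z - y.2 v ∈ (ball v 0 : Set (v.adicCompletion K))
      · have h' : y.2 v ∈ (ball v n : Set (v.adicCompletion K)) := by
          have := (ball v n).sub_mem hz (ball_mono (show (0 : ℤ) ≤ n by omega) h)
          rwa [sub_sub_cancel] at this
        rw [ballInd, ballInd, Set.indicator_of_mem h, Set.indicator_of_mem h', Pi.one_apply, Pi.one_apply]
      · rw [ballInd, Set.indicator_of_notMem h, norm_zero]
        exact norm_nonneg _
    have h1 := hC z
    rw [ballInd, Set.indicator_of_mem hz, Pi.one_apply, norm_one, mul_one] at h1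
    simp only [Ψ, norm_mul]
    rw [show ‖ballInd v n z‖ = 1 by rw [ballInd, Set.indicator_of_mem hz, Pi.one_apply, norm_one],
      one_mul]
    exact mul_le_mul h1 (mul_le_mul_of_nonneg_right h2 (norm_nonneg _)) (by positivity) hC0
  have hshift : ∀ (f : v.adicCompletion K → ℂ) (z : v.adicCompletion K),
      ∫ y, f (y.2 v + z) * R y ∂μ = ∫ y, f (y.2 v) * R y ∂μ := fun f z => by
    rw [← integral_add_right_eq_self (μ := μ) (fun y : 𝐀 => f (y.2 v) * R y)
      (inFin K (singleFin v z))]
    refine integral_congr_ae (Eventually.of_forall fun y => ?_)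
    beta_reduce
    rw [hinv, show (y + inFin K (singleFin v z)).2 v = y.2 v + singleFin v z v from rfl,
      singleFin_self]
  calc ((μv.real (ball v 0 : Set (v.adicCompletion K)) : ℝ) : ℂ) * ∫ y, g (y.2 v) * R y ∂μ
      = ∫ z, ∫ y, Φ (z, y) ∂μ ∂μv := by
        simp only [Φ, integral_const_mul, hshift g]
        rw [integral_mul_const, show ∫ z, ballInd v 0 z ∂μv =
          ((μv.real (ball v 0 : Set (v.adicCompletion K)) : ℝ) : ℂ) by
          rw [show ballInd v 0 = (ball v 0 : Set (v.adicCompletion K)).indicator fun _ => (1 : ℂ)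
              from rfl,
            integral_indicator_const _ (isOpen_ball' 0).measurableSet, Complex.real_smul, mul_one]]
    _ = ∫ y, ∫ z, Φ (z, y) ∂μv ∂μ := integral_integral_swap hΦ
    _ = ∫ y, ∫ w, Ψ (w, y) ∂μv ∂μ := by
        refine integral_congr_ae (Eventually.of_forall fun y => ?_)
        show ∫ z, Φ (z, y) ∂μv = ∫ w, Ψ (w, y) ∂μv
        rw [← integral_add_right_eq_self (μ := μv) (fun w => Ψ (w, y)) (y.2 v)]
        refine integral_congr_ae (Eventually.of_forall fun z => ?_)
        simp only [Φ, Ψ, add_sub_cancel_right, add_comm z (y.2 v)]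
        ring
    _ = ∫ w, ∫ y, Ψ (w, y) ∂μ ∂μv := (integral_integral_swap hΨ).symm
    _ = _ := by
        rw [← integral_mul_const]
        refine integral_congr_ae (Eventually.of_forall fun w => ?_)
        show ∫ y, Ψ (w, y) ∂μ = g w * _
        simp only [Ψ, integral_const_mul]
        congr 1
        rw [← hshift (ballInd v 0) (-w)]
        refine integral_congr_ae (Eventually.of_forall fun y => ?_)
        beta_reduce
        simp only [ballInd, Set.indicator, SetLike.mem_coe, ← sub_eq_add_neg,
          (ball v 0).sub_mem_comm_iff (a := w), Pi.one_apply]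

/-- **Splitting off finitely many primes.** -/
theorem integral_split (μs : ∀ v : HeightOneSpectrum (𝓞 K), Measure (v.adicCompletion K))
    [∀ v, IsAddHaarMeasure (μs v)] {g : ∀ v : HeightOneSpectrum (𝓞 K), v.adicCompletion K → ℂ}
    (hg : ∀ v, IsBruhat (g v)) (T : Finset (HeightOneSpectrum (𝓞 K))) :
    ∀ {R : 𝐀 → ℂ}, Measurable R →
      (∀ v ∈ T, ∀ y z, R (y + inFin K (singleFin v z)) = R y) →
      (∀ N : ℕ, Integrable (fun y : 𝐀 => (∏ v ∈ T, ballInd v N (y.2 v)) * R y) μ) →
      (∏ v ∈ T, (((μs v).real (ball v 0 : Set (v.adicCompletion K)) : ℝ) : ℂ)) *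
          ∫ y, (∏ v ∈ T, g v (y.2 v)) * R y ∂μ =
        (∏ v ∈ T, ∫ t, g v t ∂μs v) * ∫ y, (∏ v ∈ T, ballInd v 0 (y.2 v)) * R y ∂μ := by
  induction T using Finset.induction_on with
  | empty => intro R _ _ _; simp
  | insert a T ha ih =>
    intro R hRm hinv hint
    have hev := fun v => measurable_eval_fin (K := K) v
    have hbm : ∀ (v : HeightOneSpectrum (𝓞 K)) (k : ℤ),
        Measurable fun y : 𝐀 => ballInd v k (y.2 v) := fun v k =>
      ((isBruhat_ballInd v k).1.continuous.measurable).comp (hev v)
    set R' : 𝐀 → ℂ := fun y => (∏ v ∈ T, g v (y.2 v)) * R y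
    have hR'm : Measurable R' :=
      (Finset.measurable_prod _ fun v _ => (hg v).1.continuous.measurable.comp (hev v)).mul hRm
    have hR'inv : ∀ y z, R' (y + inFin K (singleFin a z)) = R' y := fun y z => by
      simp only [R']
      rw [hinv a (Finset.mem_insert_self a T)]
      refine congrArg (· * R y) (Finset.prod_congr rfl fun v hv => ?_)
      rw [show (y + inFin K (singleFin a z)).2 v = y.2 v + singleFin a z v from rfl,
        singleFin_of_ne (fun e : v = a => ha (e ▸ hv)), add_zero]
    have hR'int : ∀ N : ℕ, Integrable (fun y => ballInd a N (y.2 a) * R' y) μ := fun N => by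
      choose C n hC0 hC using fun v => (hg v).norm_le_ballInd
      set M : ℕ := max N (T.sup n)
      refine ((hint M).norm.const_mul (∏ v ∈ T, C v)).mono' ((hbm a N).mul hR'm).aestronglyMeasurable
        (Eventually.of_forall fun y => ?_)
      show ‖ballInd a N (y.2 a) * R' y‖ ≤
        (∏ v ∈ T, C v) * ‖(∏ v ∈ insert a T, ballInd v M (y.2 v)) * R y‖
      rw [Finset.prod_insert ha]
      simp only [R', norm_mul, norm_prod]
      calc ‖ballInd a N (y.2 a)‖ * ((∏ v ∈ T, ‖g v (y.2 v)‖) * ‖R y‖)
          ≤ ‖ballInd a M (y.2 a)‖ * ((∏ v ∈ T, C v * ‖ballInd v M (y.2 v)‖) * ‖R y‖) := by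
            refine mul_le_mul (norm_ballInd_mono (Int.ofNat_le.2 (le_max_left _ _)) _)
              (mul_le_mul_of_nonneg_right (Finset.prod_le_prod (fun _ _ => norm_nonneg _)
                fun v hv => (hC v _).trans (mul_le_mul_of_nonneg_left (norm_ballInd_mono
                  (Int.ofNat_le.2 ((Finset.le_sup hv).trans (le_max_right _ _))) _) (hC0 v)))
                (norm_nonneg _)) (by positivity) (norm_nonneg _)
        _ = _ := by rw [Finset.prod_mul_distrib]; ring
    have h1 := integral_split_one (μs a) (hg a) hR'm hR'inv hR'int (μ := μ)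
    set R'' : 𝐀 → ℂ := fun y => ballInd a 0 (y.2 a) * R y
    have hR''inv : ∀ v ∈ T, ∀ y z, R'' (y + inFin K (singleFin v z)) = R'' y := fun v hv y z => by
      simp only [R'']
      rw [hinv v (Finset.mem_insert_of_mem hv),
        show (y + inFin K (singleFin v z)).2 a = y.2 a + singleFin v z a from rfl,
        singleFin_of_ne (fun e : a = v => ha (e ▸ hv)), add_zero]
    have hR''int : ∀ N : ℕ, Integrable
        (fun y : 𝐀 => (∏ v ∈ T, ballInd v N (y.2 v)) * R'' y) μ := fun N => by
      refine (hint N).norm.mono' ((Finset.measurable_prod _ fun v _ => hbm v N).mul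
        ((hbm a 0).mul hRm)).aestronglyMeasurable (Eventually.of_forall fun y => ?_)
      simp only [R'', Finset.prod_insert ha, norm_mul]
      rw [mul_left_comm, ← mul_assoc]
      exact mul_le_mul_of_nonneg_right (mul_le_mul_of_nonneg_right
        (norm_ballInd_mono (by omega) _) (norm_nonneg _)) (norm_nonneg _)
    have h2 := ih ((hbm a 0).mul hRm) hR''inv hR''int
    have e1 : ∫ y, (∏ v ∈ insert a T, g v (y.2 v)) * R y ∂μ = ∫ y, g a (y.2 a) * R' y ∂μ :=
      integral_congr_ae (Eventually.of_forall fun y => by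
        simp only [R', Finset.prod_insert ha, mul_assoc])
    have e2 : ∫ y, ballInd a 0 (y.2 a) * R' y ∂μ = ∫ y, (∏ v ∈ T, g v (y.2 v)) * R'' y ∂μ :=
      integral_congr_ae (Eventually.of_forall fun y => by simp only [R', R'']; ring)
    have e3 : ∫ y, (∏ v ∈ insert a T, ballInd v 0 (y.2 v)) * R y ∂μ =
        ∫ y, (∏ v ∈ T, ballInd v 0 (y.2 v)) * R'' y ∂μ :=
      integral_congr_ae (Eventually.of_forall fun y => by
        simp only [R'', Finset.prod_insert ha]; ring)
    rw [e2] at h1
    rw [e1, e3, Finset.prod_insert ha, Finset.prod_insert ha]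
    linear_combination (∏ v ∈ T, (((μs v).real (ball v 0 : Set (v.adicCompletion K)) : ℝ) : ℂ)) * h1 +
      (∫ t, g a t ∂μs a) * h2

/-- **The integral at infinity.** -/
theorem exists_integral_inf (hμ : μ (funDom K) = 1) (G : mixedEmbedding.mixedSpace K → ℂ)
    (hG : Continuous G) :
    ∃ ρ : ℝ≥0, ∫ y : 𝐀, G (InfiniteAdeleRing.ringEquiv_mixedSpace K y.1) *
        (finInt K : Set (FiniteAdeleRing (𝓞 K) K)).indicator 1 y.2 ∂μ = (ρ : ℂ) * ∫ x, G x := by
  obtain ⟨r, hr⟩ := exists_map_finCoset μ (0 : FiniteAdeleRing (𝓞 K) K) one_ne_zero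
  set L : CoordSpace K ≃L[ℝ] mixedEmbedding.mixedSpace K := mixedCoord
  haveI : IsAddHaarMeasure (Measure.map L (volume : Measure (CoordSpace K))) :=
    L.isAddHaarMeasure_map volume
  have hmap := isAddLeftInvariant_eq_smul (Measure.map L (volume : Measure (CoordSpace K)))
    (volume : Measure (mixedEmbedding.mixedSpace K))
  refine ⟨r * addHaarScalarFactor (Measure.map L (volume : Measure (CoordSpace K)))
    (volume : Measure (mixedEmbedding.mixedSpace K)), ?_⟩
  have hmem : ∀ y : 𝐀, y ∈ finCoset (0 : FiniteAdeleRing (𝓞 K) K) 1 ↔ y.2 ∈ finInt K := fun y => by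
    show algebraMap K (FiniteAdeleRing (𝓞 K) K) (((1 : ℕ) : K))⁻¹ * (y.2 - 0) ∈ finInt K ↔ _
    rw [Nat.cast_one, inv_one, map_one, one_mul, sub_zero]
  have hpt : ∀ y : 𝐀, G (InfiniteAdeleRing.ringEquiv_mixedSpace K y.1) *
      (finInt K : Set (FiniteAdeleRing (𝓞 K) K)).indicator 1 y.2 =
      (finCoset (0 : FiniteAdeleRing (𝓞 K) K) 1).indicator
        (fun y : 𝐀 => (G ∘ L) (coordE K y.1)) y := fun y => by
    by_cases hy : y.2 ∈ finInt K
    · rw [Set.indicator_of_mem (show y.2 ∈ (finInt K : Set _) from hy),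
        Set.indicator_of_mem ((hmem y).2 hy), Pi.one_apply, mul_one, Function.comp_apply,
        mixedCoord_coordE]
    · rw [Set.indicator_of_notMem (show y.2 ∉ (finInt K : Set _) from hy),
        Set.indicator_of_notMem (fun h => hy ((hmem y).1 h)), mul_zero]
  have hcE : Continuous fun x : 𝐀 => coordE K x.1 := continuous_coordE.comp continuous_fst
  rw [integral_congr_ae (Eventually.of_forall hpt),
    integral_indicator (isClopen_finCoset _ _).isOpen.measurableSet,
    ← integral_map hcE.measurable.aemeasurable (hG.comp L.continuous).measurable.aestronglyMeasurable,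
    hr, integral_smul_nnreal_measure, show ∫ x, (G ∘ L) x = ∫ x, G x ∂(Measure.map L volume) from
      (integral_map L.continuous.aemeasurable hG.aestronglyMeasurable).symm,
    congrArg (fun ν : Measure (mixedEmbedding.mixedSpace K) => ∫ x, G x ∂ν) hmap,
    integral_smul_nnreal_measure, NNReal.smul_def, NNReal.smul_def, Complex.real_smul,
    Complex.real_smul, NNReal.coe_mul, Complex.ofReal_mul, mul_assoc]

/-- The local Gauss integral at the inverse of any element of the same valuation. -/
theorem fourier_refFn_mul_char {v : HeightOneSpectrum (𝓞 K)} (μv : Measure (v.adicCompletion K))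
    [IsAddHaarMeasure μv] {η : (v.adicCompletion K)ˣ →* ℂˣ} (hη : IsLocChar η)
    {z : (v.adicCompletion K)ˣ} (hz : Valued.v (z : v.adicCompletion K) = exp (-(condDiff η : ℤ))) :
    fourierLoc μv (kerV v) (refFn η) ((z⁻¹ : (v.adicCompletion K)ˣ) : v.adicCompletion K) *
        ((η z : ℂˣ) : ℂ) =
      gaussLoc μv η * ((η (pi₀ v ^ (condDiff η : ℤ)) : ℂˣ) : ℂ) := by
  set p : (v.adicCompletion K)ˣ := pi₀ v ^ (condDiff η : ℤ)
  set u : (v.adicCompletion K)ˣ := z⁻¹ * p with hu
  have hu1 : Valued.v (u : v.adicCompletion K) = 1 := by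
    rw [hu, Units.val_mul, map_mul, Units.val_inv_eq_inv_val, map_inv₀, hz, valued_pi₀_zpow,
      inv_mul_cancel₀ exp_ne_zero]
  have hp : p = z * u := by rw [hu, mul_inv_cancel_left]
  by_cases hc : locCond η = 0
  · have hmem : ∀ a : (v.adicCompletion K)ˣ,
        Valued.v (a : v.adicCompletion K) = exp (condDiff η : ℤ) →
        (a : v.adicCompletion K) ∈ ball v (diffExp v : ℤ) := fun a ha => by
      show Valued.v (a : v.adicCompletion K) ≤ exp (diffExp v : ℤ)
      rw [ha, condDiff, hc, zero_add]
    rw [gaussLoc, fourier_refFn_unramified μv hη hc, fourier_refFn_unramified μv hη hc,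
      if_pos (hmem _ (by rw [Units.val_inv_eq_inv_val, map_inv₀, hz, ← exp_neg, neg_neg])),
      if_pos (hmem _ (by rw [valued_pi₀_zpow, neg_neg])), hp, map_mul,
      locTriv_locCond hη.cont u hu1 (by
        rw [hc, Nat.cast_zero, neg_zero, exp_zero]
        exact Valuation.map_sub_le _ hu1.le (map_one Valued.v).le), mul_one]
  · rw [show ((z⁻¹ : (v.adicCompletion K)ˣ) : v.adicCompletion K) =
      (u : v.adicCompletion K) * ((pi₀ v ^ (-(condDiff η : ℤ)) : (v.adicCompletion K)ˣ) :
        v.adicCompletion K) by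
      rw [← Units.val_mul, hu, mul_assoc, zpow_neg, mul_inv_cancel, mul_one],
      fourier_refFn_mul μv hη hc hu1, extChar_units, gaussLoc, hu, map_mul, map_inv, Units.val_mul,
      Units.val_inv_eq_inv_val]
    field_simp

variable {χ : Idele K →* ℂˣ} (h : IsIdeleChar χ)
include h

/-- **The global root number is the product of the local ones.** -/
theorem rootNumber_eq_prod (hμ : μ (funDom K) = 1) {m : InfinitePlace K → ℤ}
    (hm : ∀ w, IsReal w → (m w).natAbs ≤ 1) {κ : ℂ}
    (hκ : ∀ a : 𝐀, adeleFourier μ (testFun χ m) a =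
      κ * testFun χ⁻¹ (-m) ((shiftIdele χ : 𝐀) * a))
    (μs : ∀ v : HeightOneSpectrum (𝓞 K), Measure (v.adicCompletion K)) [∀ v, IsAddHaarMeasure (μs v)]
    (hμs : ∀ v, (μs v).real (ball v 0 : Set (v.adicCompletion K)) ^ 2 *
      qv v ^ (diffExp v : ℤ) = 1) :
    κ * ((χ (shiftIdele χ) : ℂˣ) : ℂ) * ((√(ideleAbs K (shiftIdele χ))⁻¹ : ℝ) : ℂ) =
      (∏ w, Complex.I ^ (m w).natAbs) * ∏ᶠ v, rootLoc (μs v) (locComp χ v) := by
  have hη : ∀ v, IsLocChar (locComp χ v) := fun v => isLocChar_locComp h v
  set δ := shiftIdele χ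
  set b₁ : FiniteAdeleRing (𝓞 K) K := (((δ⁻¹ : Idele K)) : 𝐀).2
  set T := (finite_valued_ne_one δ).toFinset
  have hvδ : ∀ v, Valued.v ((finComp v δ : (v.adicCompletion K)ˣ) : v.adicCompletion K) =
      exp (-(condDiff (locComp χ v) : ℤ)) := fun v => by
    rw [finComp_val, valued_shiftIdele h]
    rfl
  have hb₁ : ∀ v, b₁ v = (((finComp v δ)⁻¹ : (v.adicCompletion K)ˣ) : v.adicCompletion K) :=
    fun v => by rw [← map_inv, finComp_val]
  have hout : ∀ v ∉ T, condDiff (locComp χ v) = 0 := fun v hv => by
    have h1 : Valued.v ((finComp v δ : (v.adicCompletion K)ˣ) : v.adicCompletion K) = 1 := by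
      by_contra hne
      exact hv ((finite_valued_ne_one δ).mem_toFinset.2 hne)
    rw [hvδ, ← exp_zero, exp_injective.eq_iff] at h1
    omega
  have hram : (finite_ramSet h).toFinset ⊆ T := fun v hv => by
    by_contra hT
    have h1 := hout v hT
    have h2 := condExp_pos h ((finite_ramSet h).mem_toFinset.1 hv)
    rw [condDiff, locCond_locComp] at h1
    omega
  set g : ∀ v : HeightOneSpectrum (𝓞 K), v.adicCompletion K → ℂ :=
    fun v t => refFn (locComp χ v) t * kerV v (b₁ v * t)
  have hg : ∀ v, IsBruhat (g v) := fun v => by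
    refine ⟨?_, (isBruhat_refFn (hη v)).2.mul_right⟩
    have hk : IsLocallyConstant fun t : v.adicCompletion K => kerV v (b₁ v * t) := by
      refine (IsLocallyConstant.iff_eventually_eq _).2 fun t => ?_
      have ho : {t' : v.adicCompletion K | b₁ v * (t' - t) ∈ ball v (diffExp v : ℤ)} ∈ 𝓝 t :=
        ((isOpen_ball' _).preimage (continuous_const.mul (continuous_id.sub continuous_const))).mem_nhds
          (show b₁ v * (t - t) ∈ ball v (diffExp v : ℤ) by rw [sub_self, mul_zero]; exact zero_mem _)
      filter_upwards [ho] with t' ht'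
      rw [show b₁ v * t' = b₁ v * t + b₁ v * (t' - t) by ring, kerV_add, kerV_eq_one ht', mul_one]
    exact (isBruhat_refFn (hη v)).1.mul hk
  -- the part at infinity and outside `T`
  set H : mixedEmbedding.mixedSpace K → ℂ := fun x => infTest m x * mixedKer 1 x
  have hHc : Continuous H := by
    have h1 : Continuous (infTest m) := infSchwartz_coe m ▸ (infSchwartz m).continuous
    refine h1.mul ?_
    unfold mixedKer traceMixed
    fun_prop
  set R : 𝐀 → ℂ := fun y =>
    H (InfiniteAdeleRing.ringEquiv_mixedSpace K y.1) * (restSet T).indicator 1 y.2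
  have hrest : IsOpen (restSet T) ∧ IsClosed (restSet T) := by
    let S : AddSubgroup (FiniteAdeleRing (𝓞 K) K) :=
      { carrier := restSet T
        zero_mem' := fun w _ => (map_zero Valued.v).trans_le zero_le
        add_mem' := fun {a b} ha hb w hw => Valuation.map_add_le _ (ha w hw) (hb w hw)
        neg_mem' := fun {a} ha w hw => (Valuation.map_neg _ _).trans_le (ha w hw) }
    have hS : IsOpen (S : Set (FiniteAdeleRing (𝓞 K) K)) :=
      AddSubgroup.isOpen_mono (H₁ := finInt K) (fun x hx w _ => mem_finInt.1 hx w) (isOpen_finInt K)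
    exact ⟨hS, S.isClosed_of_isOpen hS⟩
  have hcinf : Continuous fun y : 𝐀 => InfiniteAdeleRing.ringEquiv_mixedSpace K y.1 := by
    simp only [← mixedCoord_coordE]
    exact mixedCoord.continuous.comp (continuous_coordE.comp continuous_fst)
  have hind : Continuous fun y : 𝐀 =>
      (restSet T).indicator (1 : FiniteAdeleRing (𝓞 K) K → ℂ) y.2 :=
    (LocallyConstant.charFn ℂ (show IsClopen (restSet T) from ⟨hrest.2, hrest.1⟩)).continuous.comp
      continuous_snd
  have hRm : Measurable R := (hHc.comp hcinf).measurable.mul hind.measurable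
  have hRinv : ∀ v ∈ T, ∀ y z, R (y + inFin K (singleFin v z)) = R y := fun v hv y z => by
    simp only [R]
    rw [show (y + inFin K (singleFin v z)).1 = y.1 from add_zero y.1]
    congr 1
    have hiff : (y + inFin K (singleFin v z)).2 ∈ restSet T ↔ y.2 ∈ restSet T :=
      forall₂_congr fun w hw => by
        rw [show (y + inFin K (singleFin v z)).2 w = y.2 w + singleFin v z w from rfl,
          singleFin_of_ne (fun e : w = v => hw (e ▸ hv)), add_zero]
    simp only [Set.indicator, hiff, Pi.one_apply]
  have hRint : ∀ N : ℕ, Integrable (fun y : 𝐀 => (∏ v ∈ T, ballInd v N (y.2 v)) * R y) μ :=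
    fun N => by
    set S : Set (FiniteAdeleRing (𝓞 K) K) :=
      {u | (∀ v ∈ T, Valued.v (u v) ≤ exp (N : ℤ)) ∧ u ∈ restSet T}
    set d : Idele K := ∏ v ∈ T, single v (pi₀ v ^ (N : ℤ))
    have hd : ∀ w, Valued.v ((d : 𝐀).2 w) = if w ∈ T then exp (-(N : ℤ)) else 1 := fun w => by
      rw [← finComp_val, map_prod]
      split_ifs with hw
      · rw [Finset.prod_eq_single w (fun v _ hv => finComp_single_of_ne hv.symm _)
          (fun h' => absurd hw h'), finComp_single_self, valued_pi₀_zpow]
      · rw [Finset.prod_eq_one fun v hv => finComp_single_of_ne (fun e : w = v => hw (e ▸ hv)) _,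
          Units.val_one, map_one]
    have hS : S = (fun u => (d : 𝐀).2 * u) ⁻¹' (finInt K : Set (FiniteAdeleRing (𝓞 K) K)) := by
      ext u
      rw [Set.mem_preimage, SetLike.mem_coe, mem_finInt]
      have key : ∀ w, Valued.v (((d : 𝐀).2 * u) w) ≤ 1 ↔
          if w ∈ T then Valued.v (u w) ≤ exp (N : ℤ) else Valued.v (u w) ≤ 1 := fun w => by
        rw [show ((d : 𝐀).2 * u) w = (d : 𝐀).2 w * u w from rfl, map_mul, hd]
        split_ifs with hw
        · constructor <;> intro h'
          · calc Valued.v (u w) = exp (N : ℤ) * (exp (-(N : ℤ)) * Valued.v (u w)) := by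
                  rw [← mul_assoc, ← exp_add, add_neg_cancel, exp_zero, one_mul]
              _ ≤ exp (N : ℤ) := mul_le_of_le_one_right' h'
          · refine (mul_le_mul' le_rfl h').trans ?_
            rw [← exp_add, neg_add_cancel, exp_zero]
        · rw [one_mul]
      simp only [key]
      constructor
      · intro hu w
        split_ifs with hw
        exacts [hu.1 w hw, hu.2 w hw]
      · exact fun hu => ⟨fun w hw => by simpa [hw] using hu w, fun w hw => by simpa [hw] using hu w⟩
    have hScl : IsClopen S := by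
      rw [hS]
      exact IsClopen.preimage ⟨(finInt K).isClosed_of_isOpen (isOpen_finInt K), isOpen_finInt K⟩
        (continuous_const.mul continuous_id)
    have hScs : IsCompact S := by
      rw [show S = (fun u => ((d⁻¹ : Idele K) : 𝐀).2 * u) '' (finInt K : Set (FiniteAdeleRing (𝓞 K) K)) by
        have e : (d : 𝐀).2 * ((d⁻¹ : Idele K) : 𝐀).2 = 1 :=
          congrArg (fun x : 𝐀 => x.2) d.mul_inv
        rw [hS]
        ext u
        constructor
        · exact fun hu => ⟨_, hu, by
            beta_reduce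
            rw [← mul_assoc, mul_comm _ (d : 𝐀).2, e, one_mul]⟩
        · rintro ⟨a, ha, rfl⟩
          show (d : 𝐀).2 * (_ * a) ∈ finInt K
          rwa [← mul_assoc, e, one_mul]]
      exact (isCompact_finInt K).image (continuous_const.mul continuous_id)
    have hmem := prodFun_mem (infSchwartz m)
      (φ := S.indicator (1 : FiniteAdeleRing (𝓞 K) K → ℂ))
      (LocallyConstant.charFn ℂ hScl).isLocallyConstant
      (HasCompactSupport.intro hScs fun u hu => Set.indicator_of_notMem hu _)
    obtain ⟨hpc, hpn, -⟩ := schwartzBruhat_props (μ := μ) hμ hmem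
    refine (integrable_of_normallySummable hμ hpc hpn).norm.mono'
      ((Finset.measurable_prod _ fun v _ => ((isBruhat_ballInd v _).1.continuous.measurable).comp
        (measurable_eval_fin v)).mul hRm).aestronglyMeasurable (Eventually.of_forall fun y => ?_)
    simp only [R, H, prodFun, infSchwartz_coe, norm_mul, norm_prod]
    rw [show ‖mixedKer 1 (InfiniteAdeleRing.ringEquiv_mixedSpace K y.1)‖ = 1 from
      Complex.norm_exp_ofReal_mul_I _, mul_one, mul_left_comm]
    refine mul_le_mul_of_nonneg_left ?_ (norm_nonneg _)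
    by_cases hy : y.2 ∈ S
    · rw [Set.indicator_of_mem hy, Set.indicator_of_mem hy.2, Finset.prod_eq_one fun v hv => by
        rw [ballInd, Set.indicator_of_mem (show y.2 v ∈ (ball v N : Set _) from hy.1 v hv),
          Pi.one_apply, norm_one], one_mul]
    · rw [Set.indicator_of_notMem hy, norm_zero]
      by_cases hr : y.2 ∈ restSet T
      · obtain ⟨v, hv, hne⟩ : ∃ v ∈ T, ¬Valued.v (y.2 v) ≤ exp (N : ℤ) := by
          by_contra hall
          push Not at hall
          exact hy ⟨hall, hr⟩
        rw [Finset.prod_eq_zero hv (by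
          rw [ballInd, Set.indicator_of_notMem (show y.2 v ∉ (ball v N : Set _) from hne),
            norm_zero]), zero_mul]
      · rw [Set.indicator_of_notMem hr, norm_zero, mul_zero]
  have hsplit := integral_split μs hg T hRm hRinv hRint (μ := μ)
  -- the integrand
  let a : 𝐀 := ((1, b₁) : InfiniteAdeleRing K × FiniteAdeleRing (𝓞 K) K)
  have hJ : ∀ y : 𝐀, testFun χ m y * conj ((stdChar K (a * y) : Circle) : ℂ) =
      (∏ v ∈ T, g v (y.2 v)) * R y := fun y => by
    by_cases hy : y.2 ∈ finInt K
    swap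
    · rw [show testFun χ m y = 0 by rw [testFun, prodFun, finTest_of_notMem χ hy, mul_zero],
        zero_mul]
      by_cases hr : y.2 ∈ restSet T
      · obtain ⟨v, hv, hne⟩ : ∃ v ∈ T, ¬Valued.v (y.2 v) ≤ 1 := by
          by_contra hall
          push Not at hall
          exact hy (mem_finInt.2 fun v => if hv : v ∈ T then hall v hv else hr v hv)
        rw [Finset.prod_eq_zero hv, zero_mul]
        have hnm : y.2 v ∉ (ball v 0 : Set (v.adicCompletion K)) := fun h' => hne (by
          have h'' : Valued.v (y.2 v) ≤ exp (0 : ℤ) := h'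
          rwa [exp_zero] at h'')
        show refFn (locComp χ v) (y.2 v) * _ = 0
        unfold refFn
        split_ifs
        · rw [Set.indicator_of_notMem hnm, zero_mul]
        · rw [Set.indicator_of_notMem (fun h' => hnm (unitShell_subset h')), zero_mul]
      · simp only [R, Set.indicator_of_notMem hr, mul_zero]
    have hyi := mem_finInt.1 hy
    set rest : FiniteAdeleRing (𝓞 K) K := y.2 - ∑ v ∈ T, singleFin v (y.2 v)
    have hsum : ∀ w, (∑ v ∈ T, singleFin v (y.2 v)) w = if w ∈ T then y.2 w else 0 := fun w => by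
      let p : FiniteAdeleRing (𝓞 K) K →+ w.adicCompletion K :=
        AddMonoidHom.mk' (fun u => u w) fun _ _ => rfl
      rw [show (∑ v ∈ T, singleFin v (y.2 v)) w = ∑ v ∈ T, singleFin v (y.2 v) w from
        map_sum p _ _]
      split_ifs with hw
      · rw [Finset.sum_eq_single w (fun v _ hv => singleFin_of_ne hv.symm _)
          (fun h' => absurd hw h'), singleFin_self]
      · exact Finset.sum_eq_zero fun v hv => singleFin_of_ne (fun e : w = v => hw (e ▸ hv)) _
    have hr1 : b₁ * rest ∈ finInt K := mem_finInt.2 fun w => by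
      show Valued.v (b₁ w * (y.2 w - (∑ v ∈ T, singleFin v (y.2 v)) w)) ≤ 1
      rw [hsum]
      split_ifs with hw
      · rw [sub_self, mul_zero, map_zero]
        exact zero_le
      · rw [sub_zero, map_mul, hb₁, Units.val_inv_eq_inv_val, map_inv₀, hvδ, hout w hw,
          Nat.cast_zero, neg_zero, exp_zero, inv_one, one_mul]
        exact hyi w
    have hfin : conj ((stdChar K (inFin K (b₁ * y.2)) : Circle) : ℂ) =
        ∏ v ∈ T, kerV v (b₁ v * y.2 v) := by
      rw [show b₁ * y.2 = (∑ v ∈ T, singleFin v (b₁ v * y.2 v)) + b₁ * rest by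
        simp only [rest, mul_sub, Finset.mul_sum]
        rw [Finset.sum_congr rfl fun v _ => show singleFin v (b₁ v * y.2 v) =
          b₁ * singleFin v (y.2 v) by
          rw [mul_comm b₁, singleFin_mul, mul_comm], add_sub_cancel],
        map_add, AddChar.map_add_eq_mul, stdChar_inFin_of_mem hr1, mul_one, _root_.map_sum,
        addChar_sum]
      simp only [kerV, finChar_apply]
      let c : Circle →* ℂ := (starRingEnd ℂ).toMonoidHom.comp Circle.coeHom
      exact map_prod c _ _
    have hinf : conj ((stdChar K (inInf K y.1) : Circle) : ℂ) =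
        mixedKer 1 (InfiniteAdeleRing.ringEquiv_mixedSpace K y.1) := by
      have h1 := traceInf_eq_traceMixed (1 : InfiniteAdeleRing K) y.1
      rw [one_mul, map_one] at h1
      rw [stdChar_inInf, mixedKer, ← h1, expNeg_apply, AddCircle.toCircle_apply_mk, Circle.coe_exp,
        ← Complex.exp_conj, map_mul, Complex.conj_ofReal, Complex.conj_I]
      congr 1
      push_cast
      ring
    have hstd : conj ((stdChar K (a * y) : Circle) : ℂ) =
        mixedKer 1 (InfiniteAdeleRing.ringEquiv_mixedSpace K y.1) *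
          ∏ v ∈ T, kerV v (b₁ v * y.2 v) := by
      rw [show a * y = inInf K y.1 + inFin K (b₁ * y.2) from
        Prod.ext ((one_mul y.1).trans (add_zero y.1).symm) (zero_add _).symm,
        AddChar.map_add_eq_mul, Circle.coe_mul, map_mul, hinf, hfin]
    have hfinT : finTest χ y.2 = ∏ v ∈ T, refFn (locComp χ v) (y.2 v) := by
      rw [finTest_of_mem h hy, ← Finset.prod_subset hram fun v _ hv => by
        have hc : locCond (locComp χ v) = 0 := (condExp_eq_zero_iff h).2 fun e =>
          hv ((finite_ramSet h).mem_toFinset.2 e)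
        rw [refFn, if_pos hc, Set.indicator_of_mem (show y.2 v ∈ (ball v 0 : Set _) by
          show Valued.v (y.2 v) ≤ exp (0 : ℤ)
          rw [exp_zero]; exact hyi v), Pi.one_apply]]
      refine Finset.prod_congr rfl fun v hv => ?_
      have hc : ¬locCond (locComp χ v) = 0 :=
        (condExp_pos h ((finite_ramSet h).mem_toFinset.1 hv)).ne'
      rw [refFn, if_neg hc]
      by_cases h1 : Valued.v (y.2 v) = 1
      · have h0 : y.2 v ≠ 0 := fun e => by simp [e] at h1
        rw [Set.indicator_of_mem (show y.2 v ∈ unitShell v from h1),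
          show y.2 v = (Units.mk0 (y.2 v) h0 : v.adicCompletion K) from rfl, extChar_units,
          locVal_unit χ (z := Units.mk0 (y.2 v) h0) h1]
        rfl
      · rw [locVal_of_ne χ h1, map_zero, Set.indicator_of_notMem (show y.2 v ∉ unitShell v from h1)]
    simp only [testFun, prodFun, R, H, g, hstd, hfinT, Finset.prod_mul_distrib]
    rw [Set.indicator_of_mem (show y.2 ∈ restSet T from fun w _ => hyi w), Pi.one_apply]
    ring
  -- the value of the constant
  have hbase : ∀ y : 𝐀, (∏ v ∈ T, ballInd v 0 (y.2 v)) * R y =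
      H (InfiniteAdeleRing.ringEquiv_mixedSpace K y.1) *
        (finInt K : Set (FiniteAdeleRing (𝓞 K) K)).indicator 1 y.2 := fun y => by
    simp only [R]
    by_cases hy : y.2 ∈ finInt K
    · have hyi := mem_finInt.1 hy
      rw [Set.indicator_of_mem (show y.2 ∈ (finInt K : Set _) from hy),
        Set.indicator_of_mem (show y.2 ∈ restSet T from fun w _ => hyi w),
        Finset.prod_eq_one fun v _ => by
          rw [ballInd, Set.indicator_of_mem (show y.2 v ∈ (ball v 0 : Set _) by
            show Valued.v (y.2 v) ≤ exp (0 : ℤ)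
            rw [exp_zero]; exact hyi v), Pi.one_apply], one_mul]
    · rw [Set.indicator_of_notMem (show y.2 ∉ (finInt K : Set _) from hy), mul_zero]
      by_cases hr : y.2 ∈ restSet T
      · obtain ⟨v, hv, hne⟩ : ∃ v ∈ T, ¬Valued.v (y.2 v) ≤ 1 := by
          by_contra hall
          push Not at hall
          exact hy (mem_finInt.2 fun v => if hv : v ∈ T then hall v hv else hr v hv)
        rw [Finset.prod_eq_zero hv, zero_mul]
        exact Set.indicator_of_notMem (fun h' => hne (by
          have h'' : Valued.v (y.2 v) ≤ exp (0 : ℤ) := h'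
          rwa [exp_zero] at h'')) _
      · rw [Set.indicator_of_notMem hr, mul_zero, mul_zero]
  obtain ⟨ρ, hρ⟩ := exists_integral_inf hμ H hHc
  rw [integral_congr_ae (Eventually.of_forall hbase), hρ, integral_infTest_mul_ker hm,
    ← integral_congr_ae (Eventually.of_forall hJ)] at hsplit
  have hL : ∫ y, testFun χ m y * conj ((stdChar K (a * y) : Circle) : ℂ) ∂μ =
      κ * infTest (-m) 1 := by
    refine (hκ a).trans ?_
    have e : (δ : 𝐀) * a = 1 := Prod.ext
      ((mul_one (δ : 𝐀).1).trans (fst_idealIdele _))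
      (show (δ : 𝐀).2 * b₁ = 1 from congrArg (fun x : 𝐀 => x.2) δ.mul_inv)
    rw [e, testFun, prodFun, show (1 : 𝐀).1 = 1 from rfl, show (1 : 𝐀).2 = 1 from rfl, map_one,
      finTest_one h.inv, mul_one]
  rw [hL] at hsplit
  have hχδ : ((χ δ : ℂˣ) : ℂ) = ∏ v ∈ T, ((locComp χ v (finComp v δ) : ℂˣ) : ℂ) := by
    set p : Idele K := ∏ v ∈ T, single v (finComp v δ)
    have hp : ∀ w, finComp w p = if w ∈ T then finComp w δ else 1 := fun w => by
      rw [map_prod]
      split_ifs with hw
      · rw [Finset.prod_eq_single w (fun v _ hv => finComp_single_of_ne hv.symm _)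
          (fun h' => absurd hw h'), finComp_single_self]
      · exact Finset.prod_eq_one fun v hv => finComp_single_of_ne (fun e : w = v => hw (e ▸ hv)) _
    have hpi : ∀ w, infComp w p = 1 := fun w => by
      rw [map_prod]; exact Finset.prod_eq_one fun v _ => infComp_single _ _ _
    have hδi : ∀ w, infComp w δ = 1 := fun w =>
      Units.ext (congrFun (fst_idealIdele (condI χ * diffI K)) w)
    have hu : ∀ w, Valued.v ((finComp w (δ / p) : (w.adicCompletion K)ˣ) : w.adicCompletion K) = 1 :=
      fun w => by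
      rw [map_div, hp]
      split_ifs with hw
      · rw [div_self', Units.val_one, map_one]
      · rw [div_one, hvδ, hout w hw, Nat.cast_zero, neg_zero, exp_zero]
    have hinf : infPart (δ / p) = 1 := idele_ext (fun v => by rw [finComp_infPart, map_one])
      fun w => by rw [infComp_infPart, map_div, hδi, hpi, div_one, map_one]
    have h1 : χ (δ / p) = 1 := Units.ext (by
      rw [map_of_units h hu, hinf, map_one, Units.val_one, one_mul]
      refine Finset.prod_eq_one fun v hv => ?_
      rw [← finComp_val, map_div, hp, if_pos (hram hv), div_self',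
        locVal_unit χ (z := 1) (by rw [Units.val_one, map_one]), map_one, map_one, Units.val_one])
    rw [map_div, div_eq_one] at h1
    rw [h1, map_prod, Units.coe_prod]
    rfl
  have hG : ∀ v ∈ T, (∫ t, g v t ∂μs v) * ((locComp χ v (finComp v δ) : ℂˣ) : ℂ) *
      ((√(qv v ^ condDiff (locComp χ v)) : ℝ) : ℂ) = rootLoc (μs v) (locComp χ v) := fun v _ => by
    rw [rootLoc, ← fourier_refFn_mul_char (μs v) (hη v) (hvδ v), ← hb₁]
    rfl
  set r2 := Fintype.card {w : InfinitePlace K // IsComplex w}
  have hconst : infConst m = ((1 / 2 : ℝ) : ℂ) ^ r2 * ∏ w, Complex.I ^ (m w).natAbs := by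
    rw [infConst, ← Fintype.prod_subtype_mul_prod_subtype (fun w : InfinitePlace K => IsReal w)
      (fun w => Complex.I ^ (m w).natAbs), Finset.prod_mul_distrib, Finset.prod_const,
      Finset.card_univ]
    rw [show ∏ w : {w : InfinitePlace K // ¬IsReal w}, Complex.I ^ (m w.1).natAbs =
      ∏ w : {w : InfinitePlace K // IsComplex w}, Complex.I ^ (m w.1).natAbs from
      Fintype.prod_equiv (Equiv.subtypeEquivRight fun _ => not_isReal_iff_isComplex) _ _ fun w => rfl]
    push_cast
    ring
  set P : ℝ := ∏ v ∈ T, (μs v).real (ball v 0 : Set (v.adicCompletion K))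
  set Q : ℝ := ∏ v ∈ T, √(qv v ^ condDiff (locComp χ v))
  have hP : 0 < P := Finset.prod_pos fun v _ =>
    ENNReal.toReal_pos (measure_ball_pos (μs v) 0).ne' (measure_ball_lt_top (μs v) 0).ne
  have hQ : 0 < Q := Finset.prod_pos fun v _ => Real.sqrt_pos.2 (pow_pos (qv_pos v) _)
  set t : ℝ := (ρ : ℝ) * (1 / 2) ^ r2 * √(ideleAbs K δ)⁻¹ / (P * Q) with ht
  have ht0 : 0 ≤ t := by positivity
  set W₀ : ℂ := (∏ w, Complex.I ^ (m w).natAbs) * ∏ v ∈ T, rootLoc (μs v) (locComp χ v)
  have hW₀ : ‖W₀‖ = 1 := by
    rw [norm_mul, norm_prod, norm_prod,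
      Finset.prod_eq_one (fun w _ => by rw [norm_pow, Complex.norm_I, one_pow]),
      Finset.prod_eq_one (fun v _ => norm_rootLoc (μs v) (hη v) (hμs v)), one_mul]
  have hW : κ * ((χ δ : ℂˣ) : ℂ) * ((√(ideleAbs K δ)⁻¹ : ℝ) : ℂ) = (t : ℂ) * W₀ := by
    have e1 : ∏ v ∈ T, rootLoc (μs v) (locComp χ v) =
        (∏ v ∈ T, ∫ t, g v t ∂μs v) * ((χ δ : ℂˣ) : ℂ) * (Q : ℂ) := by
      rw [hχδ, Complex.ofReal_prod, ← Finset.prod_mul_distrib, ← Finset.prod_mul_distrib]
      exact Finset.prod_congr rfl fun v hv => (hG v hv).symm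
    have e2 : (P : ℂ) * κ = (∏ v ∈ T, ∫ t, g v t ∂μs v) * ((ρ : ℂ) * infConst m) := by
      refine mul_right_cancel₀ (infTest_one_ne_zero (-m)) ?_
      rw [show (P : ℂ) = ∏ v ∈ T, (((μs v).real (ball v 0 : Set (v.adicCompletion K)) : ℝ) : ℂ) from
        Complex.ofReal_prod _ _]
      linear_combination hsplit
    have hP' : (P : ℂ) ≠ 0 := Complex.ofReal_ne_zero.2 hP.ne'
    have hQ' : (Q : ℂ) ≠ 0 := Complex.ofReal_ne_zero.2 hQ.ne'
    rw [ht]
    generalize √(ideleAbs K δ)⁻¹ = sA
    push_cast
    simp only [W₀]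
    rw [e1]
    field_simp
    rw [hconst] at e2
    push_cast at e2
    linear_combination (sA : ℂ) * e2
  have hone : ‖κ * ((χ δ : ℂˣ) : ℂ) * ((√(ideleAbs K δ)⁻¹ : ℝ) : ℂ)‖ = 1 := by
    rw [norm_mul, norm_mul, h.norm_eq, mul_one, Complex.norm_real,
      Real.norm_of_nonneg (Real.sqrt_nonneg _)]
    have h1 := norm_sq_of_fourier_testFun hμ h hκ
    refine (pow_eq_one_iff_of_nonneg (mul_nonneg (norm_nonneg _) (Real.sqrt_nonneg _)) two_ne_zero).1 ?_
    rw [mul_pow, Real.sq_sqrt (inv_nonneg.2 (ideleAbs_pos δ).le)]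
    exact h1
  have ht1 : t = 1 := by
    rw [hW, norm_mul, hW₀, mul_one, Complex.norm_real, Real.norm_of_nonneg ht0] at hone
    exact hone
  rw [hW, ht1, Complex.ofReal_one, one_mul]
  simp only [W₀]
  refine congrArg _ (finprod_eq_prod_of_mulSupport_subset _ fun v hv => ?_).symm
  by_contra hT
  have h0 := hout v hT
  rw [condDiff] at h0
  exact hv (rootLoc_eq_one (μs v) (hη v) (by omega) (by omega) (hμs v))

end FA.TateLocal

end
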