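import Fermat.Agent.TateLocal.FiniteDual
import Fermat.Agent.IdeleClass.LSeries

/-!
# The conductor of an idele class character and the test function at the finite places

The exponent at a prime is the least level of units on which the character is trivial.  The test
function is the inverse of the character on the integral adeles that are units at the ramified
primes, and zero elsewhere.
-/

set_option autoImplicit false
set_option linter.unusedSectionVars false
set_option linter.style.haveILetI false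

noncomputable section

open NumberField IsDedekindDomain
open WithZero Filter Topology
open FA.AdeleDual FA.Ideles FA.IdeleClass FA.TateThesis
open FA.ArtinRec (ordI ordI_prod ordI_pow ordI_prime)
open scoped nonZeroDivisors Classical ComplexConjugate

set_option maxHeartbeats 400000

namespace FA.TateLocal

universe u

variable {K : Type u} [Field K] [NumberField K]

local notation "𝐀" => AdeleRing (𝓞 K) K

/-- Trivial on the units congruent to `1` to the power `n`. -/
def LevelTriv (χ : Idele K →* ℂˣ) (v : HeightOneSpectrum (𝓞 K)) (n : ℕ) : Prop :=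
  ∀ z : (v.adicCompletion K)ˣ, Valued.v (z : v.adicCompletion K) = 1 →
    Valued.v ((z : v.adicCompletion K) - 1) ≤ exp (-(n : ℤ)) → χ (single v z) = 1

/-- **The exponent of the conductor.** -/
def condExp (χ : Idele K →* ℂˣ) (v : HeightOneSpectrum (𝓞 K)) : ℕ := sInf {n | LevelTriv χ v n}

/-- **The conductor.** -/
def condIdeal (χ : Idele K →* ℂˣ) : Ideal (𝓞 K) :=
  ∏ᶠ v : HeightOneSpectrum (𝓞 K), v.asIdeal ^ condExp χ v

theorem levelTriv_mono {χ : Idele K →* ℂˣ} {v : HeightOneSpectrum (𝓞 K)} {j n : ℕ} (hjn : j ≤ n)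
    (h : LevelTriv χ v j) : LevelTriv χ v n := fun z hz hn =>
  h z hz (hn.trans (exp_le_exp.2 (by omega)))

theorem levelTriv_zero_iff {χ : Idele K →* ℂˣ} {v : HeightOneSpectrum (𝓞 K)} :
    LevelTriv χ v 0 ↔ v ∉ ramSet χ := by
  constructor
  · rintro h ⟨z, hz, hne⟩
    exact hne (h z hz (by
      rw [Nat.cast_zero, neg_zero, exp_zero]
      exact Valuation.map_sub_le _ hz.le (map_one Valued.v).le))
  · exact fun hv z hz _ => by_contra fun hne => hv ⟨z, hz, hne⟩

theorem exists_levelTriv {χ : Idele K →* ℂˣ} (h : IsIdeleChar χ) (v : HeightOneSpectrum (𝓞 K)) :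
    ∃ n, LevelTriv χ v n := by
  by_cases hv : v ∈ ramSet χ
  · obtain ⟨k, hk⟩ := exists_level_ramSet h
    refine ⟨k + 1, fun z _ hz1 => hk _ ⟨fun u hu => ?_, fun u _ => ?_, fun w hr => ?_⟩
      fun w => infComp_single w v z⟩
    · rw [finComp_single_of_ne fun e : u = v => hu (e ▸ hv), Units.val_one, map_one]
    · rcases eq_or_ne u v with rfl | huv
      · rw [finComp_single_self]
        exact (mem_nearLocal _).2 hz1
      · rw [finComp_single_of_ne huv]
        exact one_mem _
    · rw [infComp_single, Units.val_one, map_one]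
      exact one_pos
  · exact ⟨0, levelTriv_zero_iff.2 hv⟩

theorem levelTriv_condExp {χ : Idele K →* ℂˣ} (h : IsIdeleChar χ) (v : HeightOneSpectrum (𝓞 K)) :
    LevelTriv χ v (condExp χ v) := Nat.sInf_mem (exists_levelTriv h v)

theorem condExp_le_iff {χ : Idele K →* ℂˣ} (h : IsIdeleChar χ) {v : HeightOneSpectrum (𝓞 K)}
    {n : ℕ} : condExp χ v ≤ n ↔ LevelTriv χ v n :=
  ⟨fun hn => levelTriv_mono hn (levelTriv_condExp h v), fun hn => Nat.sInf_le hn⟩

theorem condExp_eq_zero_iff {χ : Idele K →* ℂˣ} (h : IsIdeleChar χ)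
    {v : HeightOneSpectrum (𝓞 K)} : condExp χ v = 0 ↔ v ∉ ramSet χ := by
  rw [← levelTriv_zero_iff, ← condExp_le_iff h, Nat.le_zero]

theorem condExp_pos {χ : Idele K →* ℂˣ} (h : IsIdeleChar χ) {v : HeightOneSpectrum (𝓞 K)}
    (hv : v ∈ ramSet χ) : 0 < condExp χ v :=
  Nat.pos_of_ne_zero fun h0 => (condExp_eq_zero_iff h).1 h0 hv

theorem ramSet_inv (χ : Idele K →* ℂˣ) : ramSet χ⁻¹ = ramSet χ := by
  ext v
  simp only [ramSet, Set.mem_ofPred_eq, MonoidHom.inv_apply, ne_eq, inv_eq_one]

theorem condExp_inv (χ : Idele K →* ℂˣ) : condExp χ⁻¹ = condExp χ := by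
  funext v
  simp only [condExp, LevelTriv, MonoidHom.inv_apply, inv_eq_one]

theorem condIdeal_inv (χ : Idele K →* ℂˣ) : condIdeal χ⁻¹ = condIdeal χ := by
  rw [condIdeal, condIdeal, condExp_inv]

theorem condIdeal_ne_bot (χ : Idele K →* ℂˣ) : condIdeal χ ≠ ⊥ :=
  finprod_induction (fun I : Ideal (𝓞 K) => I ≠ ⊥) (by rw [Ideal.one_eq_top]; exact top_ne_bot)
    (fun _ _ h h' => mul_ne_zero h h') fun v => pow_ne_zero _ v.ne_bot

/-- **The exponents of the conductor.** -/
theorem ordI_condIdeal {χ : Idele K →* ℂˣ} (h : IsIdeleChar χ) (v : HeightOneSpectrum (𝓞 K)) :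
    ordI v (condIdeal χ) = condExp χ v := by
  have hsub : (Function.mulSupport fun u : HeightOneSpectrum (𝓞 K) => u.asIdeal ^ condExp χ u) ⊆
      ((finite_ramSet h).toFinset : Set (HeightOneSpectrum (𝓞 K))) := fun u hu => by
    rw [Set.Finite.coe_toFinset]
    by_contra hu'
    exact hu (by
      show u.asIdeal ^ condExp χ u = 1
      rw [(condExp_eq_zero_iff h).2 hu', pow_zero])
  rw [condIdeal, finprod_eq_prod_of_mulSupport_subset _ hsub,
    ordI_prod v _ _ fun u _ => pow_ne_zero _ u.ne_bot,
    Finset.sum_congr rfl fun u _ => show ordI v (u.asIdeal ^ condExp χ u) =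
      if v = u then condExp χ u else 0 by
      rw [ordI_pow v u.ne_bot, ordI_prime, mul_ite, mul_one, mul_zero],
    Finset.sum_ite_eq]
  split_ifs with hv
  · rfl
  · rw [Set.Finite.mem_toFinset] at hv
    exact ((condExp_eq_zero_iff h).2 hv).symm

/-- The conductor as a nonzero ideal. -/
def condI (χ : Idele K →* ℂˣ) : (Ideal (𝓞 K))⁰ :=
  ⟨condIdeal χ, mem_nonZeroDivisors_iff_ne_zero.2 (condIdeal_ne_bot χ)⟩

/-- The idele of the conductor times the different. -/
def shiftIdele (χ : Idele K →* ℂˣ) : Idele K := idealIdele (condI χ * diffI K)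

theorem valued_shiftIdele {χ : Idele K →* ℂˣ} (h : IsIdeleChar χ) (v : HeightOneSpectrum (𝓞 K)) :
    Valued.v ((shiftIdele χ : 𝐀).2 v) =
      exp (-((condExp χ v + ordI v (diffI K).1 : ℕ) : ℤ)) := by
  rw [shiftIdele, valued_idealIdele, Submonoid.coe_mul,
    FA.ArtinRec.ordI_mul v (show (condI χ).1 ≠ ⊥ from condIdeal_ne_bot χ)
      (show (diffI K).1 ≠ ⊥ from differentIdeal_ne_bot),
    show ordI v (condI χ).1 = condExp χ v from ordI_condIdeal h v]

theorem ideleAbs_shiftIdele (χ : Idele K →* ℂˣ) :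
    ideleAbs K (shiftIdele χ) =
      (|((discr K : ℤ) : ℝ)| * ((Ideal.absNorm (condIdeal χ) : ℕ) : ℝ))⁻¹ := by
  rw [shiftIdele, ideleAbs_idealIdele, Submonoid.coe_mul, map_mul, Nat.cast_mul, mul_comm,
    show Ideal.absNorm (diffI K).1 = (discr K).natAbs from absNorm_differentIdeal (K := K) (𝒪 := 𝓞 K),
    Nat.cast_natAbs, Int.cast_abs]
  rfl

/-! ### The character on the unit ideles -/

/-- The value of the character at a unit of a completion, and zero at the other elements. -/
def locVal (χ : Idele K →* ℂˣ) (v : HeightOneSpectrum (𝓞 K)) (y : v.adicCompletion K) : ℂ :=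
  if h : Valued.v y = 1 then
    ((χ (single v (Units.mk0 y fun h0 => by simp [h0] at h)) : ℂˣ) : ℂ) else 0

theorem locVal_unit (χ : Idele K →* ℂˣ) {v : HeightOneSpectrum (𝓞 K)} {z : (v.adicCompletion K)ˣ}
    (hz : Valued.v (z : v.adicCompletion K) = 1) :
    locVal χ v z = ((χ (single v z) : ℂˣ) : ℂ) := by
  rw [locVal, dif_pos hz]
  exact congrArg (fun x => ((χ (single v x) : ℂˣ) : ℂ)) (Units.ext rfl)

theorem locVal_of_ne (χ : Idele K →* ℂˣ) {v : HeightOneSpectrum (𝓞 K)} {y : v.adicCompletion K}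
    (hy : Valued.v y ≠ 1) : locVal χ v y = 0 := dif_neg hy

theorem conj_locVal {χ : Idele K →* ℂˣ} (h : IsIdeleChar χ) (v : HeightOneSpectrum (𝓞 K))
    (y : v.adicCompletion K) : conj (locVal χ v y) = locVal χ⁻¹ v y := by
  unfold locVal
  split_ifs
  · rw [MonoidHom.inv_apply, Units.val_inv_eq_inv_val, ← Complex.inv_eq_conj (h.norm_eq _)]
  · exact map_zero _

theorem locVal_mul (χ : Idele K →* ℂˣ) {v : HeightOneSpectrum (𝓞 K)} {z : (v.adicCompletion K)ˣ}
    (hz : Valued.v (z : v.adicCompletion K) = 1) (y : v.adicCompletion K) :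
    locVal χ v (z * y) = ((χ (single v z) : ℂˣ) : ℂ) * locVal χ v y := by
  by_cases hy : Valued.v y = 1
  · set y' : (v.adicCompletion K)ˣ := Units.mk0 y fun h0 => by simp [h0] at hy
    rw [show (z : v.adicCompletion K) * y = ((z * y' : (v.adicCompletion K)ˣ) : v.adicCompletion K) from rfl,
      locVal_unit χ (show Valued.v ((z * y' : (v.adicCompletion K)ˣ) : v.adicCompletion K) = 1 by
        rw [Units.val_mul, map_mul, hz, one_mul]; exact hy),
      show y = (y' : v.adicCompletion K) from rfl, locVal_unit χ (z := y') hy, map_mul, map_mul,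
      Units.val_mul]
  · rw [locVal_of_ne χ hy, locVal_of_ne χ (by rwa [map_mul, hz, one_mul]), mul_zero]

theorem locVal_add {χ : Idele K →* ℂˣ} (h : IsIdeleChar χ) {v : HeightOneSpectrum (𝓞 K)}
    (hv : v ∈ ramSet χ) {y z : v.adicCompletion K}
    (hz : Valued.v z ≤ exp (-(condExp χ v : ℤ))) : locVal χ v (y + z) = locVal χ v y := by
  have hlt : Valued.v z < 1 := hz.trans_lt (by
    rw [← exp_zero, exp_lt_exp]
    have := condExp_pos h hv
    omega)
  have hiff : Valued.v (y + z) = 1 ↔ Valued.v y = 1 := by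
    constructor <;> intro h1
    · rw [← add_sub_cancel_right y z]
      rw [sub_eq_add_neg, Valuation.map_add_eq_of_lt_left _ (by rwa [Valuation.map_neg, h1])]
      exact h1
    · rw [Valuation.map_add_eq_of_lt_left _ (by rwa [h1]), h1]
  by_cases hy : Valued.v y = 1
  · set y' : (v.adicCompletion K)ˣ := Units.mk0 y fun h0 => by simp [h0] at hy
    have hne : 1 + y⁻¹ * z ≠ 0 := fun e => by
      have h1 : Valued.v (1 + y⁻¹ * z) = 1 := by
        rw [Valuation.map_add_eq_of_lt_left _ (by
          rw [map_one, map_mul, map_inv₀, hy, inv_one, one_mul]; exact hlt), map_one]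
      rw [e, map_zero] at h1
      exact zero_ne_one h1
    set q : (v.adicCompletion K)ˣ := Units.mk0 _ hne
    have hq1 : Valued.v (q : v.adicCompletion K) = 1 := by
      show Valued.v (1 + y⁻¹ * z) = 1
      rw [Valuation.map_add_eq_of_lt_left _ (by
        rw [map_one, map_mul, map_inv₀, hy, inv_one, one_mul]; exact hlt), map_one]
    have hq : χ (single v q) = 1 := levelTriv_condExp h v q hq1 (by
      show Valued.v (1 + y⁻¹ * z - 1) ≤ _
      rwa [add_sub_cancel_left, map_mul, map_inv₀, hy, inv_one, one_mul])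
    rw [show y + z = (q : v.adicCompletion K) * y by
      show y + z = (1 + y⁻¹ * z) * y
      have hy0 : y ≠ 0 := fun h0 => by simp [h0] at hy
      field_simp, locVal_mul χ hq1, hq, Units.val_one, one_mul]
  · rw [locVal_of_ne χ hy, locVal_of_ne χ (fun e => hy (hiff.1 e))]

/-- **The character on an idele with unit finite components.** -/
theorem map_of_units {χ : Idele K →* ℂˣ} (h : IsIdeleChar χ) {x : Idele K}
    (hx : ∀ v, Valued.v ((finComp v x : (v.adicCompletion K)ˣ) : v.adicCompletion K) = 1) :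
    ((χ x : ℂˣ) : ℂ) = ((χ (infPart x) : ℂˣ) : ℂ) *
      ∏ v ∈ (finite_ramSet h).toFinset, locVal χ v ((x : 𝐀).2 v) := by
  obtain ⟨k, hk⟩ := exists_level_ramSet h
  set T := (finite_ramSet h).toFinset
  set p : Idele K := ∏ v ∈ T, single v (finComp v x)
  have hpi : ∀ w, infComp w p = 1 := fun w => by
    rw [map_prod]
    exact Finset.prod_eq_one fun v _ => infComp_single _ _ _
  have hp : ∀ u, finComp u p = if u ∈ T then finComp u x else 1 := fun u => by
    rw [map_prod]
    split_ifs with hu
    · rw [Finset.prod_eq_single u (fun v _ hv => finComp_single_of_ne hv.symm _)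
        (fun h' => absurd hu h'), finComp_single_self]
    · exact Finset.prod_eq_one fun v hv =>
        finComp_single_of_ne (fun e : u = v => hu (e ▸ hv)) _
  have hq : χ (x / (infPart x * p)) = 1 := by
    refine hk _ ⟨fun u hu => ?_, fun u hu => ?_, fun w hr => ?_⟩ fun w => by
      rw [map_div, map_mul, infComp_infPart, hpi, mul_one, div_self']
    · rw [map_div, map_mul, finComp_infPart, hp,
        if_neg fun h' => hu ((finite_ramSet h).mem_toFinset.1 h'), one_mul, div_one]
      exact hx u
    · rw [map_div, map_mul, finComp_infPart, hp, if_pos ((finite_ramSet h).mem_toFinset.2 hu),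
        one_mul, div_self']
      exact one_mem _
    · rw [map_div, map_mul, infComp_infPart, hpi, mul_one, div_self', Units.val_one, map_one]
      exact one_pos
  conv_lhs => rw [← div_mul_cancel x (infPart x * p)]
  rw [map_mul, hq, one_mul, map_mul, Units.val_mul, map_prod, Units.coe_prod]
  refine congrArg _ (Finset.prod_congr rfl fun v _ => ?_)
  exact (locVal_unit χ (z := finComp v x) (hx v)).symm

/-! ### The test function -/

/-- **The test function at the finite places.** -/
def finTest (χ : Idele K →* ℂˣ) (y : FiniteAdeleRing (𝓞 K) K) : ℂ :=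
  if y ∈ finInt K then ∏ᶠ v ∈ ramSet χ, conj (locVal χ v (y v)) else 0

theorem finTest_of_mem {χ : Idele K →* ℂˣ} (h : IsIdeleChar χ) {y : FiniteAdeleRing (𝓞 K) K}
    (hy : y ∈ finInt K) :
    finTest χ y = ∏ v ∈ (finite_ramSet h).toFinset, conj (locVal χ v (y v)) := by
  rw [finTest, if_pos hy, finprod_mem_eq_finite_toFinset_prod _ (finite_ramSet h)]

theorem finTest_of_notMem (χ : Idele K →* ℂˣ) {y : FiniteAdeleRing (𝓞 K) K} (hy : y ∉ finInt K) :
    finTest χ y = 0 := if_neg hy

theorem finTest_eq_zero_of_ne {χ : Idele K →* ℂˣ} (h : IsIdeleChar χ)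
    {y : FiniteAdeleRing (𝓞 K) K} {v : HeightOneSpectrum (𝓞 K)} (hv : v ∈ ramSet χ)
    (hy : Valued.v (y v) ≠ 1) : finTest χ y = 0 := by
  by_cases hy' : y ∈ finInt K
  · rw [finTest_of_mem h hy']
    exact Finset.prod_eq_zero ((finite_ramSet h).mem_toFinset.2 hv)
      (by rw [locVal_of_ne χ hy, map_zero])
  · exact finTest_of_notMem χ hy'

theorem conj_finTest {χ : Idele K →* ℂˣ} (h : IsIdeleChar χ) (y : FiniteAdeleRing (𝓞 K) K) :
    conj (finTest χ y) = finTest χ⁻¹ y := by
  by_cases hy : y ∈ finInt K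
  · rw [finTest_of_mem h hy, finTest_of_mem h.inv hy, map_prod]
    exact Finset.prod_congr (by simp only [ramSet_inv]) fun v _ => by rw [← conj_locVal h]
  · rw [finTest_of_notMem _ hy, finTest_of_notMem _ hy, map_zero]

/-- **Periodicity.** -/
theorem finTest_add {χ : Idele K →* ℂˣ} (h : IsIdeleChar χ) (y : FiniteAdeleRing (𝓞 K) K)
    {z : FiniteAdeleRing (𝓞 K) K} (hz : ∀ v, Valued.v (z v) ≤ exp (-(condExp χ v : ℤ))) :
    finTest χ (y + z) = finTest χ y := by
  have hz' : z ∈ finInt K := mem_finInt.2 fun v => (hz v).trans (by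
    rw [← exp_zero, exp_le_exp]; omega)
  by_cases hy : y ∈ finInt K
  · rw [finTest_of_mem h hy, finTest_of_mem h (add_mem hy hz')]
    refine Finset.prod_congr rfl fun v hv => ?_
    rw [show (y + z) v = y v + z v from rfl,
      locVal_add h ((finite_ramSet h).mem_toFinset.1 hv) (hz v)]
  · rw [finTest_of_notMem χ hy,
      finTest_of_notMem χ fun h' => hy ((finInt K).add_mem_cancel_right hz' |>.1 h')]

theorem isLocallyConstant_finTest {χ : Idele K →* ℂˣ} (h : IsIdeleChar χ) :
    IsLocallyConstant (finTest χ) := by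
  refine (IsLocallyConstant.iff_eventually_eq _).2 fun b => ?_
  set d : FiniteAdeleRing (𝓞 K) K := (((idealIdele (condI χ))⁻¹ : Idele K) : 𝐀).2
  have ho : {y : FiniteAdeleRing (𝓞 K) K | d * (y - b) ∈ finInt K} ∈ 𝓝 b :=
    ((isOpen_finInt K).preimage (continuous_const.mul
      (continuous_id.sub continuous_const))).mem_nhds (show d * (b - b) ∈ finInt K by
        rw [sub_self, mul_zero]; exact zero_mem _)
  filter_upwards [ho] with y hy
  rw [← add_sub_cancel b y]
  refine finTest_add h b fun v => ?_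
  have h1 : Valued.v (d v) * Valued.v ((y - b) v) ≤ 1 := by
    rw [← map_mul]; exact mem_finInt.1 hy v
  rw [valued_idealIdele_inv, show ordI v (condI χ).1 = condExp χ v from ordI_condIdeal h v] at h1
  calc Valued.v ((y - b) v)
      = exp (-(condExp χ v : ℤ)) * (exp (condExp χ v : ℤ) * Valued.v ((y - b) v)) := by
        rw [← mul_assoc, ← exp_add, neg_add_cancel, exp_zero, one_mul]
    _ ≤ exp (-(condExp χ v : ℤ)) := mul_le_of_le_one_right' h1

theorem hasCompactSupport_finTest (χ : Idele K →* ℂˣ) : HasCompactSupport (finTest χ) :=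
  HasCompactSupport.intro (isCompact_finInt K) fun _ hy => finTest_of_notMem χ hy

/-- **Equivariance under the unit ideles.** -/
theorem finTest_mul {χ : Idele K →* ℂˣ} (h : IsIdeleChar χ) {u : Idele K} (hu : u ∈ unitFin K)
    (y : FiniteAdeleRing (𝓞 K) K) :
    finTest χ ((u : 𝐀).2 * y) = conj ((χ u : ℂˣ) : ℂ) * finTest χ y := by
  have hv1 : ∀ v, Valued.v ((u : 𝐀).2 v) = 1 := hu.1
  have hmem : (u : 𝐀).2 * y ∈ finInt K ↔ y ∈ finInt K := by
    simp only [mem_finInt]
    refine forall_congr' fun v => ?_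
    show Valued.v ((u : 𝐀).2 v * y v) ≤ 1 ↔ _
    rw [map_mul, hv1, one_mul]
  by_cases hy : y ∈ finInt K
  · have hinf : infPart u = 1 := idele_ext (fun v => by rw [finComp_infPart, map_one])
      fun w => by rw [infComp_infPart, hu.2, map_one]
    rw [finTest_of_mem h (hmem.2 hy), finTest_of_mem h hy, map_of_units h hu.1, hinf, map_one,
      Units.val_one, one_mul, map_prod, ← Finset.prod_mul_distrib]
    refine Finset.prod_congr rfl fun v _ => ?_
    rw [← map_mul, show ((u : 𝐀).2 * y) v = ((finComp v u : (v.adicCompletion K)ˣ) :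
        v.adicCompletion K) * y v from rfl, locVal_mul χ (hu.1 v)]
    congr 2
    exact (locVal_unit χ (z := finComp v u) (hu.1 v)).symm
  · rw [finTest_of_notMem χ hy, finTest_of_notMem χ (hmem.not.2 hy), mul_zero]

end FA.TateLocal

end
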