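import Fermat.Agent.TateThesis.Fourier
import Fermat.Agent.IdeleClass.GroessenExists
import Mathlib.NumberTheory.NumberField.Discriminant.Different

/-!
# The annihilator of the integral adeles

For the standard character it is the inverse different: the finite adeles `b` pairing trivially with
all integral ones are those with `δ b` integral, `δ` an idele of the different.
-/

set_option autoImplicit false
set_option linter.unusedSectionVars false
set_option linter.style.haveILetI false

noncomputable section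

open NumberField IsDedekindDomain
open WithZero
open FA.AdeleDual FA.Ideles FA.IdeleClass FA.TateThesis
open FA.ArtinRec (unif ordI ordI_mul ordI_eq_zero_iff)
open FA.Ext (primeIdeal)
open FA.QuadFormsNF (valued_algebraMap)
open scoped nonZeroDivisors Classical

set_option maxHeartbeats 400000

namespace FA.TateLocal

universe u

variable {K : Type u} [Field K] [NumberField K]

local notation "𝐀" => AdeleRing (𝓞 K) K
local notation "𝐅" => algebraMap K (FiniteAdeleRing (𝓞 K) K)

/-- The idele of an ideal, uniformisers to the exponents. -/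
def idealIdele : (Ideal (𝓞 K))⁰ →* Idele K := primeIdele (K := K) ∅

theorem valued_idealIdele (I : (Ideal (𝓞 K))⁰) (v : HeightOneSpectrum (𝓞 K)) :
    Valued.v ((idealIdele I : 𝐀).2 v) = exp (-(ordI v I.1 : ℤ)) :=
  valued_primeIdele (R := ∅) I (Set.notMem_empty v)

theorem valued_idealIdele_inv (I : (Ideal (𝓞 K))⁰) (v : HeightOneSpectrum (𝓞 K)) :
    Valued.v (((idealIdele I)⁻¹ : Idele K).val.2 v) = exp (ordI v I.1 : ℤ) := by
  rw [← finComp_val v ((idealIdele I)⁻¹), map_inv, Units.val_inv_eq_inv_val, map_inv₀, finComp_val,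
    valued_idealIdele, exp_neg, inv_inv]

theorem fst_idealIdele (I : (Ideal (𝓞 K))⁰) : (idealIdele I : 𝐀).1 = 1 :=
  funext fun w => congrArg Units.val (infComp_primeIdele ∅ I w)

theorem ideleAbs_primeIdele (R : Set (HeightOneSpectrum (𝓞 K))) (I : (Ideal (𝓞 K))⁰)
    (hI : ∀ v ∈ R, ordI v I.1 = 0) :
    ideleAbs K (primeIdele R I) = ((Ideal.absNorm I.1 : ℕ) : ℝ)⁻¹ := by
  induction I using ideal_induction with
  | h1 => simp
  | hmul v I ih =>
    have h1 : ∀ u ∈ R, ordI u I.1 = 0 ∧ u ≠ v := fun u hu => by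
      have h := hI u hu
      rw [ordI_primeIdeal_mul, Nat.add_eq_zero_iff] at h
      exact ⟨h.2, fun e => by simp [e] at h⟩
    rw [primeIdele_prime_mul, if_neg fun hv => (h1 v hv).2 rfl, map_mul, ideleAbs_single_unif,
      ih fun u hu => (h1 u hu).1, Submonoid.coe_mul, map_mul, Nat.cast_mul, mul_inv]
    rfl

theorem ideleAbs_idealIdele (I : (Ideal (𝓞 K))⁰) :
    ideleAbs K (idealIdele I) = ((Ideal.absNorm I.1 : ℕ) : ℝ)⁻¹ :=
  ideleAbs_primeIdele ∅ I fun _ h => absurd h (Set.notMem_empty _)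

/-- The valuation on the elements of an ideal. -/
theorem valuation_le_of_mem {I : Ideal (𝓞 K)} (v : HeightOneSpectrum (𝓞 K)) {r : 𝓞 K} (hr : r ∈ I) :
    v.valuation K (r : K) ≤ exp (-(ordI v I : ℤ)) := by
  refine (v.valuation_of_algebraMap r).trans_le ((v.intValuation_le_pow_iff_mem r _).2 ?_)
  exact Ideal.le_of_dvd (pow_multiplicity_dvd v.asIdeal I) hr

/-- The exponent is attained. -/
theorem exists_valuation_ge {I : Ideal (𝓞 K)} (hI : I ≠ ⊥) (v : HeightOneSpectrum (𝓞 K)) :
    ∃ r ∈ I, exp (-(ordI v I : ℤ)) ≤ v.valuation K (r : K) := by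
  by_contra h
  push Not at h
  have hle : I ≤ v.asIdeal ^ (ordI v I + 1) := fun r hr => by
    refine (v.intValuation_le_pow_iff_mem r _).1 ?_
    have h1 := h r hr
    rw [show v.valuation K (r : K) = v.intValuation r from v.valuation_of_algebraMap r] at h1
    rcases eq_or_ne (v.intValuation r) 0 with h0 | h0
    · rw [h0]; exact zero_le
    · rw [← exp_log h0, exp_lt_exp] at h1
      rw [← exp_log h0, exp_le_exp]
      push_cast
      omega
  have h2 := (FiniteMultiplicity.of_prime_left v.prime hI).le_multiplicity_of_pow_dvd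
    (Ideal.dvd_iff_le.2 hle)
  change ordI v I + 1 ≤ ordI v I at h2
  omega

variable (K) in
/-- The different. -/
def diffI : (Ideal (𝓞 K))⁰ :=
  ⟨differentIdeal ℤ (𝓞 K), mem_nonZeroDivisors_iff_ne_zero.2 differentIdeal_ne_bot⟩

/-- **The inverse different is the trace dual of the integers.** -/
theorem traceDual_iff (k : K) :
    (∀ r : 𝓞 K, ∃ n : ℤ, (n : ℚ) = Algebra.trace ℚ K (k * r)) ↔
      ∀ v : HeightOneSpectrum (𝓞 K), v.valuation K k ≤ exp (ordI v (diffI K).1 : ℤ) := by
  have hne : ((differentIdeal ℤ (𝓞 K) : FractionalIdeal (𝓞 K)⁰ K)) ≠ 0 :=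
    FractionalIdeal.coeIdeal_ne_zero.2 differentIdeal_ne_bot
  have hdual : (FractionalIdeal.dual ℤ ℚ (1 : FractionalIdeal (𝓞 K)⁰ K)) =
      ((differentIdeal ℤ (𝓞 K) : FractionalIdeal (𝓞 K)⁰ K))⁻¹ := by
    rw [coeIdeal_differentIdeal ℤ ℚ K (𝓞 K), inv_inv]
  have h1 : (∀ r : 𝓞 K, ∃ n : ℤ, (n : ℚ) = Algebra.trace ℚ K (k * r)) ↔
      k ∈ FractionalIdeal.dual ℤ ℚ (1 : FractionalIdeal (𝓞 K)⁰ K) := by
    rw [FractionalIdeal.mem_dual (one_ne_zero (α := FractionalIdeal (𝓞 K)⁰ K))]
    constructor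
    · intro h a ha
      obtain ⟨r, rfl⟩ := (FractionalIdeal.mem_one_iff _).1 ha
      obtain ⟨n, hn⟩ := h r
      exact ⟨n, by rw [Algebra.traceForm_apply, eq_intCast]; exact hn⟩
    · intro h r
      obtain ⟨n, hn⟩ := h (r : K) ((FractionalIdeal.mem_one_iff _).2 ⟨r, rfl⟩)
      exact ⟨n, by rwa [Algebra.traceForm_apply, eq_intCast] at hn⟩
  rw [h1, hdual, FractionalIdeal.mem_inv_iff hne]
  constructor
  · intro h v
    obtain ⟨r, hr, hrv⟩ := exists_valuation_ge (I := (diffI K).1) differentIdeal_ne_bot v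
    obtain ⟨s, hs⟩ := (FractionalIdeal.mem_one_iff _).1
      (h (r : K) ((FractionalIdeal.mem_coeIdeal _).2 ⟨r, hr, rfl⟩))
    have h2 : v.valuation K k * v.valuation K (r : K) ≤ 1 := by
      rw [← map_mul, ← hs]
      exact v.valuation_le_one s
    calc v.valuation K k = v.valuation K k * (exp (-(ordI v (diffI K).1 : ℤ)) *
          exp (ordI v (diffI K).1 : ℤ)) := by rw [← exp_add, neg_add_cancel, exp_zero, mul_one]
      _ ≤ v.valuation K k * (v.valuation K (r : K) * exp (ordI v (diffI K).1 : ℤ)) :=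
          mul_le_mul' le_rfl (mul_le_mul' hrv le_rfl)
      _ ≤ 1 * exp (ordI v (diffI K).1 : ℤ) := by rw [← mul_assoc]; exact mul_le_mul' h2 le_rfl
      _ = _ := one_mul _
  · intro h y hy
    obtain ⟨r, hr, rfl⟩ := (FractionalIdeal.mem_coeIdeal _).1 hy
    obtain ⟨s, hs⟩ := HeightOneSpectrum.mem_integers_of_valuation_le_one (R := 𝓞 K) K
      (k * (r : K)) fun v => by
        rw [map_mul]
        refine (mul_le_mul' (h v) (valuation_le_of_mem (I := (diffI K).1) v hr)).trans ?_
        rw [← exp_add, add_neg_cancel, exp_zero]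
    exact (FractionalIdeal.mem_one_iff _).2 ⟨s, hs⟩

/-- Pairing trivially with the integral adeles. -/
def InTraceDual (b : FiniteAdeleRing (𝓞 K) K) : Prop :=
  ∀ u ∈ finInt K, stdChar K (inFin K (b * u)) = 1

theorem inTraceDual_algebraMap (k : K) : InTraceDual (𝐅 k) ↔
    ∀ v : HeightOneSpectrum (𝓞 K), v.valuation K k ≤ exp (ordI v (diffI K).1 : ℤ) := by
  rw [← traceDual_iff]
  constructor
  · intro h r
    have h1 := h (𝐅 (r : K)) (integer_mem_finInt r)
    rw [← map_mul] at h1
    have h2 := stdChar_algebraMap (K := K) (k * r)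
    rw [← inInf_add_inFin (algebraMap K 𝐀 (k * r)), AddChar.map_add_eq_mul,
      show (algebraMap K 𝐀 (k * r)).2 = 𝐅 (k * r) from rfl, h1, mul_one, stdChar_inInf,
      show (algebraMap K 𝐀 (k * r)).1 = algebraMap K (InfiniteAdeleRing K) (k * r) from rfl,
      traceInf_algebraMap] at h2
    obtain ⟨n, hn⟩ := expNeg_eq_one_iff.1 h2
    exact ⟨n, by exact_mod_cast hn⟩
  · intro h u hu
    rw [← mul_inFin]
    refine stdChar_mul_inFin (fun r => ?_) hu
    obtain ⟨n, hn⟩ := h r
    rw [traceInf_algebraMap, ← hn, Rat.cast_intCast, expNeg_intCast]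

/-- **The annihilator of the integral adeles is the inverse different.** -/
theorem inTraceDual_iff (b : FiniteAdeleRing (𝓞 K) K) :
    InTraceDual b ↔
      ∀ v : HeightOneSpectrum (𝓞 K), Valued.v (b v) ≤ exp (ordI v (diffI K).1 : ℤ) := by
  obtain ⟨k, hk⟩ := exists_sub_mem b
  have hle : ∀ v : HeightOneSpectrum (𝓞 K), (1 : ℤᵐ⁰) ≤ exp (ordI v (diffI K).1 : ℤ) := fun v => by
    rw [← exp_zero, exp_le_exp]
    positivity
  have h1 : InTraceDual b ↔ InTraceDual (𝐅 k) := by
    refine forall₂_congr fun u hu => ?_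
    conv_lhs => rw [← sub_add_cancel b (𝐅 k), add_mul, map_add, AddChar.map_add_eq_mul,
      stdChar_inFin_of_mem (mul_mem_finInt hk hu), one_mul]
  rw [h1, inTraceDual_algebraMap]
  refine forall_congr' fun v => ?_
  rw [← valued_algebraMap]
  have hd : Valued.v (b v - algebraMap K (v.adicCompletion K) k) ≤ 1 := mem_finInt.1 hk v
  constructor <;> intro h
  · rw [← sub_add_cancel (b v) (algebraMap K (v.adicCompletion K) k)]
    exact Valuation.map_add_le _ (hd.trans (hle v)) h
  · rw [← sub_sub_cancel (b v) (algebraMap K (v.adicCompletion K) k)]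
    exact Valuation.map_sub_le _ h (hd.trans (hle v))

end FA.TateLocal

end
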