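import Fermat.Agent.TateLocal.TestFunction
import Fermat.Agent.TateThesis.Topology

/-!
# The multiplicative measure at infinity

`∏ dx / |x| ∏ dz / |z|²` on the mixed space is invariant under the elements without a zero
component, and up to a constant it is the only such measure; the zeta integral of the test function
for it is a product of Gamma factors.
-/

set_option autoImplicit false
set_option linter.unusedSectionVars false
set_option linter.style.haveILetI false

noncomputable section

open NumberField NumberField.InfinitePlace IsDedekindDomain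
open MeasureTheory MeasureTheory.Measure Filter Topology Module
open NumberField.mixedEmbedding (mixedSpace)
open scoped Classical Real NNReal ENNReal

set_option maxHeartbeats 400000

namespace FA.TateLocal

universe u

/-- `dx / |x|`. -/
def realHaar : Measure ℝ := (volume : Measure ℝ).withDensity fun x => ((‖x‖₊⁻¹ : ℝ≥0) : ℝ≥0∞)

/-- `dz / |z|²`. -/
def cplxHaar : Measure ℂ :=
  (volume : Measure ℂ).withDensity fun z => (((‖z‖₊ ^ 2)⁻¹ : ℝ≥0) : ℝ≥0∞)

instance sigmaFinite_realHaar : SigmaFinite realHaar :=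
  SigmaFinite.withDensity fun x : ℝ => ‖x‖₊⁻¹

instance sigmaFinite_cplxHaar : SigmaFinite cplxHaar :=
  SigmaFinite.withDensity fun z : ℂ => (‖z‖₊ ^ 2)⁻¹

theorem realHaar_zero : realHaar {(0 : ℝ)} = 0 :=
  withDensity_absolutelyContinuous _ _ (measure_singleton 0)

theorem cplxHaar_zero : cplxHaar {(0 : ℂ)} = 0 :=
  withDensity_absolutelyContinuous _ _ (measure_singleton 0)

/-- A density times the change of variables gives invariance. -/
theorem map_mul_withDensity {F : Type*} [NormedField F] [MeasurableSpace F] [BorelSpace F]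
    {μ : Measure F} {p : F → ℝ≥0∞} (hp : Measurable p) {a : F} {c : ℝ≥0∞} (_ha : a ≠ 0)
    (hmap : Measure.map (a * ·) μ = c • μ) (hc : ∀ x, p x = p (a * x) * c⁻¹ ) (hc0 : c ≠ 0)
    (hct : c ≠ ⊤) : Measure.map (a * ·) (μ.withDensity p) = μ.withDensity p := by
  refine Measure.ext fun s hs => ?_
  have hm : Measurable (a * · : F → F) := (continuous_const_mul a).measurable
  have hind : ∀ x, ((a * ·) ⁻¹' s).indicator p x = c⁻¹ * s.indicator p (a * x) := fun x => by
    by_cases hx : a * x ∈ s
    · rw [Set.indicator_of_mem (show x ∈ (a * ·) ⁻¹' s from hx), Set.indicator_of_mem hx, hc,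
        mul_comm]
    · rw [Set.indicator_of_notMem (show x ∉ (a * ·) ⁻¹' s from hx), Set.indicator_of_notMem hx,
        mul_zero]
  rw [Measure.map_apply hm hs, withDensity_apply _ (hm hs), withDensity_apply _ hs,
    ← lintegral_indicator (hm hs), ← lintegral_indicator hs, lintegral_congr hind,
    lintegral_const_mul' _ _ (ENNReal.inv_ne_top.2 hc0), ← lintegral_map (hp.indicator hs) hm,
    hmap, lintegral_smul_measure, smul_eq_mul, ← mul_assoc, ENNReal.inv_mul_cancel hc0 hct, one_mul]

theorem map_realHaar {a : ℝ} (ha : a ≠ 0) : Measure.map (a * ·) realHaar = realHaar := by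
  refine map_mul_withDensity (c := ENNReal.ofReal |a⁻¹|) (by fun_prop) ha
    (Real.map_volume_mul_left ha) (fun x => ?_) (by simp [ha]) ENNReal.ofReal_ne_top
  rw [← ENNReal.ofReal_inv_of_pos (by positivity), abs_inv, inv_inv, ← Real.norm_eq_abs,
    ofReal_norm, enorm_eq_nnnorm, ← ENNReal.coe_mul, nnnorm_mul, mul_inv, mul_comm,
    ← mul_assoc, mul_inv_cancel₀ (nnnorm_ne_zero_iff.2 ha), one_mul]

theorem map_volume_mul_complex {a : ℂ} (ha : a ≠ 0) :
    Measure.map (a * ·) (volume : Measure ℂ) = ENNReal.ofReal (‖a‖ ^ 2)⁻¹ • volume := by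
  have hdet : LinearMap.det (LinearMap.mulLeft ℝ a) = ‖a‖ ^ 2 := by
    rw [show LinearMap.mulLeft ℝ a = Algebra.lmul ℝ ℂ a from rfl, ← Algebra.norm_apply,
      Algebra.norm_complex_apply, ← Complex.sq_norm]
  have h := Measure.map_linearMap_addHaar_eq_smul_addHaar (volume : Measure ℂ)
    (f := LinearMap.mulLeft ℝ a) (by rw [hdet]; exact pow_ne_zero _ (norm_ne_zero_iff.2 ha))
  rw [hdet, abs_inv, abs_of_nonneg (by positivity)] at h
  exact h

theorem map_cplxHaar {a : ℂ} (ha : a ≠ 0) : Measure.map (a * ·) cplxHaar = cplxHaar := by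
  refine map_mul_withDensity (c := ENNReal.ofReal (‖a‖ ^ 2)⁻¹) (by fun_prop) ha
    (map_volume_mul_complex ha) (fun x => ?_) (by simp [ha]) ENNReal.ofReal_ne_top
  rw [← ENNReal.ofReal_inv_of_pos (by positivity), inv_inv, ENNReal.ofReal_pow (norm_nonneg a),
    ofReal_norm, enorm_eq_nnnorm, ← ENNReal.coe_pow, ← ENNReal.coe_mul, nnnorm_mul,
    mul_pow, mul_inv, mul_comm, ← mul_assoc,
    mul_inv_cancel₀ (pow_ne_zero 2 (nnnorm_ne_zero_iff.2 ha)), one_mul]

variable (K : Type u) [Field K] [NumberField K]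

/-- The invariant measure. -/
def mulMeasure : Measure (mixedEmbedding.mixedSpace K) :=
  (Measure.pi fun _ : {w : InfinitePlace K // IsReal w} => realHaar).prod
    (Measure.pi fun _ : {w : InfinitePlace K // IsComplex w} => cplxHaar)

instance sigmaFinite_mulMeasure : SigmaFinite (mulMeasure K) := by
  unfold mulMeasure
  infer_instance

variable {K}

/-- No component vanishes. -/
def NoZero (v : mixedEmbedding.mixedSpace K) : Prop := (∀ w, v.1 w ≠ 0) ∧ ∀ w, v.2 w ≠ 0

theorem NoZero.inv_mul {v : mixedEmbedding.mixedSpace K} (h : NoZero v) : v⁻¹ * v = 1 :=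
  Prod.ext (funext fun w => inv_mul_cancel₀ (h.1 w)) (funext fun w => inv_mul_cancel₀ (h.2 w))

theorem NoZero.inv {v : mixedEmbedding.mixedSpace K} (h : NoZero v) : NoZero v⁻¹ :=
  ⟨fun w => inv_ne_zero (h.1 w), fun w => inv_ne_zero (h.2 w)⟩

theorem mulInv_inv (v : mixedEmbedding.mixedSpace K) : v⁻¹⁻¹ = v :=
  Prod.ext (funext fun _ => inv_inv _) (funext fun _ => inv_inv _)

theorem measurable_inv_mixed :
    Measurable fun v : mixedEmbedding.mixedSpace K => v⁻¹ :=
  (measurable_pi_lambda _ fun w => ((measurable_pi_apply w).comp measurable_fst).inv).prodMk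
    (measurable_pi_lambda _ fun w => ((measurable_pi_apply w).comp measurable_snd).inv)

variable (K) in
theorem ae_noZero : ∀ᵐ v ∂mulMeasure K, NoZero v := by
  have h1 : ∀ᵐ x ∂(Measure.pi fun _ : {w : InfinitePlace K // IsReal w} => realHaar),
      ∀ w, x w ≠ 0 := eventually_all.2 fun w =>
    (Measure.tendsto_eval_ae_ae (μ := fun _ : {w : InfinitePlace K // IsReal w} => realHaar) (i := w)).eventually
      (p := fun x => x ≠ 0) (ae_iff.2 (by simpa using realHaar_zero))
  have h2 : ∀ᵐ x ∂(Measure.pi fun _ : {w : InfinitePlace K // IsComplex w} => cplxHaar),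
      ∀ w, x w ≠ 0 := eventually_all.2 fun w =>
    (Measure.tendsto_eval_ae_ae (μ := fun _ : {w : InfinitePlace K // IsComplex w} => cplxHaar) (i := w)).eventually
      (p := fun x => x ≠ 0) (ae_iff.2 (by simpa using cplxHaar_zero))
  unfold mulMeasure
  exact (Measure.quasiMeasurePreserving_fst.ae h1).and (Measure.quasiMeasurePreserving_snd.ae h2)

/-- **The invariance.** -/
theorem map_mulMeasure {y : mixedEmbedding.mixedSpace K} (hy : NoZero y) :
    Measure.map (y * ·) (mulMeasure K) = mulMeasure K := by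
  have h1 : Measure.map (y.1 * ·) (Measure.pi fun _ : {w : InfinitePlace K // IsReal w} => realHaar) =
      Measure.pi fun _ => realHaar := by
    rw [show (y.1 * ·) = fun (x : {w : InfinitePlace K // IsReal w} → ℝ) w => y.1 w * x w from rfl,
      Measure.pi_map_pi (μ := fun _ : {w : InfinitePlace K // IsReal w} => realHaar)
        (f := fun w x => y.1 w * x) (fun w => (continuous_const_mul _).aemeasurable)
        (hμ := fun w => by rw [map_realHaar (hy.1 w)]; infer_instance)]
    exact congrArg Measure.pi (funext fun w => map_realHaar (hy.1 w))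
  have h2 : Measure.map (y.2 * ·) (Measure.pi fun _ : {w : InfinitePlace K // IsComplex w} => cplxHaar) =
      Measure.pi fun _ => cplxHaar := by
    rw [show (y.2 * ·) = fun (x : {w : InfinitePlace K // IsComplex w} → ℂ) w => y.2 w * x w from rfl,
      Measure.pi_map_pi (μ := fun _ : {w : InfinitePlace K // IsComplex w} => cplxHaar)
        (f := fun w x => y.2 w * x) (fun w => (continuous_const_mul _).aemeasurable)
        (hμ := fun w => by rw [map_cplxHaar (hy.2 w)]; infer_instance)]
    exact congrArg Measure.pi (funext fun w => map_cplxHaar (hy.2 w))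
  have hm := Measure.map_prod_map (Measure.pi fun _ : {w : InfinitePlace K // IsReal w} => realHaar)
    (Measure.pi fun _ : {w : InfinitePlace K // IsComplex w} => cplxHaar)
    (f := (y.1 * ·)) (g := (y.2 * ·)) (continuous_const_mul _).measurable
    (continuous_const_mul _).measurable
  rw [h1, h2] at hm
  exact hm.symm

theorem lintegral_mul_left {m : Measure (mixedEmbedding.mixedSpace K)}
    (hm : ∀ y : mixedEmbedding.mixedSpace K, NoZero y → Measure.map (y * ·) m = m)
    {g : mixedEmbedding.mixedSpace K → ℝ≥0∞} (hg : Measurable g) {y : mixedEmbedding.mixedSpace K}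
    (hy : NoZero y) : ∫⁻ x, g (y * x) ∂m = ∫⁻ x, g x ∂m := by
  conv_rhs => rw [← hm y hy]
  exact (lintegral_map hg (continuous_const_mul y).measurable).symm

/-- **Uniqueness.** -/
theorem lintegral_mul_lintegral {m : Measure (mixedEmbedding.mixedSpace K)} [SFinite m]
    (hm : ∀ y : mixedEmbedding.mixedSpace K, NoZero y → Measure.map (y * ·) m = m)
    (hmz : ∀ᵐ v ∂m, NoZero v) {g h : mixedEmbedding.mixedSpace K → ℝ≥0∞} (hg : Measurable g)
    (hh : Measurable h) :
    (∫⁻ x, g x ∂m) * ∫⁻ y, h y ∂mulMeasure K =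
      (∫⁻ x, h x ∂m) * ∫⁻ y, g y⁻¹ ∂mulMeasure K := by
  have hmul : Measurable fun p : mixedEmbedding.mixedSpace K × mixedEmbedding.mixedSpace K =>
      p.1 * p.2 := continuous_mul.measurable
  calc (∫⁻ x, g x ∂m) * ∫⁻ y, h y ∂mulMeasure K
      = ∫⁻ x, g x * ∫⁻ y, h (x * y) ∂mulMeasure K ∂m := by
        rw [← lintegral_mul_const _ hg]
        refine lintegral_congr_ae (hmz.mono fun x hx => ?_)
        show _ = g x * _
        rw [lintegral_mul_left (fun y hy => map_mulMeasure hy) hh hx]
    _ = ∫⁻ x, ∫⁻ y, g x * h (x * y) ∂mulMeasure K ∂m := lintegral_congr fun x =>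
        (lintegral_const_mul _ (hh.comp (continuous_const_mul x).measurable)).symm
    _ = ∫⁻ y, ∫⁻ x, g x * h (x * y) ∂m ∂mulMeasure K :=
        lintegral_lintegral_swap ((hg.comp measurable_fst).mul (hh.comp hmul)).aemeasurable
    _ = ∫⁻ y, ∫⁻ x, g (y⁻¹ * x) * h x ∂m ∂mulMeasure K := by
        refine lintegral_congr_ae ((ae_noZero K).mono fun y hy => ?_)
        show ∫⁻ x, g x * h (x * y) ∂m = ∫⁻ x, g (y⁻¹ * x) * h x ∂m
        rw [← lintegral_mul_left hm (g := fun x => g (y⁻¹ * x) * h x)
          ((hg.comp (continuous_const_mul _).measurable).mul hh) hy]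
        refine lintegral_congr fun x => ?_
        rw [← mul_assoc, hy.inv_mul, one_mul, mul_comm y x]
    _ = ∫⁻ x, ∫⁻ y, g (y⁻¹ * x) * h x ∂mulMeasure K ∂m :=
        lintegral_lintegral_swap ((hg.comp (hmul.comp
          ((measurable_inv_mixed.comp measurable_fst).prodMk measurable_snd))).mul
            (hh.comp measurable_snd)).aemeasurable
    _ = ∫⁻ x, h x * ∫⁻ y, g y⁻¹ ∂mulMeasure K ∂m := by
        refine lintegral_congr_ae (hmz.mono fun x hx => ?_)
        show ∫⁻ y, g (y⁻¹ * x) * h x ∂mulMeasure K = h x * ∫⁻ y, g y⁻¹ ∂mulMeasure K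
        rw [lintegral_mul_const (h x) (f := fun y => g (y⁻¹ * x)) (hg.comp (hmul.comp (measurable_inv_mixed.prodMk measurable_const))),
          mul_comm (h x), ← lintegral_mul_left (fun y hy => map_mulMeasure hy)
            (g := fun y => g (y⁻¹ * x)) (hg.comp (hmul.comp
              (measurable_inv_mixed.prodMk measurable_const))) hx]
        congr 1
        refine lintegral_congr_ae ((ae_noZero K).mono fun y hy => ?_)
        show g ((x * y)⁻¹ * x) = g y⁻¹
        congr 1
        rw [show (x * y)⁻¹ = x⁻¹ * y⁻¹ from Prod.ext (funext fun w => mul_inv _ _)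
          (funext fun w => mul_inv _ _), mul_comm x⁻¹, mul_assoc, hx.inv_mul, mul_one]
    _ = _ := lintegral_mul_const _ hh

/-- **An invariant measure is a multiple of the product one.** -/
theorem eq_smul_mulMeasure {m : Measure (mixedEmbedding.mixedSpace K)} [SFinite m]
    (hm : ∀ y : mixedEmbedding.mixedSpace K, NoZero y → Measure.map (y * ·) m = m)
    (hmz : ∀ᵐ v ∂m, NoZero v) {h₀ : mixedEmbedding.mixedSpace K → ℝ≥0∞} (hh₀ : Measurable h₀)
    (hpos : ∫⁻ x, h₀ x ∂mulMeasure K ≠ 0) (hfin : ∫⁻ x, h₀ x ∂mulMeasure K ≠ ⊤)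
    (hfinm : ∫⁻ x, h₀ x ∂m ≠ ⊤) :
    ∃ C : ℝ≥0, m = C • mulMeasure K := by
  set g : mixedEmbedding.mixedSpace K → ℝ≥0∞ := fun v => h₀ v⁻¹
  set a := ∫⁻ x, h₀ x ∂mulMeasure K with ha
  have hga : ∫⁻ y, g y⁻¹ ∂mulMeasure K = a := by simp only [g, mulInv_inv, ha]
  set C : ℝ≥0∞ := (∫⁻ x, g x ∂m) * a⁻¹ with hC
  have key : ∀ h : mixedEmbedding.mixedSpace K → ℝ≥0∞, Measurable h →
      ∫⁻ x, h x ∂m = C * ∫⁻ y, h y ∂mulMeasure K := fun h hh => by
    have h1 := lintegral_mul_lintegral hm hmz (g := g) (hh₀.comp measurable_inv_mixed) hh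
    rw [hga] at h1
    rw [hC, mul_right_comm, h1, mul_assoc, ENNReal.mul_inv_cancel hpos hfin, mul_one]
  have hCt : C ≠ ⊤ := fun e => hfinm (by rw [key h₀ hh₀, e, ENNReal.top_mul hpos])
  refine ⟨C.toNNReal, Measure.ext fun s hs => ?_⟩
  have h1 := key (s.indicator 1) (measurable_one.indicator hs)
  rw [lintegral_indicator_one hs, lintegral_indicator_one hs] at h1
  rw [h1, Measure.smul_apply, ENNReal.smul_def, smul_eq_mul, ENNReal.coe_toNNReal hCt]

/-! ### The zeta integral -/

/-- The Gamma factors. -/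
def infGamma (τ : InfinitePlace K → ℝ) (m : InfinitePlace K → ℤ) (s : ℂ) : ℂ :=
  (∏ w : {w : InfinitePlace K // IsReal w},
      Complex.Gammaℝ (s + τ w.1 * Complex.I + (m w.1).natAbs)) *
    ∏ w : {w : InfinitePlace K // IsComplex w},
      Complex.Gammaℂ (s + τ w.1 * Complex.I + (m w.1).natAbs / 2)

/-- The integrand. -/
def infIntegrand (τ : InfinitePlace K → ℝ) (m : InfinitePlace K → ℤ) (s : ℂ)
    (v : mixedEmbedding.mixedSpace K) : ℂ :=
  (∏ w : {w : InfinitePlace K // IsReal w}, realInt (τ w.1) (m w.1) s (v.1 w)) *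
    ∏ w : {w : InfinitePlace K // IsComplex w}, cplxInt (τ w.1) (m w.1) s (v.2 w)

theorem infGamma_ne_zero (τ : InfinitePlace K → ℝ) (m : InfinitePlace K → ℤ) {s : ℂ}
    (hs : 0 < s.re) : infGamma τ m s ≠ 0 := by
  refine mul_ne_zero (Finset.prod_ne_zero_iff.2 fun w _ => Complex.Gammaℝ_ne_zero_of_re_pos ?_)
    (Finset.prod_ne_zero_iff.2 fun w _ => ?_)
  · simp
    positivity
  · rw [Complex.Gammaℂ_def]
    refine mul_ne_zero (mul_ne_zero two_ne_zero ?_) (Complex.Gamma_ne_zero_of_re_pos ?_)
    · simp [Real.pi_ne_zero]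
    · simp
      positivity

/-- **The zeta integral at infinity.** -/
theorem integral_infIntegrand (τ : InfinitePlace K → ℝ) (m : InfinitePlace K → ℤ) {s : ℂ}
    (hs : 0 < s.re) :
    ∫ v, infIntegrand τ m s v ∂mulMeasure K =
      ((π / 2 : ℝ) : ℂ) ^ Fintype.card {w : InfinitePlace K // IsComplex w} * infGamma τ m s := by
  have hR : ∀ w : {w : InfinitePlace K // IsReal w},
      ∫ x, realInt (τ w.1) (m w.1) s x ∂realHaar =
        Complex.Gammaℝ (s + τ w.1 * Complex.I + (m w.1).natAbs) := fun w => by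
    rw [realHaar, integral_withDensity_eq_integral_smul (f := fun x : ℝ => ‖x‖₊⁻¹) (by fun_prop),
      ← zeta_realTest (τ w.1) (m w.1) hs]
    refine integral_congr_ae (Eventually.of_forall fun x => ?_)
    show (‖x‖₊⁻¹ : ℝ≥0) • _ = _
    rw [NNReal.smul_def, NNReal.coe_inv, coe_nnnorm, Real.norm_eq_abs]
  have hC : ∀ w : {w : InfinitePlace K // IsComplex w},
      ∫ z, cplxInt (τ w.1) (m w.1) s z ∂cplxHaar =
        (π / 2 : ℝ) * Complex.Gammaℂ (s + τ w.1 * Complex.I + (m w.1).natAbs / 2) := fun w => by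
    rw [cplxHaar, integral_withDensity_eq_integral_smul (f := fun z : ℂ => (‖z‖₊ ^ 2)⁻¹) (by fun_prop),
      ← zeta_cplxTest (τ w.1) (m w.1) hs]
    refine integral_congr_ae (Eventually.of_forall fun z => ?_)
    show ((‖z‖₊ ^ 2)⁻¹ : ℝ≥0) • _ = _
    rw [NNReal.smul_def, NNReal.coe_inv, NNReal.coe_pow, coe_nnnorm]
  unfold infIntegrand mulMeasure
  rw [integral_prod_mul
    (fun x : {w : InfinitePlace K // IsReal w} → ℝ => ∏ w, realInt (τ w.1) (m w.1) s (x w))
    (fun z : {w : InfinitePlace K // IsComplex w} → ℂ => ∏ w, cplxInt (τ w.1) (m w.1) s (z w)),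
    integral_fintype_prod_eq_prod (fun (w : {w : InfinitePlace K // IsReal w}) (x : ℝ) => realInt (τ w.1) (m w.1) s x),
    integral_fintype_prod_eq_prod (fun (w : {w : InfinitePlace K // IsComplex w}) (z : ℂ) => cplxInt (τ w.1) (m w.1) s z)]
  simp only [hR, hC, Finset.prod_mul_distrib, Finset.prod_const, Finset.card_univ, infGamma]
  ring

theorem integrable_infIntegrand (τ : InfinitePlace K → ℝ) (m : InfinitePlace K → ℤ) {s : ℂ}
    (hs : 0 < s.re) : Integrable (infIntegrand τ m s) (mulMeasure K) := by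
  by_contra h
  have h1 := integral_infIntegrand τ m hs
  rw [integral_undef h, eq_comm] at h1
  exact mul_ne_zero (pow_ne_zero _ (Complex.ofReal_ne_zero.2 (by positivity)))
    (infGamma_ne_zero τ m hs) h1

theorem measurable_infIntegrand (τ : InfinitePlace K → ℝ) (m : InfinitePlace K → ℤ) (s : ℂ) :
    Measurable (infIntegrand τ m s) := by
  unfold infIntegrand realInt cplxInt realTest cplxTest realChar cplxChar
  fun_prop

end FA.TateLocal

end
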