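import Fermat.Agent.TateLocal.LocalZeta
import Fermat.Agent.TateLocal.FiniteDual
import Fermat.Agent.AdeleDuality.Local
import Fermat.Agent.IdeleClass.Compact
import Mathlib.NumberTheory.NumberField.Completion.FinitePlace
import Mathlib.MeasureTheory.Measure.Haar.Unique

/-!
# The balls of a completion at a prime

A ball is `N v` translates of the next, so a Haar measure is scaled by the normalised absolute value;
locally constant functions of compact support are test functions, the transform for the standard
character preserves them, and for the self-dual measure it inverts.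
-/

set_option autoImplicit false
set_option linter.unusedSectionVars false
set_option linter.style.haveILetI false

noncomputable section

open NumberField IsDedekindDomain MeasureTheory MeasureTheory.Measure Filter Topology
open WithZero
open FA.AdeleDual FA.Ideles FA.IdeleClass FA.TateThesis
open FA.ArtinRec (ordI unif)
open FA.QuadFormsNF (valued_algebraMap exists_element_near exists_exp_subset)
open scoped Classical ComplexConjugate Pointwise ENNReal NNReal

set_option maxHeartbeats 400000

namespace FA.TateLocal

universe u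

variable {K : Type u} [Field K] [NumberField K] (v : HeightOneSpectrum (𝓞 K))

/-- The norm of the prime. -/
def qv : ℝ := ((Ideal.absNorm v.asIdeal : ℕ) : ℝ)

theorem one_lt_qv : 1 < qv v := Nat.one_lt_cast.2 (NumberField.RingOfIntegers.HeightOneSpectrum.one_lt_absNorm v)

theorem qv_pos : 0 < qv v := one_pos.trans (one_lt_qv v)

theorem qv_ne_zero : qv v ≠ 0 := (qv_pos v).ne'

theorem norm_eq_zpow_of_valued {y : v.adicCompletion K} {n : ℤ} (h : Valued.v y = exp n) :
    ‖y‖ = qv v ^ n := by
  rw [FinitePlace.norm_def, h, WithZeroMulInt.toNNReal_neg_apply _ exp_ne_zero, NNReal.coe_zpow]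
  rfl

theorem norm_unit_eq_one {y : v.adicCompletion K} (h : Valued.v y = 1) : ‖y‖ = 1 := by
  rw [norm_eq_zpow_of_valued v (n := 0) (by rw [h, exp_zero]), zpow_zero]

theorem secondCountable_adicCompletion : SecondCountableTopology (v.adicCompletion K) := by
  haveI := sigmaCompact_adicCompletion v
  exact EMetric.secondCountable_of_sigmaCompact _

/-- A chosen uniformiser. -/
def pi₀ : (v.adicCompletion K)ˣ := localEmb v (unif v)

theorem valued_pi₀ : Valued.v (pi₀ v : v.adicCompletion K) = exp (-1 : ℤ) :=
  valued_localEmb_unif v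

theorem valued_pi₀_zpow (n : ℤ) :
    Valued.v ((pi₀ v ^ n : (v.adicCompletion K)ˣ) : v.adicCompletion K) = exp (-n) := by
  rw [Units.val_zpow_eq_zpow_val, map_zpow₀, valued_pi₀, ← exp_zsmul]
  simp

variable {v}

theorem isOpen_ball' (n : ℤ) : IsOpen (ball v n : Set (v.adicCompletion K)) :=
  AddSubgroup.isOpen_of_mem_nhds _ (g := 0) (by
    have h := (Valued.isOpen_valuationSubring (v.adicCompletion K)).preimage
      (continuous_const_mul ((pi₀ v ^ n : (v.adicCompletion K)ˣ) : v.adicCompletion K))
    refine mem_of_superset (h.mem_nhds ?_) fun z hz => ?_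
    · show _ * (0 : v.adicCompletion K) ∈ v.adicCompletionIntegers K
      rw [mul_zero]; exact zero_mem _
    · have h1 := (HeightOneSpectrum.mem_adicCompletionIntegers (𝓞 K) K v).1 hz
      rw [map_mul, valued_pi₀_zpow] at h1
      show Valued.v z ≤ exp n
      calc Valued.v z = exp n * (exp (-n) * Valued.v z) := by
            rw [← mul_assoc, ← exp_add, add_neg_cancel, exp_zero, one_mul]
        _ ≤ exp n * 1 := mul_le_mul' le_rfl h1
        _ = exp n := mul_one _)

theorem ball_mono {m n : ℤ} (h : m ≤ n) : ball v m ≤ ball v n := fun _ hz =>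
  (mem_ball.1 hz).trans (exp_le_exp.2 h)

/-- Multiples of a ball. -/
theorem preimage_ball {a : v.adicCompletion K} {m : ℤ} (ha : Valued.v a = exp m) (n : ℤ) :
    (a * ·) ⁻¹' (ball v n : Set (v.adicCompletion K)) = ball v (n - m) := by
  ext z
  show Valued.v (a * z) ≤ exp n ↔ Valued.v z ≤ exp (n - m)
  rw [map_mul, ha]
  constructor <;> intro h
  · calc Valued.v z = exp (-m) * (exp m * Valued.v z) := by
          rw [← mul_assoc, ← exp_add, neg_add_cancel, exp_zero, one_mul]
      _ ≤ exp (-m) * exp n := mul_le_mul' le_rfl h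
      _ = _ := by rw [← exp_add]; ring_nf
  · calc exp m * Valued.v z ≤ exp m * exp (n - m) := mul_le_mul' le_rfl h
      _ = _ := by rw [← exp_add]; ring_nf

theorem exists_valued_eq {a : v.adicCompletion K} (ha : a ≠ 0) : ∃ m : ℤ, Valued.v a = exp m :=
  ⟨log (Valued.v a), (exp_log ((Valuation.ne_zero_iff _).2 ha)).symm⟩

variable [MeasurableSpace (v.adicCompletion K)] [BorelSpace (v.adicCompletion K)]
  (μ : Measure (v.adicCompletion K)) [IsAddHaarMeasure μ]

/-- A ball is `N v` translates of the next. -/
theorem measure_ball_zero :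
    μ (ball v 0 : Set (v.adicCompletion K)) =
      (Ideal.absNorm v.asIdeal : ℕ) * μ (ball v (-1) : Set (v.adicCompletion K)) := by
  haveI : Fintype (𝓞 K ⧸ v.asIdeal) :=
    haveI := Ideal.finiteQuotientOfFreeOfNeBot v.asIdeal v.ne_bot
    Fintype.ofFinite _
  set r : 𝓞 K ⧸ v.asIdeal → v.adicCompletion K :=
    fun x => algebraMap K (v.adicCompletion K) ((Quotient.out x : 𝓞 K) : K)
  set B : 𝓞 K ⧸ v.asIdeal → Set (v.adicCompletion K) :=
    fun x => {z | z - r x ∈ ball v (-1)}
  have hU : (ball v 0 : Set (v.adicCompletion K)) = ⋃ x, B x := by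
    ext z
    rw [Set.mem_iUnion]
    constructor
    · intro hz
      obtain ⟨b, hb⟩ := exists_element_near v z 1
      have hb1 : v.valuation K (b : K) ≤ 1 := by
        rw [← valued_algebraMap v, ← sub_add_cancel (algebraMap K (v.adicCompletion K) (b : K)) z]
        refine Valuation.map_add_le _ (hb.trans ?_) (by simpa using mem_ball.1 hz)
        rw [← exp_zero, exp_le_exp]
        norm_num
      obtain ⟨r', hr'⟩ := exists_integer_near_any v 0 hb1
      refine ⟨Ideal.Quotient.mk v.asIdeal r', ?_⟩
      show Valued.v (z - r _) ≤ exp (-1 : ℤ)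
      rw [← sub_add_sub_cancel z (algebraMap K (v.adicCompletion K) (b : K))]
      refine Valuation.map_add_le _ (by rw [Valuation.map_sub_swap]; exact_mod_cast hb) ?_
      simp only [r]
      rw [← map_sub, valued_algebraMap, Valuation.map_sub_swap]
      refine (hr' _ ?_).trans_eq (by norm_num)
      rw [zero_add, pow_one, ← Ideal.Quotient.eq, Ideal.Quotient.mk_out]
    · rintro ⟨x, hx⟩
      show Valued.v z ≤ exp (0 : ℤ)
      have hx' : Valued.v (z - r x) ≤ exp (-1 : ℤ) := hx
      have h0 : (exp (-1 : ℤ) : WithZero (Multiplicative ℤ)) ≤ exp (0 : ℤ) :=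
        exp_le_exp.2 (by omega)
      have hr1 : Valued.v (r x) ≤ exp (0 : ℤ) := by
        rw [exp_zero]
        exact valued_integer_le_one v (Quotient.out x)
      have h2 := Valuation.map_add_le Valued.v (hx'.trans h0) hr1
      rwa [sub_add_cancel] at h2
  have hd : Pairwise (Function.onFun Disjoint B) := fun x y hxy => Set.disjoint_left.2 fun z hx hy => by
    refine hxy ?_
    rw [← Ideal.Quotient.mk_out x, ← Ideal.Quotient.mk_out y, Ideal.Quotient.eq]
    have h1 : Valued.v (r x - r y) ≤ exp (-1 : ℤ) := by
      rw [show r x - r y = (z - r y) - (z - r x) by ring]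
      have hx' : Valued.v (z - r x) ≤ exp (-1 : ℤ) := hx
      have hy' : Valued.v (z - r y) ≤ exp (-1 : ℤ) := hy
      exact Valuation.map_sub_le Valued.v hy' hx'
    simp only [r] at h1
    rw [← map_sub, valued_algebraMap] at h1
    have h2 := (v.intValuation_le_pow_iff_mem (Quotient.out x - Quotient.out y : 𝓞 K) 1).1
      (by rw [← v.valuation_of_algebraMap (K := K)]; push_cast; simpa using h1)
    rwa [pow_one] at h2
  have hB : ∀ x, μ (B x) = μ (ball v (-1) : Set (v.adicCompletion K)) := fun x => by
    rw [show B x = (fun z => -r x + z) ⁻¹' (ball v (-1) : Set (v.adicCompletion K)) from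
      Set.ext fun z => by show z - r x ∈ ball v (-1) ↔ -r x + z ∈ ball v (-1); rw [neg_add_eq_sub]]
    exact measure_preimage_add μ _ _
  rw [hU, measure_iUnion hd fun x => ((isOpen_ball' (-1)).preimage
      (continuous_id.sub continuous_const)).measurableSet, tsum_fintype,
    Finset.sum_congr rfl fun x _ => hB x, Finset.sum_const, nsmul_eq_mul, Finset.card_univ,
    ← Nat.card_eq_fintype_card]
  rfl

theorem map_mul_addHaar {a : v.adicCompletion K} (ha : a ≠ 0) :
    ∃ c : ℝ≥0∞, Measure.map (a * ·) μ = c • μ := by
  haveI := secondCountable_adicCompletion v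
  haveI := locallyCompact_adicCompletion v
  let e : v.adicCompletion K ≃+ v.adicCompletion K :=
    { Equiv.mulLeft₀ a ha with map_add' := mul_add a }
  haveI : IsAddHaarMeasure (Measure.map (a * ·) μ) :=
    e.isAddHaarMeasure_map μ (continuous_const_mul a) (continuous_const_mul a⁻¹)
  exact ⟨_, isAddLeftInvariant_eq_smul (Measure.map (a * ·) μ) μ⟩

theorem measure_ball_pos (n : ℤ) : 0 < μ (ball v n : Set (v.adicCompletion K)) :=
  (isOpen_ball' n).measure_pos μ ⟨0, zero_mem _⟩

theorem measure_ball_lt_top (n : ℤ) : μ (ball v n : Set (v.adicCompletion K)) < ⊤ :=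
  (isCompact_ball v n).measure_lt_top

/-- **The measure of a ball.** -/
theorem measure_ball (n : ℤ) :
    μ (ball v n : Set (v.adicCompletion K)) =
      ENNReal.ofReal (qv v ^ n) * μ (ball v 0 : Set (v.adicCompletion K)) := by
  obtain ⟨c, hc⟩ := map_mul_addHaar μ (pi₀ v).ne_zero
  have hstep : ∀ k : ℤ, μ (ball v (k + 1) : Set (v.adicCompletion K)) =
      c * μ (ball v k : Set (v.adicCompletion K)) := fun k => by
    have h := congrArg (fun m : Measure (v.adicCompletion K) => m (ball v k : Set _)) hc
    rw [Measure.map_apply (continuous_const_mul _).measurable (isOpen_ball' k).measurableSet,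
      preimage_ball (valued_pi₀ v), sub_neg_eq_add, Measure.smul_apply, smul_eq_mul] at h
    exact h
  have hcq : c = ENNReal.ofReal (qv v) := by
    have h1 := hstep (-1)
    rw [neg_add_cancel, measure_ball_zero] at h1
    rw [qv, ENNReal.ofReal_natCast]
    exact ((ENNReal.mul_left_inj (measure_ball_pos μ _).ne' (measure_ball_lt_top μ _).ne).1 h1).symm
  induction n using Int.induction_on with
  | zero => rw [zpow_zero, ENNReal.ofReal_one, one_mul]
  | succ k ih =>
    rw [hstep, ih, hcq, zpow_add_one₀ (qv_ne_zero v), ← mul_assoc,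
      ← ENNReal.ofReal_mul (qv_pos v).le, mul_comm (qv v)]
  | pred k ih =>
    have h1 := hstep (-(k : ℤ) - 1)
    rw [sub_add_cancel, ih, hcq] at h1
    refine (ENNReal.mul_right_inj (ENNReal.ofReal_pos.2 (qv_pos v)).ne' ENNReal.ofReal_ne_top).1 ?_
    rw [← h1, ← mul_assoc, ← ENNReal.ofReal_mul (qv_pos v).le, zpow_sub_one₀ (qv_ne_zero v)]
    congr 2
    field_simp [qv_ne_zero v]

theorem measureReal_ball (n : ℤ) : μ.real (ball v n : Set (v.adicCompletion K)) =
    qv v ^ n * μ.real (ball v 0 : Set (v.adicCompletion K)) := by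
  rw [measureReal_def, measure_ball, ENNReal.toReal_mul,
    ENNReal.toReal_ofReal (zpow_nonneg (qv_pos v).le _), measureReal_def]

/-- **The absolute value is the modulus.** -/
theorem isScale_norm : IsScale μ (fun y : v.adicCompletion K => ‖y‖) where
  meas := continuous_norm.measurable
  zero := norm_zero
  pos y hy := norm_pos_iff.2 hy
  mul := norm_mul
  null := by
    haveI := (measure_ball_lt_top μ 0).ne
    refine le_antisymm (ge_of_tendsto' (x := atTop) (f := fun k : ℕ =>
      μ (ball v (-(k : ℤ)) : Set (v.adicCompletion K))) ?_ fun k => measure_mono ?_) zero_le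
    · rw [show (fun k : ℕ => μ (ball v (-(k : ℤ)) : Set (v.adicCompletion K))) = fun k : ℕ =>
          ENNReal.ofReal ((qv v ^ k)⁻¹) * μ (ball v 0 : Set (v.adicCompletion K)) from
        funext fun k => by rw [measure_ball, zpow_neg, zpow_natCast]]
      rw [show (0 : ℝ≥0∞) = ENNReal.ofReal 0 * μ (ball v 0 : Set (v.adicCompletion K)) by simp]
      refine ENNReal.Tendsto.mul_const (ENNReal.tendsto_ofReal ?_) (Or.inr this)
      exact tendsto_inv_atTop_zero.comp (tendsto_pow_atTop_atTop_of_one_lt (one_lt_qv v))
    · exact fun z hz => by rw [Set.mem_singleton_iff.1 hz]; exact zero_mem _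
  map a ha := by
    obtain ⟨m, hm⟩ := exists_valued_eq ha
    obtain ⟨c, hc⟩ := map_mul_addHaar μ ha
    rw [hc]
    congr 1
    have h := congrArg (fun m : Measure (v.adicCompletion K) => m (ball v 0 : Set _)) hc
    rw [Measure.map_apply (continuous_const_mul _).measurable (isOpen_ball' 0).measurableSet,
      preimage_ball hm, zero_sub, measure_ball, Measure.smul_apply, smul_eq_mul] at h
    rw [norm_eq_zpow_of_valued v hm, ← zpow_neg]
    exact ((ENNReal.mul_left_inj (measure_ball_pos μ _).ne' (measure_ball_lt_top μ _).ne).1 h).symm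

end FA.TateLocal

end
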