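import Fermat.Agent.TateLocal.LocalBall
import Fermat.Agent.IdeleClass.Characters

/-!
# Schwartz-Bruhat functions and characters of a completion at a prime

Locally constant functions of compact support are test functions, their transforms for the standard
character are of the same kind and inversion holds; a continuous character has a conductor.
-/

set_option autoImplicit false
set_option linter.unusedSectionVars false
set_option linter.style.haveILetI false

noncomputable section

open NumberField IsDedekindDomain MeasureTheory MeasureTheory.Measure Filter Topology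
open WithZero
open FA.AdeleDual FA.Ideles FA.IdeleClass FA.TateThesis
open FA.ArtinRec (ordI unif)
open FA.QuadFormsNF (valued_algebraMap exists_exp_subset)
open scoped Classical ComplexConjugate ENNReal NNReal

set_option maxHeartbeats 400000

namespace FA.TateLocal

universe u

variable {K : Type u} [Field K] [NumberField K] (v : HeightOneSpectrum (𝓞 K))

/-- The exponent of the different. -/
def diffExp : ℕ := ordI v (diffI K).1

/-- The kernel of the local transform, the conjugate of the standard character. -/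
def kerV (y : v.adicCompletion K) : ℂ := conj ((finChar v y : Circle) : ℂ)

theorem norm_kerV (y : v.adicCompletion K) : ‖kerV v y‖ = 1 := by
  rw [kerV, RCLike.norm_conj, Circle.norm_coe]

theorem kerV_add (x y : v.adicCompletion K) : kerV v (x + y) = kerV v x * kerV v y := by
  rw [kerV, kerV, kerV, AddChar.map_add_eq_mul, Circle.coe_mul, map_mul]

theorem continuous_kerV : Continuous (kerV v) :=
  Complex.continuous_conj.comp (continuous_subtype_val.comp (continuous_finChar v))

theorem measurable_kerV [MeasurableSpace (v.adicCompletion K)] [BorelSpace (v.adicCompletion K)] :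
    Measurable (kerV v) := (continuous_kerV v).measurable

variable {v}

theorem singleFin_mul (z : v.adicCompletion K) (u : FiniteAdeleRing (𝓞 K) K) :
    singleFin v z * u = singleFin v (z * u v) :=
  FiniteAdeleRing.ext _ fun w => by
    show singleFin v z w * u w = singleFin v (z * u v) w
    rcases eq_or_ne w v with rfl | hwv
    · rw [singleFin_self, singleFin_self]
    · rw [singleFin_of_ne hwv, singleFin_of_ne hwv, zero_mul]

/-- **The annihilator of the integers.** -/
theorem finChar_trivial_iff (z : v.adicCompletion K) :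
    (∀ u ∈ ball v 0, finChar v (z * u) = 1) ↔ Valued.v z ≤ exp (diffExp v : ℤ) := by
  have h1 : (∀ u ∈ ball v 0, finChar v (z * u) = 1) ↔ InTraceDual (singleFin v z) := by
    constructor
    · intro h u hu
      rw [singleFin_mul, ← finChar_apply]
      exact h _ (mem_ball.2 (by rw [exp_zero]; exact mem_finInt.1 hu v))
    · intro h u hu
      have hu' : Valued.v u ≤ 1 := by simpa using mem_ball.1 hu
      have h2 := h (singleFin v u) (singleFin_mem hu')
      rwa [singleFin_mul, singleFin_self, ← finChar_apply] at h2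
  rw [h1, inTraceDual_iff]
  refine ⟨fun h => by simpa [diffExp, singleFin_self] using h v, fun h w => ?_⟩
  rcases eq_or_ne w v with rfl | hwv
  · rw [singleFin_self]; exact h
  · rw [singleFin_of_ne hwv, map_zero]; exact zero_le

theorem kerV_eq_one {z : v.adicCompletion K} (hz : Valued.v z ≤ exp (diffExp v : ℤ)) :
    kerV v z = 1 := by
  have h := (finChar_trivial_iff z).2 hz 1 (mem_ball.2 (by rw [exp_zero, map_one]))
  rw [mul_one] at h
  rw [kerV, h, Circle.coe_one, map_one]

theorem exists_kerV_ne_one {z : v.adicCompletion K} (hz : ¬Valued.v z ≤ exp (diffExp v : ℤ)) :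
    ∃ u ∈ ball v 0, kerV v (z * u) ≠ 1 := by
  rw [← finChar_trivial_iff] at hz
  push Not at hz
  obtain ⟨u, hu, hne⟩ := hz
  refine ⟨u, hu, fun e => hne (Circle.ext ?_)⟩
  rw [Circle.coe_one]
  simpa [kerV] using congrArg (starRingEnd ℂ) e

theorem mul_ball {a b : v.adicCompletion K} {m n : ℤ} (ha : a ∈ ball v m) (hb : b ∈ ball v n) :
    a * b ∈ ball v (m + n) := by
  have ha' : Valued.v a ≤ exp m := ha
  have hb' : Valued.v b ≤ exp n := hb
  show Valued.v (a * b) ≤ exp (m + n)
  rw [map_mul, exp_add]
  exact mul_le_mul' ha' hb'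

/-- A character nontrivial on a ball. -/
theorem exists_kerV_mul_ne_one {w : v.adicCompletion K} {m : ℤ}
    (hw : w ∉ ball v (diffExp v - m : ℤ)) : ∃ b ∈ ball v m, kerV v (b * w) ≠ 1 := by
  set c : v.adicCompletion K := ((pi₀ v ^ (-m) : (v.adicCompletion K)ˣ) : v.adicCompletion K)
  have hc : Valued.v c = exp m := by rw [valued_pi₀_zpow, neg_neg]
  obtain ⟨u, hu, hne⟩ := exists_kerV_ne_one (z := c * w) fun hle => hw (by
    show Valued.v w ≤ exp ((diffExp v : ℤ) - m)
    rw [map_mul, hc] at hle
    calc Valued.v w = exp (-m) * (exp m * Valued.v w) := by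
          rw [← mul_assoc, ← exp_add, neg_add_cancel, exp_zero, one_mul]
      _ ≤ exp (-m) * exp (diffExp v : ℤ) := mul_le_mul' le_rfl hle
      _ = _ := by rw [← exp_add]; ring_nf)
  refine ⟨c * u, ?_, by rwa [mul_right_comm]⟩
  have h := mul_ball (show c ∈ ball v m from hc.le) hu
  rwa [add_zero] at h

/-! ### The test functions -/

/-- Locally constant of compact support. -/
def IsBruhat (f : v.adicCompletion K → ℂ) : Prop := IsLocallyConstant f ∧ HasCompactSupport f

/-- **Support in a ball, constant on the translates of a ball.** -/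
theorem IsBruhat.exists_level {f : v.adicCompletion K → ℂ} (hf : IsBruhat f) :
    ∃ n : ℕ, (∀ y, f y ≠ 0 → y ∈ ball v n) ∧
      ∀ y, ∀ z ∈ ball v (-(n : ℤ)), f (y + z) = f y := by
  obtain ⟨N, hN⟩ := hf.2.isCompact.elim_directed_cover
    (fun n : ℕ => (ball v n : Set (v.adicCompletion K))) (fun n => isOpen_ball' _)
    (fun y _ => Set.mem_iUnion.2 (exists_mem_ball v y))
    (directed_of_isDirected_le fun i j hij => ball_mono (Int.ofNat_le.2 hij))
  have hk : ∀ y, ∃ k : ℕ, ∀ x, x - y ∈ ball v (-(k : ℤ)) → f x = f y := fun y => by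
    obtain ⟨k, hk⟩ := exists_exp_subset v ((hf.1.isOpen_fiber (f y)).mem_nhds (rfl : f y = f y))
    exact ⟨k, fun x hx => hk x hx⟩
  choose k hk using hk
  obtain ⟨t, ht⟩ := (isCompact_ball v (N : ℤ)).elim_finite_subcover
    (fun y : v.adicCompletion K => {x | x - y ∈ ball v (-(k y : ℤ))})
    (fun y => (isOpen_ball' _).preimage (continuous_id.sub continuous_const))
    (fun y _ => Set.mem_iUnion.2 ⟨y, by
      show y - y ∈ ball v (-(k y : ℤ))
      rw [sub_self]
      exact zero_mem _⟩)
  set n := max N (t.sup k)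
  have hsupp : ∀ y, f y ≠ 0 → y ∈ ball v n := fun y hy =>
    ball_mono (Int.ofNat_le.2 (le_max_left _ _)) (hN (subset_tsupport f hy))
  refine ⟨n, hsupp, fun y z hz => ?_⟩
  have hzn : z ∈ ball v (n : ℤ) := ball_mono (by omega) hz
  by_cases hy : y ∈ ball v (N : ℤ) ∨ y + z ∈ ball v (N : ℤ)
  · have key : ∀ a : v.adicCompletion K, a ∈ ball v (N : ℤ) → ∀ w ∈ ball v (-(n : ℤ)),
        f (a + w) = f a := fun a ha w hw => by
      obtain ⟨c, hc, hac⟩ : ∃ c ∈ t, a - c ∈ ball v (-(k c : ℤ)) := by simpa using ht ha
      have hw' : w ∈ ball v (-(k c : ℤ)) := ball_mono (by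
        have := Finset.le_sup (f := k) hc
        have := le_max_right N (t.sup k)
        omega) hw
      rw [hk c a hac, hk c (a + w) (by rw [add_sub_right_comm]; exact add_mem hac hw')]
    rcases hy with hy | hy
    · exact key y hy z hz
    · have h := key _ hy (-z) (neg_mem hz)
      rwa [add_neg_cancel_right, eq_comm] at h
  · push Not at hy
    rw [not_not.1 fun h => hy.1 (hN (subset_tsupport f h)),
      not_not.1 fun h => hy.2 (hN (subset_tsupport f h))]

theorem isBruhat_of_level {f : v.adicCompletion K → ℂ} {m k : ℤ}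
    (hsupp : ∀ y, f y ≠ 0 → y ∈ ball v m) (hinv : ∀ y, ∀ z ∈ ball v k, f (y + z) = f y) :
    IsBruhat f := by
  refine ⟨(IsLocallyConstant.iff_exists_open f).2 fun y =>
    ⟨{x | x - y ∈ ball v k}, (isOpen_ball' k).preimage (continuous_id.sub continuous_const),
      by show y - y ∈ ball v k; rw [sub_self]; exact zero_mem _,
      fun x hx => by rw [← hinv y (x - y) hx, add_sub_cancel]⟩,
    HasCompactSupport.intro (isCompact_ball v m) fun y hy => not_not.1 fun h => hy (hsupp y h)⟩

variable [MeasurableSpace (v.adicCompletion K)] [BorelSpace (v.adicCompletion K)]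
  (μ : Measure (v.adicCompletion K)) [IsAddHaarMeasure μ]

/-- **The powers are integrable near zero.** -/
theorem integrableOn_ball_rpow {σ : ℝ} (hσ : 0 < σ) (n : ℤ) :
    IntegrableOn (fun y : v.adicCompletion K => ‖y‖ ^ (σ - 1)) (ball v n) μ := by
  haveI := secondCountable_adicCompletion v
  refine ⟨(measurable_norm.pow_const _).aestronglyMeasurable, ?_⟩
  rw [hasFiniteIntegral_iff_enorm]
  set S : ℕ → Set (v.adicCompletion K) := fun k =>
    (ball v (n - k) : Set _) \ (ball v (n - k - 1) : Set _)
  have hval : ∀ k, ∀ y ∈ S k, Valued.v y = exp (n - k) := fun k y hy => by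
    have h1 : Valued.v y ≤ exp (n - (k : ℤ)) := hy.1
    have h2 : ¬Valued.v y ≤ exp (n - (k : ℤ) - 1) := hy.2
    obtain ⟨j, hj⟩ := exists_valued_eq (a := y) (fun h0 => h2 (by simp [h0]))
    rw [hj, exp_le_exp] at h1 h2
    rw [hj]
    congr 1
    omega
  have hcov : (ball v n : Set (v.adicCompletion K)) ⊆ {0} ∪ ⋃ k, S k := fun y hy => by
    rcases eq_or_ne y 0 with h0 | h0
    · exact Or.inl h0
    obtain ⟨j, hj⟩ := exists_valued_eq h0
    have h1 : Valued.v y ≤ exp n := hy
    rw [hj, exp_le_exp] at h1
    refine Or.inr (Set.mem_iUnion.2 ⟨(n - j).toNat, ?_, ?_⟩)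
    · show Valued.v y ≤ exp (n - ((n - j).toNat : ℤ))
      rw [hj, exp_le_exp]; omega
    · show ¬Valued.v y ≤ exp (n - ((n - j).toNat : ℤ) - 1)
      rw [hj, exp_le_exp]; omega
  refine lt_of_le_of_lt ((lintegral_mono_set hcov).trans ((lintegral_union_le _ _ _).trans
    (add_le_add le_rfl (lintegral_iUnion_le _ _)))) ?_
  rw [setLIntegral_measure_zero _ _ (isScale_norm μ).null, zero_add]
  set B : ℝ≥0∞ := μ (ball v 0 : Set (v.adicCompletion K))
  refine lt_of_le_of_lt (ENNReal.tsum_le_tsum
    (g := fun k => ENNReal.ofReal (qv v ^ ((n : ℝ) * σ)) * B *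
      ENNReal.ofReal (qv v ^ (-σ)) ^ k) fun k => ?_) ?_
  · have hm : MeasurableSet (S k) :=
      (isOpen_ball' _).measurableSet.diff (isOpen_ball' _).measurableSet
    rw [setLIntegral_congr_fun hm fun y hy => show ‖‖y‖ ^ (σ - 1)‖ₑ =
        ENNReal.ofReal ((qv v ^ (n - (k : ℤ))) ^ (σ - 1)) by
      rw [norm_eq_zpow_of_valued v (hval k y hy), Real.enorm_eq_ofReal
        (Real.rpow_nonneg (zpow_nonneg (qv_pos v).le _) _)], setLIntegral_const]
    refine (mul_le_mul' le_rfl (measure_mono Set.diff_subset)).trans (le_of_eq ?_)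
    rw [measure_ball, ← mul_assoc, ← ENNReal.ofReal_mul (Real.rpow_nonneg
      (zpow_nonneg (qv_pos v).le _) _), ← ENNReal.ofReal_pow (Real.rpow_nonneg (qv_pos v).le _),
      mul_right_comm, ← ENNReal.ofReal_mul (Real.rpow_nonneg (qv_pos v).le _)]
    congr 2
    rw [← Real.rpow_intCast, ← Real.rpow_mul (qv_pos v).le, ← Real.rpow_add (qv_pos v),
      ← Real.rpow_natCast, ← Real.rpow_mul (qv_pos v).le, ← Real.rpow_add (qv_pos v)]
    congr 1
    push_cast
    ring
  · rw [ENNReal.tsum_mul_left]
    refine ENNReal.mul_lt_top (ENNReal.mul_lt_top ENNReal.ofReal_lt_top (measure_ball_lt_top μ 0)) ?_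
    rw [ENNReal.tsum_geometric]
    refine ENNReal.inv_lt_top.2 (tsub_pos_iff_lt.2 (ENNReal.ofReal_lt_one.2 ?_))
    exact Real.rpow_lt_one_of_one_lt_of_neg (one_lt_qv v) (by linarith)

theorem IsBruhat.isTestFn {f : v.adicCompletion K → ℂ} (hf : IsBruhat f) :
    IsTestFn μ (fun y : v.adicCompletion K => ‖y‖) f := by
  haveI := secondCountable_adicCompletion v
  have hc : Continuous f := hf.1.continuous
  obtain ⟨n, hn, -⟩ := hf.exists_level
  obtain ⟨C, hC⟩ := hc.bounded_above_of_compact_support hf.2
  refine ⟨hc.stronglyMeasurable, hc.integrable_of_hasCompactSupport hf.2, fun σ hσ => ?_⟩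
  refine (((integrableOn_ball_rpow μ hσ n).integrable_indicator
    (isOpen_ball' _).measurableSet).const_mul C).mono'
    (hc.norm.measurable.mul (measurable_norm.pow_const _)).aestronglyMeasurable
    (Eventually.of_forall fun y => ?_)
  show ‖‖f y‖ * ‖y‖ ^ (σ - 1)‖ ≤ C * _
  rw [Real.norm_of_nonneg (mul_nonneg (norm_nonneg _) (Real.rpow_nonneg (norm_nonneg _) _))]
  by_cases hy : y ∈ (ball v n : Set (v.adicCompletion K))
  · rw [Set.indicator_of_mem hy]
    exact mul_le_mul_of_nonneg_right (hC y) (Real.rpow_nonneg (norm_nonneg _) _)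
  · rw [Set.indicator_of_notMem hy, show f y = 0 from not_not.1 fun h => hy (hn y h)]
    simp

/-- Translation by an element in the integral against the kernel. -/
theorem fourierLoc_shift (f : v.adicCompletion K → ℂ) {z : v.adicCompletion K}
    (hz : ∀ y, f (y + z) = f y) (b : v.adicCompletion K) :
    fourierLoc μ (kerV v) f b = kerV v (b * z) * fourierLoc μ (kerV v) f b := by
  conv_lhs => rw [fourierLoc, ← integral_add_right_eq_self _ z]
  rw [fourierLoc, ← integral_const_mul]
  refine integral_congr_ae (Eventually.of_forall fun y => ?_)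
  show f (y + z) * kerV v (b * (y + z)) = kerV v (b * z) * (f y * kerV v (b * y))
  rw [hz, mul_add, kerV_add]
  ring

/-- **The transform.** -/
theorem IsBruhat.fourier {f : v.adicCompletion K → ℂ} (hf : IsBruhat f) :
    IsBruhat (fourierLoc μ (kerV v) f) := by
  obtain ⟨n, hn, hinv⟩ := hf.exists_level
  refine isBruhat_of_level (m := (n : ℤ) + diffExp v) (k := (diffExp v : ℤ) - n) (fun b hb => ?_)
    fun b e he => ?_
  · by_contra hb'
    obtain ⟨z, hz, hne⟩ := exists_kerV_mul_ne_one (w := b) (m := -(n : ℤ))
      (by rwa [sub_neg_eq_add, add_comm])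
    rw [mul_comm] at hne
    have h := fourierLoc_shift μ f (fun y => hinv y z hz) b
    exact hne ((mul_eq_right₀ hb).1 h.symm)
  · refine integral_congr_ae (Eventually.of_forall fun y => ?_)
    show f y * kerV v ((b + e) * y) = f y * kerV v (b * y)
    rcases eq_or_ne (f y) 0 with h0 | h0
    · rw [h0, zero_mul, zero_mul]
    · have h1 := mul_ball he (hn y h0)
      rw [sub_add_cancel] at h1
      rw [add_mul, kerV_add, kerV_eq_one (z := e * y) h1, mul_one]

/-- The integral of the kernel over a ball. -/
theorem integral_ball_kerV (m : ℤ) (w : v.adicCompletion K) :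
    ∫ b in (ball v m : Set (v.adicCompletion K)), kerV v (b * w) ∂μ =
      if w ∈ ball v ((diffExp v : ℤ) - m) then ((μ.real (ball v m : Set (v.adicCompletion K)) : ℝ) : ℂ)
      else 0 := by
  split_ifs with hw
  · rw [setIntegral_congr_fun (isOpen_ball' m).measurableSet fun b hb =>
      show kerV v (b * w) = 1 from kerV_eq_one (by
        have h := mul_ball (show b ∈ ball v m from hb) hw
        rwa [add_sub_cancel] at h), setIntegral_const, Complex.real_smul, mul_one]
  · obtain ⟨z, hz, hne⟩ := exists_kerV_mul_ne_one hw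
    set g : v.adicCompletion K → ℂ := (ball v m : Set (v.adicCompletion K)).indicator 1
    have hg : ∫ b in (ball v m : Set (v.adicCompletion K)), kerV v (b * w) ∂μ =
        fourierLoc μ (kerV v) g w := by
      rw [fourierLoc, ← integral_indicator (isOpen_ball' m).measurableSet]
      refine integral_congr_ae (Eventually.of_forall fun b => ?_)
      by_cases hb : b ∈ (ball v m : Set (v.adicCompletion K)) <;>
        simp [g, Set.indicator_of_mem, Set.indicator_of_notMem, hb, mul_comm]
    have hs : ∀ y, g (y + z) = g y := fun y => by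
      show Set.indicator _ _ _ = Set.indicator _ _ _
      simp only [Set.indicator, SetLike.mem_coe, AddSubgroup.add_mem_cancel_right _ hz, Pi.one_apply]
    rw [hg]
    by_contra h0
    rw [mul_comm] at hne
    exact hne ((mul_eq_right₀ h0).1 (fourierLoc_shift μ g hs w).symm)

/-- **Fourier inversion.** -/
theorem fourier_inversion_loc {f : v.adicCompletion K → ℂ} (hf : IsBruhat f)
    (x : v.adicCompletion K) :
    fourierLoc μ (kerV v) (fourierLoc μ (kerV v) f) x =
      ((μ.real (ball v 0 : Set (v.adicCompletion K)) ^ 2 * qv v ^ (diffExp v : ℤ) : ℝ) : ℂ) *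
        f (-x) := by
  haveI := secondCountable_adicCompletion v
  haveI := locallyCompact_adicCompletion v
  obtain ⟨n, hn, hinv⟩ := hf.exists_level
  set m : ℤ := (n : ℤ) + diffExp v
  set S : Set (v.adicCompletion K) := (ball v m : Set (v.adicCompletion K))
  have hS : MeasurableSet S := (isOpen_ball' m).measurableSet
  have hsupp : ∀ b, b ∉ S → fourierLoc μ (kerV v) f b = 0 := fun b hb => by
    obtain ⟨z, hz, hne⟩ := exists_kerV_mul_ne_one (w := b) (m := -(n : ℤ))
      (by rw [sub_neg_eq_add, add_comm]; exact hb)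
    rw [mul_comm] at hne
    by_contra h0
    exact hne ((mul_eq_right₀ h0).1 (fourierLoc_shift μ f (fun y => hinv y z hz) b).symm)
  have hfi : Integrable f μ := (hf.isTestFn μ).int
  have hint : Integrable (fun p : v.adicCompletion K × v.adicCompletion K =>
      f p.2 * kerV v (p.1 * p.2) * kerV v (x * p.1)) ((μ.restrict S).prod μ) := by
    haveI : IsFiniteMeasure (μ.restrict S) :=
      isFiniteMeasure_restrict.2 (measure_ball_lt_top μ m).ne
    have h1 : Integrable (fun p : v.adicCompletion K × v.adicCompletion K => (1 : ℂ) * f p.2)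
        ((μ.restrict S).prod μ) := (integrable_const (1 : ℂ)).mul_prod hfi
    refine h1.norm.mono' ((((hf.1.continuous.comp continuous_snd).mul ((continuous_kerV v).comp
      (continuous_fst.mul continuous_snd))).mul ((continuous_kerV v).comp
        (continuous_const.mul continuous_fst))).aestronglyMeasurable)
      (Eventually.of_forall fun p => ?_)
    rw [norm_mul, norm_mul, norm_kerV, norm_kerV, mul_one, mul_one, one_mul]
  calc fourierLoc μ (kerV v) (fourierLoc μ (kerV v) f) x
      = ∫ b in S, ∫ y, f y * kerV v (b * y) * kerV v (x * b) ∂μ ∂μ := by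
        rw [fourierLoc, ← setIntegral_eq_integral_of_forall_compl_eq_zero
          (fun b hb => by rw [hsupp b hb, zero_mul]) (s := S)]
        exact setIntegral_congr_fun hS fun b _ => (integral_mul_const _ _).symm
    _ = ∫ y, ∫ b in S, f y * kerV v (b * y) * kerV v (x * b) ∂μ ∂μ := integral_integral_swap hint
    _ = ∫ y, ({y | x + y ∈ ball v (-(n : ℤ))} : Set (v.adicCompletion K)).indicator
          (fun _ => f (-x) * ((μ.real S : ℝ) : ℂ)) y ∂μ := by
        refine integral_congr_ae (Eventually.of_forall fun y => ?_)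
        show ∫ b in S, f y * kerV v (b * y) * kerV v (x * b) ∂μ = _
        rw [setIntegral_congr_fun hS fun b _ => show f y * kerV v (b * y) * kerV v (x * b) =
          f y * kerV v (b * (x + y)) by rw [mul_add, kerV_add, mul_comm x b]; ring,
          integral_const_mul, integral_ball_kerV, show (diffExp v : ℤ) - m = -(n : ℤ) by simp [m]]
        split_ifs with h
        · rw [Set.indicator_of_mem (show y ∈ {y | x + y ∈ ball v (-(n : ℤ))} from h)]
          have h2 := hinv (-x) _ h
          rw [neg_add_cancel_left] at h2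
          rw [h2]
        · rw [Set.indicator_of_notMem (show y ∉ {y | x + y ∈ ball v (-(n : ℤ))} from h), mul_zero]
    _ = _ := by
        have hm : MeasurableSet {y | x + y ∈ ball v (-(n : ℤ))} :=
          ((isOpen_ball' _).preimage (continuous_const.add continuous_id)).measurableSet
        have hμ : μ.real {y | x + y ∈ ball v (-(n : ℤ))} =
            μ.real (ball v (-(n : ℤ)) : Set (v.adicCompletion K)) := by
          rw [measureReal_def, measureReal_def]
          exact congrArg ENNReal.toReal (measure_preimage_add μ x _)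
        rw [integral_indicator_const _ hm, hμ, Complex.real_smul, measureReal_ball μ (-(n : ℤ)),
          show μ.real S = qv v ^ m * μ.real (ball v 0 : Set (v.adicCompletion K)) from
            measureReal_ball μ m]
        simp only [m, zpow_add₀ (qv_ne_zero v), zpow_neg]
        push_cast
        field_simp [Complex.ofReal_ne_zero.2 (qv_ne_zero v)]

/-! ### The characters -/

omit [MeasurableSpace (v.adicCompletion K)] [BorelSpace (v.adicCompletion K)] in
/-- A continuous unitary character of a completion. -/
structure IsLocChar (χ : (v.adicCompletion K)ˣ →* ℂˣ) : Prop where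
  cont : Continuous χ
  norm_eq : ∀ x, ‖((χ x : ℂˣ) : ℂ)‖ = 1

/-- The character extended by zero. -/
def extChar (χ : (v.adicCompletion K)ˣ →* ℂˣ) (y : v.adicCompletion K) : ℂ :=
  if h : y = 0 then 0 else ((χ (Units.mk0 y h) : ℂˣ) : ℂ)

theorem extChar_units (χ : (v.adicCompletion K)ˣ →* ℂˣ) (z : (v.adicCompletion K)ˣ) :
    extChar χ (z : v.adicCompletion K) = ((χ z : ℂˣ) : ℂ) := by
  rw [extChar, dif_neg z.ne_zero, Units.mk0_val]

theorem extChar_zero (χ : (v.adicCompletion K)ˣ →* ℂˣ) : extChar χ (0 : v.adicCompletion K) = 0 :=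
  dif_pos rfl

theorem extChar_mul (χ : (v.adicCompletion K)ˣ →* ℂˣ) (x y : v.adicCompletion K) :
    extChar χ (x * y) = extChar χ x * extChar χ y := by
  rcases eq_or_ne x 0 with rfl | hx
  · rw [zero_mul, extChar_zero, zero_mul]
  rcases eq_or_ne y 0 with rfl | hy
  · rw [mul_zero, extChar_zero, mul_zero]
  rw [show x * y = ((Units.mk0 x hx * Units.mk0 y hy : (v.adicCompletion K)ˣ) : v.adicCompletion K)
    from rfl, extChar_units, map_mul, Units.val_mul, ← extChar_units, ← extChar_units]
  rfl

theorem continuousOn_extChar {χ : (v.adicCompletion K)ˣ →* ℂˣ} (hχ : Continuous χ) :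
    ContinuousOn (extChar χ) {(0 : v.adicCompletion K)}ᶜ := by
  rw [continuousOn_iff_continuous_domRestrict]
  have h : Set.domRestrict {(0 : v.adicCompletion K)}ᶜ (extChar χ) =
      fun y : ↥({(0 : v.adicCompletion K)}ᶜ : Set (v.adicCompletion K)) =>
        ((χ (Units.mk0 y.1 y.2) : ℂˣ) : ℂ) := funext fun y => dif_neg y.2
  rw [h]
  refine Units.continuous_val.comp (hχ.comp ?_)
  exact (Units.isEmbedding_val₀.continuous_iff).2 continuous_subtype_val

theorem IsLocChar.isUnitChar {χ : (v.adicCompletion K)ˣ →* ℂˣ} (hχ : IsLocChar χ) :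
    IsUnitChar (extChar χ) := by
  haveI := secondCountable_adicCompletion v
  exact ⟨measurable_of_continuousOn_compl_singleton 0 (continuousOn_extChar hχ.cont),
    fun y hy => by rw [show y = (Units.mk0 y hy : v.adicCompletion K) from rfl, extChar_units,
      hχ.norm_eq], fun x y _ _ => extChar_mul χ x y⟩

omit [MeasurableSpace (v.adicCompletion K)] [BorelSpace (v.adicCompletion K)] in
/-- Trivial on the units congruent to `1` to the power `n`. -/
def LocTriv (χ : (v.adicCompletion K)ˣ →* ℂˣ) (n : ℕ) : Prop :=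
  ∀ z : (v.adicCompletion K)ˣ, Valued.v (z : v.adicCompletion K) = 1 →
    Valued.v ((z : v.adicCompletion K) - 1) ≤ exp (-(n : ℤ)) → χ z = 1

omit [MeasurableSpace (v.adicCompletion K)] [BorelSpace (v.adicCompletion K)] in
/-- The exponent of the conductor. -/
def locCond (χ : (v.adicCompletion K)ˣ →* ℂˣ) : ℕ := sInf {n | LocTriv χ n}

theorem exists_locTriv {χ : (v.adicCompletion K)ˣ →* ℂˣ} (hχ : Continuous χ) :
    ∃ n, LocTriv χ n := by
  have h1 : {y : v.adicCompletion K | y ≠ 0 ∧ ‖extChar χ y - 1‖ < 1 / 2} ∈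
      𝓝 (1 : v.adicCompletion K) := by
    refine inter_mem (isOpen_compl_singleton.mem_nhds one_ne_zero) ?_
    have hc : ContinuousAt (extChar χ) (1 : v.adicCompletion K) :=
      (continuousOn_extChar hχ).continuousAt (isOpen_compl_singleton.mem_nhds one_ne_zero)
    refine (hc.sub continuousAt_const).norm (isOpen_Iio.mem_nhds ?_)
    show ‖extChar χ (1 : v.adicCompletion K) - 1‖ < 1 / 2
    rw [show (1 : v.adicCompletion K) = ((1 : (v.adicCompletion K)ˣ) : v.adicCompletion K) from rfl,
      extChar_units, map_one, Units.val_one, sub_self, norm_zero]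
    norm_num
  obtain ⟨k, hk⟩ := exists_exp_subset v h1
  let H : Subgroup (v.adicCompletion K)ˣ :=
    { carrier := {z | Valued.v (z : v.adicCompletion K) = 1 ∧
        Valued.v ((z : v.adicCompletion K) - 1) ≤ exp (-(k : ℤ))}
      one_mem' := by simp
      mul_mem' := fun {a b} ha hb => ⟨by rw [Units.val_mul, map_mul, ha.1, hb.1, one_mul], by
        rw [Units.val_mul, show (a : v.adicCompletion K) * b - 1 =
          a * ((b : v.adicCompletion K) - 1) + ((a : v.adicCompletion K) - 1) by ring]
        exact Valuation.map_add_le _ (by rw [map_mul, ha.1, one_mul]; exact hb.2) ha.2⟩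
      inv_mem' := fun {a} ha => ⟨by rw [Units.val_inv_eq_inv_val, map_inv₀, ha.1, inv_one], by
        rw [Units.val_inv_eq_inv_val, show (a : v.adicCompletion K)⁻¹ - 1 =
          -((a : v.adicCompletion K)⁻¹ * ((a : v.adicCompletion K) - 1)) by
            field_simp [a.ne_zero]; ring, Valuation.map_neg, map_mul, map_inv₀, ha.1, inv_one, one_mul]
        exact ha.2⟩ }
  refine ⟨k, fun z hz hz1 => eq_one_of_image_near χ (S := H) (fun y hy => ?_) ⟨hz, hz1⟩⟩
  rw [← extChar_units]
  exact (hk _ hy.2).2

theorem locTriv_locCond {χ : (v.adicCompletion K)ˣ →* ℂˣ} (hχ : Continuous χ) :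
    LocTriv χ (locCond χ) := Nat.sInf_mem (exists_locTriv hχ)

theorem locCond_le_iff {χ : (v.adicCompletion K)ˣ →* ℂˣ} (hχ : Continuous χ) {n : ℕ} :
    locCond χ ≤ n ↔ LocTriv χ n :=
  ⟨fun hn z hz h1 => locTriv_locCond hχ z hz (h1.trans (exp_le_exp.2 (by omega))),
    fun hn => Nat.sInf_le hn⟩

end FA.TateLocal

end
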