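import Fermat.Agent.TateLocal.LocalBruhat

/-!
# The local functional equation at a prime

The indicator of the integers, or the conjugate of the character on the units, has explicit zeta
integrals; this gives the equation for all test functions, and inversion gives the absolute value
of the local root number.
-/

set_option autoImplicit false
set_option linter.unusedSectionVars false
set_option linter.style.haveILetI false

noncomputable section

open NumberField IsDedekindDomain MeasureTheory MeasureTheory.Measure Filter Topology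
open WithZero
open FA.AdeleDual FA.Ideles FA.IdeleClass FA.TateThesis
open scoped Classical ComplexConjugate ENNReal NNReal

set_option maxHeartbeats 400000

namespace FA.TateLocal

universe u

variable {K : Type u} [Field K] [NumberField K] {v : HeightOneSpectrum (𝓞 K)}
  [MeasurableSpace (v.adicCompletion K)] [BorelSpace (v.adicCompletion K)]

variable (v) in
/-- The units of the completion. -/
def unitShell : Set (v.adicCompletion K) := {y | Valued.v y = 1}

theorem unitShell_eq :
    unitShell v = (ball v 0 : Set (v.adicCompletion K)) \ (ball v (-1) : Set (v.adicCompletion K)) := by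
  ext y
  show Valued.v y = 1 ↔ Valued.v y ≤ exp (0 : ℤ) ∧ ¬Valued.v y ≤ exp (-1 : ℤ)
  rcases eq_or_ne y 0 with rfl | hy
  · simp
  obtain ⟨j, hj⟩ := exists_valued_eq hy
  rw [hj, exp_le_exp, exp_le_exp, ← exp_zero, exp_injective.eq_iff]
  omega

theorem unitShell_subset : unitShell v ⊆ (ball v 0 : Set (v.adicCompletion K)) := fun y hy => by
  show Valued.v y ≤ exp (0 : ℤ)
  rw [show Valued.v y = 1 from hy, exp_zero]

theorem measurableSet_unitShell : MeasurableSet (unitShell v) := by
  rw [unitShell_eq]
  exact (isOpen_ball' _).measurableSet.diff (isOpen_ball' _).measurableSet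

variable (χ : (v.adicCompletion K)ˣ →* ℂˣ)

/-- The exponent of conductor times different. -/
def condDiff : ℕ := locCond χ + diffExp v

/-- The reference test function. -/
def refFn : v.adicCompletion K → ℂ :=
  if locCond χ = 0 then (ball v 0 : Set (v.adicCompletion K)).indicator 1
  else (unitShell v).indicator fun y => conj (extChar χ y)

/-- The inverse of the local L-factor. -/
def lPoly (s : ℂ) : ℂ :=
  if locCond χ = 0 then 1 - extChar χ (pi₀ v : v.adicCompletion K) * (qv v : ℂ) ^ (-s) else 1

/-- The same for the inverse character. -/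
def lPolyConj (s : ℂ) : ℂ :=
  if locCond χ = 0 then 1 - conj (extChar χ (pi₀ v : v.adicCompletion K)) * (qv v : ℂ) ^ (-s) else 1

theorem differentiable_lPoly : Differentiable ℂ (lPoly χ) := by
  unfold lPoly
  split_ifs
  · exact ((differentiable_id.neg).const_cpow
      (Or.inl (Complex.ofReal_ne_zero.2 (qv_ne_zero v)))).const_mul _ |>.const_sub _
  · exact differentiable_const _

theorem differentiable_lPolyConj : Differentiable ℂ (lPolyConj χ) := by
  unfold lPolyConj
  split_ifs
  · exact ((differentiable_id.neg).const_cpow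
      (Or.inl (Complex.ofReal_ne_zero.2 (qv_ne_zero v)))).const_mul _ |>.const_sub _
  · exact differentiable_const _

variable {χ}

theorem extChar_eq_one_of_unit (hχ : IsLocChar χ) (hc : locCond χ = 0) {y : v.adicCompletion K}
    (hy : Valued.v y = 1) : extChar χ y = 1 := by
  have h0 : y ≠ 0 := fun h => by simp [h] at hy
  rw [show y = (Units.mk0 y h0 : v.adicCompletion K) from rfl, extChar_units,
    locTriv_locCond hχ.cont (Units.mk0 y h0) hy (by
      rw [hc, Nat.cast_zero, neg_zero, exp_zero]
      exact Valuation.map_sub_le _ hy.le (map_one Valued.v).le), Units.val_one]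

theorem conj_extChar_inv (hχ : IsLocChar χ) (z : (v.adicCompletion K)ˣ) :
    conj (extChar χ ((z⁻¹ : (v.adicCompletion K)ˣ) : v.adicCompletion K)) =
      extChar χ (z : v.adicCompletion K) := by
  rw [extChar_units, extChar_units, map_inv, Units.val_inv_eq_inv_val,
    Complex.inv_eq_conj (hχ.norm_eq z), Complex.conj_conj]

theorem valued_add_eq_one {y z : v.adicCompletion K} (hy : Valued.v y = 1) (hz : Valued.v z < 1) :
    Valued.v (y + z) = 1 := by
  rw [Valuation.map_add_eq_of_lt_left _ (by rwa [hy]), hy]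

theorem refFn_ramified_add (hχ : IsLocChar χ) (hc : 0 < locCond χ) {y z : v.adicCompletion K}
    (hz : z ∈ ball v (-(locCond χ : ℤ))) :
    (unitShell v).indicator (fun y => conj (extChar χ y)) (y + z) =
      (unitShell v).indicator (fun y => conj (extChar χ y)) y := by
  have hz' : Valued.v z ≤ exp (-(locCond χ : ℤ)) := hz
  have hlt : Valued.v z < 1 := hz'.trans_lt (by rw [← exp_zero, exp_lt_exp]; omega)
  by_cases hy : Valued.v y = 1
  · have hy0 : y ≠ 0 := fun h => by simp [h] at hy
    have hw : Valued.v (1 + y⁻¹ * z) = 1 := valued_add_eq_one (map_one _) (by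
      rw [map_mul, map_inv₀, hy, inv_one, one_mul]; exact hlt)
    set q : (v.adicCompletion K)ˣ := Units.mk0 (1 + y⁻¹ * z) fun h => by simp [h] at hw
    have hq : χ q = 1 := locTriv_locCond hχ.cont q hw (by
      show Valued.v (1 + y⁻¹ * z - 1) ≤ _
      rwa [add_sub_cancel_left, map_mul, map_inv₀, hy, inv_one, one_mul])
    rw [Set.indicator_of_mem (show y + z ∈ unitShell v from valued_add_eq_one hy hlt),
      Set.indicator_of_mem (show y ∈ unitShell v from hy),
      show y + z = y * (q : v.adicCompletion K) by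
        show y + z = y * (1 + y⁻¹ * z)
        field_simp, extChar_mul, extChar_units χ q, hq, Units.val_one, mul_one]
  · rw [Set.indicator_of_notMem (show y ∉ unitShell v from hy), Set.indicator_of_notMem]
    intro h
    refine hy ?_
    have h1 := valued_add_eq_one (show Valued.v (y + z) = 1 from h)
      (z := -z) (by rwa [Valuation.map_neg])
    rwa [add_neg_cancel_right] at h1

theorem isBruhat_refFn (hχ : IsLocChar χ) : IsBruhat (refFn χ) := by
  unfold refFn
  split_ifs with hc
  · refine isBruhat_of_level (m := 0) (k := 0) (fun y hy => ?_) fun y z hz => ?_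
    · by_contra h
      exact hy (Set.indicator_of_notMem (show y ∉ (ball v 0 : Set (v.adicCompletion K)) from h) _)
    · simp only [Set.indicator, SetLike.mem_coe, AddSubgroup.add_mem_cancel_right _ hz,
        Pi.one_apply]
  · refine isBruhat_of_level (m := 0) (k := -(locCond χ : ℤ)) (fun y hy => ?_)
      fun y z hz => refFn_ramified_add hχ (Nat.pos_of_ne_zero hc) hz
    by_contra h
    exact hy (Set.indicator_of_notMem (fun h' => h (unitShell_subset h')) _)

variable (μ : Measure (v.adicCompletion K)) [IsAddHaarMeasure μ]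

/-- The measure of the units. -/
def unitVol : ℂ := ((μ.real (unitShell v) : ℝ) : ℂ)

theorem unitVol_ne_zero : unitVol μ ≠ 0 := by
  have h0 : (0 : ℝ) < μ.real (ball v 0 : Set (v.adicCompletion K)) :=
    ENNReal.toReal_pos (measure_ball_pos μ 0).ne' (measure_ball_lt_top μ 0).ne
  rw [unitVol, Complex.ofReal_ne_zero, unitShell_eq,
    measureReal_diff (ball_mono (by norm_num)) (isOpen_ball' _).measurableSet
      (measure_ball_lt_top μ 0).ne, measureReal_ball μ (-1), zpow_neg, zpow_one, sub_ne_zero]
  intro h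
  have h1 : (qv v)⁻¹ < 1 := inv_lt_one_of_one_lt₀ (one_lt_qv v)
  nlinarith [h]

/-- The Gauss integral. -/
def gaussLoc (χ : (v.adicCompletion K)ˣ →* ℂˣ) : ℂ :=
  fourierLoc μ (kerV v) (refFn χ) ((pi₀ v ^ (-(condDiff χ : ℤ)) : (v.adicCompletion K)ˣ) :
    v.adicCompletion K)

/-- **The local root number.** -/
def rootLoc (χ : (v.adicCompletion K)ˣ →* ℂˣ) : ℂ :=
  gaussLoc μ χ * ((χ (pi₀ v ^ (condDiff χ : ℤ)) : ℂˣ) : ℂ) *
    ((√(qv v ^ condDiff χ) : ℝ) : ℂ)

/-- The ε-factor. -/
def epsLoc (χ : (v.adicCompletion K)ˣ →* ℂˣ) (s : ℂ) : ℂ :=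
  rootLoc μ χ * ((qv v ^ condDiff χ : ℝ) : ℂ) ^ ((1 : ℂ) / 2 - s)

theorem epsLoc_eq (χ : (v.adicCompletion K)ˣ →* ℂˣ) (s : ℂ) :
    epsLoc μ χ s = gaussLoc μ χ * ((χ (pi₀ v ^ (condDiff χ : ℤ)) : ℂˣ) : ℂ) *
      ((qv v ^ condDiff χ : ℝ) : ℂ) ^ (1 - s) := by
  have hA : (0 : ℝ) < qv v ^ condDiff χ := pow_pos (qv_pos v) _
  rw [epsLoc, rootLoc, Real.sqrt_eq_rpow, Complex.ofReal_cpow hA.le, mul_assoc (gaussLoc μ χ * _),
    ← Complex.cpow_add _ _ (Complex.ofReal_ne_zero.2 hA.ne')]
  congr 2
  push_cast
  ring

variable (hχ : IsLocChar χ)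
include hχ

theorem fourier_refFn_unramified (hc : locCond χ = 0) (b : v.adicCompletion K) :
    fourierLoc μ (kerV v) (refFn χ) b = if b ∈ ball v (diffExp v : ℤ)
      then ((μ.real (ball v 0 : Set (v.adicCompletion K)) : ℝ) : ℂ) else 0 := by
  have h := integral_ball_kerV μ 0 b
  rw [sub_zero] at h
  rw [← h, fourierLoc, refFn, if_pos hc, ← integral_indicator (isOpen_ball' 0).measurableSet]
  refine integral_congr_ae (Eventually.of_forall fun y => ?_)
  by_cases hy : y ∈ (ball v 0 : Set (v.adicCompletion K)) <;>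
    simp [Set.indicator_of_mem, Set.indicator_of_notMem, hy, mul_comm]

/-- Units pull out the character. -/
theorem fourier_refFn_mul (hc : ¬locCond χ = 0) {u : v.adicCompletion K} (hu : Valued.v u = 1)
    (b : v.adicCompletion K) :
    fourierLoc μ (kerV v) (refFn χ) (u * b) = extChar χ u * fourierLoc μ (kerV v) (refFn χ) b := by
  haveI := secondCountable_adicCompletion v
  have hu0 : u ≠ 0 := fun h => by simp [h] at hu
  rw [fourierLoc, fourierLoc, ← integral_const_mul]
  conv_lhs => rw [(isScale_norm μ).integral_mul (inv_ne_zero hu0)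
    (h := fun y => refFn χ y * kerV v (u * b * y))
    (((isBruhat_refFn hχ).1.continuous.mul ((continuous_kerV v).comp
      (continuous_const.mul continuous_id))).aestronglyMeasurable)]
  have hn : ((‖u⁻¹‖ : ℝ) : ℂ) = 1 := by rw [norm_inv, norm_unit_eq_one v hu, inv_one, Complex.ofReal_one]
  rw [hn, one_mul]
  refine integral_congr_ae (Eventually.of_forall fun y => ?_)
  show refFn χ (u⁻¹ * y) * kerV v (u * b * (u⁻¹ * y)) = extChar χ u * (refFn χ y * kerV v (b * y))
  rw [show u * b * (u⁻¹ * y) = b * y by field_simp, ← mul_assoc]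
  congr 1
  simp only [refFn, if_neg hc]
  by_cases hy : Valued.v y = 1
  · rw [Set.indicator_of_mem (show y ∈ unitShell v from hy), Set.indicator_of_mem
      (show u⁻¹ * y ∈ unitShell v by
        show Valued.v (u⁻¹ * y) = 1
        rw [map_mul, map_inv₀, hu, inv_one, one_mul, hy]), extChar_mul, map_mul]
    congr 1
    exact conj_extChar_inv hχ (Units.mk0 u hu0)
  · rw [Set.indicator_of_notMem (show y ∉ unitShell v from hy), Set.indicator_of_notMem
      (show u⁻¹ * y ∉ unitShell v from fun h => hy (by
        have h' : Valued.v (u⁻¹ * y) = 1 := h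
        rwa [map_mul, map_inv₀, hu, inv_one, one_mul] at h')), mul_zero]

theorem fourier_refFn_ramified (hc : ¬locCond χ = 0) (b : v.adicCompletion K) :
    fourierLoc μ (kerV v) (refFn χ) b =
      if Valued.v b = exp (condDiff χ : ℤ) then gaussLoc μ χ *
        extChar χ (b * ((pi₀ v ^ (condDiff χ : ℤ) : (v.adicCompletion K)ˣ) : v.adicCompletion K))
      else 0 := by
  split_ifs with hb
  · set u := b * ((pi₀ v ^ (condDiff χ : ℤ) : (v.adicCompletion K)ˣ) : v.adicCompletion K)
    have hu : Valued.v u = 1 := by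
      rw [map_mul, hb, valued_pi₀_zpow, ← exp_add, add_neg_cancel, exp_zero]
    rw [gaussLoc, mul_comm _ (extChar χ u), ← fourier_refFn_mul μ hχ hc hu]
    congr 1
    rw [zpow_neg, Units.val_inv_eq_inv_val, mul_assoc, mul_inv_cancel₀ (Units.ne_zero _), mul_one]
  · by_contra h0
    have hc' : 0 < locCond χ := Nat.pos_of_ne_zero hc
    by_cases hbig : b ∈ ball v (condDiff χ : ℤ)
    · obtain ⟨z, hz1, hzc, hzne⟩ : ∃ z : (v.adicCompletion K)ˣ,
          Valued.v (z : v.adicCompletion K) = 1 ∧
          Valued.v ((z : v.adicCompletion K) - 1) ≤ exp (-((locCond χ - 1 : ℕ) : ℤ)) ∧ χ z ≠ 1 := by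
        have h1 : ¬LocTriv χ (locCond χ - 1) := fun hl => by
          have := (locCond_le_iff hχ.cont).2 hl
          omega
        unfold LocTriv at h1
        push Not at h1
        exact h1
      have hb' : b ∈ ball v ((condDiff χ : ℤ) - 1) := by
        rcases eq_or_ne b 0 with h | h
        · rw [h]; exact zero_mem _
        obtain ⟨j, hj⟩ := exists_valued_eq h
        have h1 : Valued.v b ≤ exp (condDiff χ : ℤ) := hbig
        rw [hj, exp_le_exp] at h1
        rw [hj, exp_injective.eq_iff] at hb
        show Valued.v b ≤ exp ((condDiff χ : ℤ) - 1)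
        rw [hj, exp_le_exp]
        omega
      have h2 : fourierLoc μ (kerV v) (refFn χ) ((z : v.adicCompletion K) * b) =
          fourierLoc μ (kerV v) (refFn χ) b := by
        refine integral_congr_ae (Eventually.of_forall fun y => ?_)
        show refFn χ y * kerV v (z * b * y) = refFn χ y * kerV v (b * y)
        by_cases hy : y ∈ ball v 0
        · have hzb : ((z : v.adicCompletion K) - 1) * b * y ∈ ball v (diffExp v : ℤ) := by
            have h3 := mul_ball (mul_ball (show ((z : v.adicCompletion K) - 1) ∈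
              ball v (-((locCond χ - 1 : ℕ) : ℤ)) from hzc) hb') hy
            refine ball_mono ?_ h3
            simp only [condDiff]
            omega
          rw [show (z : v.adicCompletion K) * b * y =
            b * y + ((z : v.adicCompletion K) - 1) * b * y by ring, kerV_add, kerV_eq_one hzb, mul_one]
        · rw [show refFn χ y = 0 by
            simp only [refFn, if_neg hc]
            exact Set.indicator_of_notMem (fun h' => hy (unitShell_subset h')) _, zero_mul, zero_mul]
      rw [fourier_refFn_mul μ hχ hc hz1, extChar_units] at h2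
      exact hzne (Units.ext (by rw [Units.val_one]; exact (mul_eq_right₀ h0).1 h2))
    · obtain ⟨z, hz, hne⟩ := exists_kerV_mul_ne_one (w := b) (m := -(locCond χ : ℤ))
        (fun h => hbig (ball_mono (by simp only [condDiff]; omega) h))
      have h1 := fourierLoc_shift μ (refFn χ) (z := z) (fun y => by
        simp only [refFn, if_neg hc]
        exact refFn_ramified_add hχ hc' hz) b
      rw [mul_comm] at hne
      exact hne ((mul_eq_right₀ h0).1 h1.symm)

omit hχ in
theorem norm_pi₀_zpow (n : ℤ) :
    ‖((pi₀ v ^ n : (v.adicCompletion K)ˣ) : v.adicCompletion K)‖ = qv v ^ (-n) :=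
  norm_eq_zpow_of_valued v (valued_pi₀_zpow v n)

/-- **The zeta integral of the reference function.** -/
theorem zeta_refFn {s : ℂ} (hs : 0 < s.re) :
    zetaLoc μ (fun y : v.adicCompletion K => ‖y‖) (refFn χ) (extChar χ) s * lPoly χ s =
      unitVol μ := by
  haveI := secondCountable_adicCompletion v
  have hU : MeasurableSet (unitShell v) := measurableSet_unitShell
  have hval : ∀ (F : v.adicCompletion K → ℂ), (∀ y ∈ unitShell v, F y = 1) →
      ∫ y in unitShell v, F y ∂μ = unitVol μ := fun F hF => by
    rw [setIntegral_congr_fun hU hF, setIntegral_const, Complex.real_smul, mul_one]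
    rfl
  unfold zetaLoc lPoly
  split_ifs with hc
  swap
  · rw [mul_one]
    simp only [refFn, if_neg hc]
    rw [← hval (fun y => conj (extChar χ y) * extChar χ y * ((‖y‖ : ℝ) : ℂ) ^ (s - 1)) fun y hy => by
      rw [← Complex.normSq_eq_conj_mul_self, Complex.normSq_eq_norm_sq,
        (hχ.isUnitChar).norm y (fun h => by simp [unitShell, h] at hy), norm_unit_eq_one v hy]
      simp, ← integral_indicator hU]
    refine integral_congr_ae (Eventually.of_forall fun y => ?_)
    by_cases hy : y ∈ unitShell v <;> simp [hy]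
  set F : v.adicCompletion K → ℂ := fun y => extChar χ y * ((‖y‖ : ℝ) : ℂ) ^ (s - 1)
  have hint := ((isBruhat_refFn hχ).isTestFn μ).integrable (isScale_norm μ) hχ.isUnitChar hs
  have hFon : IntegrableOn F (ball v 0 : Set (v.adicCompletion K)) μ := by
    refine (integrable_indicator_iff (isOpen_ball' 0).measurableSet).1 (hint.congr
      (Eventually.of_forall fun y => ?_))
    by_cases hy : y ∈ (ball v 0 : Set (v.adicCompletion K)) <;> simp [F, refFn, hc, hy]
  set I₀ : ℂ := ∫ y in (ball v 0 : Set (v.adicCompletion K)), F y ∂μ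
  have hI : ∫ y, refFn χ y * extChar χ y * ((‖y‖ : ℝ) : ℂ) ^ (s - 1) ∂μ = I₀ := by
    simp only [I₀, ← integral_indicator (isOpen_ball' (0 : ℤ)).measurableSet]
    refine integral_congr_ae (Eventually.of_forall fun y => ?_)
    by_cases hy : y ∈ (ball v 0 : Set (v.adicCompletion K)) <;> simp [F, refFn, hc, hy]
  have hsmall : ∫ y in (ball v (-1) : Set (v.adicCompletion K)), F y ∂μ =
      extChar χ (pi₀ v : v.adicCompletion K) * (qv v : ℂ) ^ (-s) * I₀ := by
    rw [← integral_indicator (isOpen_ball' (-1)).measurableSet,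
      (isScale_norm μ).integral_mul (pi₀ v).ne_zero (h := (ball v (-1) : Set _).indicator F)
        ((integrable_indicator_iff (isOpen_ball' _).measurableSet).2
          (hFon.mono_set (ball_mono (by norm_num)))).aestronglyMeasurable]
    simp only [I₀, ← integral_indicator (isOpen_ball' (0 : ℤ)).measurableSet, ← integral_const_mul]
    refine integral_congr_ae (Eventually.of_forall fun y => ?_)
    show ((‖(pi₀ v : v.adicCompletion K)‖ : ℝ) : ℂ) *
      (ball v (-1) : Set _).indicator F ((pi₀ v : v.adicCompletion K) * y) = _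
    have hmem : ((pi₀ v : v.adicCompletion K) * y ∈ (ball v (-1) : Set (v.adicCompletion K))) ↔
        y ∈ (ball v 0 : Set (v.adicCompletion K)) := by
      rw [← Set.mem_preimage, preimage_ball (valued_pi₀ v), sub_neg_eq_add, neg_add_cancel]
    beta_reduce
    by_cases hy : y ∈ (ball v 0 : Set (v.adicCompletion K))
    · rw [Set.indicator_of_mem (hmem.2 hy), Set.indicator_of_mem hy]
      have hq : (qv v : ℂ) ≠ 0 := Complex.ofReal_ne_zero.2 (qv_ne_zero v)
      simp only [F, extChar_mul, norm_mul, Complex.ofReal_mul]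
      rw [Complex.mul_cpow_ofReal_nonneg (norm_nonneg _) (norm_nonneg _),
        norm_eq_zpow_of_valued v (valued_pi₀ v), zpow_neg, zpow_one, Complex.ofReal_inv,
        Complex.inv_cpow _ _ (by rw [Complex.arg_ofReal_of_nonneg (qv_pos v).le]; exact Real.pi_ne_zero.symm),
        Complex.cpow_sub _ _ hq, Complex.cpow_one, Complex.cpow_neg]
      field_simp
    · rw [Set.indicator_of_notMem (fun h => hy (hmem.1 h)), Set.indicator_of_notMem hy, mul_zero,
        mul_zero]
  have hsplit : I₀ = unitVol μ + extChar χ (pi₀ v : v.adicCompletion K) * (qv v : ℂ) ^ (-s) * I₀ := by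
    rw [← hsmall, ← hval F fun y hy => by
      simp [F, extChar_eq_one_of_unit hχ hc hy, norm_unit_eq_one v hy], unitShell_eq]
    have hsub : (ball v (-1) : Set (v.adicCompletion K)) ⊆ (ball v 0 : Set (v.adicCompletion K)) :=
      ball_mono (by norm_num)
    rw [← setIntegral_union Set.disjoint_sdiff_left (isOpen_ball' _).measurableSet
      (hFon.mono_set Set.diff_subset) (hFon.mono_set hsub), Set.diff_union_of_subset hsub]
  rw [hI]
  linear_combination hsplit

/-- **The zeta integral of its transform.** -/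
theorem zeta_fourier_refFn {s : ℂ} (hs : s.re < 1) :
    zetaLoc μ (fun y : v.adicCompletion K => ‖y‖) (fourierLoc μ (kerV v) (refFn χ))
        (fun y => conj (extChar χ y)) (1 - s) * lPolyConj χ (1 - s) =
      unitVol μ * epsLoc μ χ s := by
  haveI := secondCountable_adicCompletion v
  set a : (v.adicCompletion K)ˣ := pi₀ v ^ (-(condDiff χ : ℤ)) with ha
  have hva : Valued.v (a : v.adicCompletion K) = exp (condDiff χ : ℤ) := by
    rw [ha, valued_pi₀_zpow, neg_neg]
  have hna : ‖(a : v.adicCompletion K)‖ = qv v ^ condDiff χ := by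
    rw [norm_eq_zpow_of_valued v hva, zpow_natCast]
  have hA : (0 : ℝ) < qv v ^ condDiff χ := pow_pos (qv_pos v) _
  have hca : conj (extChar χ (a : v.adicCompletion K)) =
      ((χ (pi₀ v ^ (condDiff χ : ℤ)) : ℂˣ) : ℂ) := by
    rw [ha, zpow_neg, conj_extChar_inv hχ, extChar_units]
  set Z : ℂ := zetaLoc μ (fun y : v.adicCompletion K => ‖y‖) (fourierLoc μ (kerV v) (refFn χ))
    (fun y => conj (extChar χ y)) (1 - s) with hZ
  have hint := (((isBruhat_refFn hχ).fourier μ).isTestFn μ).integrable (isScale_norm μ)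
    hχ.isUnitChar.conj (s := 1 - s) (by simpa using hs)
  have hscale : Z = ((qv v ^ condDiff χ : ℝ) : ℂ) ^ (1 - s) *
      ((χ (pi₀ v ^ (condDiff χ : ℤ)) : ℂˣ) : ℂ) *
      ∫ u, fourierLoc μ (kerV v) (refFn χ) ((a : v.adicCompletion K) * u) *
        conj (extChar χ u) * ((‖u‖ : ℝ) : ℂ) ^ (1 - s - 1) ∂μ := by
    rw [hZ, zetaLoc, (isScale_norm μ).integral_mul a.ne_zero hint.aestronglyMeasurable,
      ← integral_const_mul, ← integral_const_mul]
    refine integral_congr_ae (Eventually.of_forall fun u => ?_)
    show ((‖(a : v.adicCompletion K)‖ : ℝ) : ℂ) *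
      (fourierLoc μ (kerV v) (refFn χ) (a * u) * conj (extChar χ (a * u)) *
        ((‖(a : v.adicCompletion K) * u‖ : ℝ) : ℂ) ^ (1 - s - 1)) = _
    rw [extChar_mul, map_mul, hca, norm_mul, Complex.ofReal_mul,
      Complex.mul_cpow_ofReal_nonneg (norm_nonneg _) (norm_nonneg _), hna,
      Complex.cpow_sub _ _ (Complex.ofReal_ne_zero.2 hA.ne'), Complex.cpow_one]
    generalize hX : ((qv v ^ condDiff χ : ℝ) : ℂ) = X
    have hX0 : X ≠ 0 := hX ▸ Complex.ofReal_ne_zero.2 hA.ne'
    field_simp
  rw [hscale, epsLoc_eq]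
  by_cases hc : locCond χ = 0
  · have he : condDiff χ = diffExp v := by rw [condDiff, hc, zero_add]
    have hG : gaussLoc μ χ = ((μ.real (ball v 0 : Set (v.adicCompletion K)) : ℝ) : ℂ) := by
      rw [gaussLoc, fourier_refFn_unramified μ hχ hc, if_pos]
      show Valued.v _ ≤ exp (diffExp v : ℤ)
      rw [valued_pi₀_zpow, neg_neg, he]
    set J : ℂ := ∫ u, refFn χ u * conj (extChar χ u) * ((‖u‖ : ℝ) : ℂ) ^ (1 - s - 1) ∂μ
    have hJ : ∫ u, fourierLoc μ (kerV v) (refFn χ) ((a : v.adicCompletion K) * u) *
        conj (extChar χ u) * ((‖u‖ : ℝ) : ℂ) ^ (1 - s - 1) ∂μ = gaussLoc μ χ * J := by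
      rw [← integral_const_mul]
      refine integral_congr_ae (Eventually.of_forall fun u => ?_)
      have hmem : ((a : v.adicCompletion K) * u ∈ ball v (diffExp v : ℤ)) ↔
          u ∈ (ball v 0 : Set (v.adicCompletion K)) := by
        rw [← SetLike.mem_coe, ← Set.mem_preimage, preimage_ball hva, he, sub_self]
      show fourierLoc μ (kerV v) (refFn χ) ((a : v.adicCompletion K) * u) * _ * _ = _ * (_ * _ * _)
      rw [fourier_refFn_unramified μ hχ hc, hG, refFn, if_pos hc]
      by_cases hu : u ∈ (ball v 0 : Set (v.adicCompletion K))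
      · rw [if_pos (hmem.2 hu), Set.indicator_of_mem hu, Pi.one_apply]
        ring
      · rw [if_neg (fun h => hu (hmem.1 h)), Set.indicator_of_notMem hu]
        ring
    rw [hJ]
    -- the inverse character is unramified as well
    have hχ' : IsLocChar χ⁻¹ := ⟨hχ.cont.inv, fun x => by
      rw [MonoidHom.inv_apply, Units.val_inv_eq_inv_val, norm_inv, hχ.norm_eq, inv_one]⟩
    have hext : ∀ y : v.adicCompletion K, extChar χ⁻¹ y = conj (extChar χ y) := fun y => by
      rcases eq_or_ne y 0 with rfl | hy
      · rw [extChar_zero, extChar_zero, map_zero]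
      · rw [show y = (Units.mk0 y hy : v.adicCompletion K) from rfl, extChar_units, extChar_units,
          MonoidHom.inv_apply, Units.val_inv_eq_inv_val, Complex.inv_eq_conj (hχ.norm_eq _)]
    have hc' : locCond χ⁻¹ = 0 := by
      rw [← hc]
      simp only [locCond, LocTriv, MonoidHom.inv_apply, inv_eq_one]
    have h1 := zeta_refFn μ hχ' (s := 1 - s) (by simpa using hs)
    simp only [zetaLoc, refFn, lPoly, hc', if_true, hext] at h1
    simp only [lPolyConj, hc, if_true, J, refFn]
    linear_combination (gaussLoc μ χ * ((χ (pi₀ v ^ (condDiff χ : ℤ)) : ℂˣ) : ℂ) *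
      ((qv v ^ condDiff χ : ℝ) : ℂ) ^ (1 - s)) * h1
  · have hJ : ∫ u, fourierLoc μ (kerV v) (refFn χ) ((a : v.adicCompletion K) * u) *
        conj (extChar χ u) * ((‖u‖ : ℝ) : ℂ) ^ (1 - s - 1) ∂μ = gaussLoc μ χ * unitVol μ := by
      have hU : MeasurableSet (unitShell v) := measurableSet_unitShell
      rw [unitVol, show gaussLoc μ χ * ((μ.real (unitShell v) : ℝ) : ℂ) =
        ∫ u, (unitShell v).indicator (fun _ => gaussLoc μ χ) u ∂μ by
        rw [integral_indicator_const _ hU, Complex.real_smul, mul_comm]]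
      refine integral_congr_ae (Eventually.of_forall fun u => ?_)
      show fourierLoc μ (kerV v) (refFn χ) ((a : v.adicCompletion K) * u) * _ * _ = _
      rw [fourier_refFn_ramified μ hχ hc, map_mul, hva]
      by_cases hu : Valued.v u = 1
      · rw [if_pos (by rw [hu, mul_one]), Set.indicator_of_mem (show u ∈ unitShell v from hu),
          mul_assoc (gaussLoc μ χ), mul_assoc (gaussLoc μ χ)]
        have hu0 : u ≠ 0 := fun h => by simp [h] at hu
        rw [mul_comm (a : v.adicCompletion K) u, mul_assoc u, ha, zpow_neg,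
          Units.inv_mul, mul_one, Complex.mul_conj', hχ.isUnitChar.norm u hu0,
          norm_unit_eq_one v hu]
        simp
      · rw [if_neg (fun h => hu ((mul_eq_left₀ exp_ne_zero).1 h)), zero_mul, zero_mul,
          Set.indicator_of_notMem (show u ∉ unitShell v from hu)]
    rw [hJ, lPolyConj, if_neg hc, mul_one]
    ring

/-- The Gauss integral has the expected absolute value. -/
theorem norm_gaussLoc_sq : ‖gaussLoc μ χ‖ ^ 2 * qv v ^ condDiff χ =
    μ.real (ball v 0 : Set (v.adicCompletion K)) ^ 2 * qv v ^ (diffExp v : ℤ) := by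
  haveI := secondCountable_adicCompletion v
  have hA : (0 : ℝ) < qv v ^ condDiff χ := pow_pos (qv_pos v) _
  by_cases hc : locCond χ = 0
  · have he : condDiff χ = diffExp v := by rw [condDiff, hc, zero_add]
    rw [gaussLoc, fourier_refFn_unramified μ hχ hc, if_pos (by
      show Valued.v _ ≤ exp (diffExp v : ℤ)
      rw [valued_pi₀_zpow, neg_neg, he]), Complex.norm_real, Real.norm_of_nonneg measureReal_nonneg,
      he, zpow_natCast]
  set a : (v.adicCompletion K)ˣ := pi₀ v ^ (-(condDiff χ : ℤ)) with ha
  have hva : Valued.v (a : v.adicCompletion K) = exp (condDiff χ : ℤ) := by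
    rw [ha, valued_pi₀_zpow, neg_neg]
  have hinv := fourier_inversion_loc μ (isBruhat_refFn hχ) (-1)
  rw [neg_neg] at hinv
  have h1 : refFn χ (1 : v.adicCompletion K) = 1 := by
    simp only [refFn, if_neg hc]
    rw [Set.indicator_of_mem (show (1 : v.adicCompletion K) ∈ unitShell v from map_one _),
      show (1 : v.adicCompletion K) = ((1 : (v.adicCompletion K)ˣ) : v.adicCompletion K) from rfl,
      extChar_units, map_one, Units.val_one, map_one]
  have h2 : fourierLoc μ (kerV v) (fourierLoc μ (kerV v) (refFn χ)) (-1) =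
      ((qv v ^ condDiff χ : ℝ) : ℂ) * (gaussLoc μ χ * conj (gaussLoc μ χ)) := by
    have hmeas : AEStronglyMeasurable (fun b : v.adicCompletion K =>
        fourierLoc μ (kerV v) (refFn χ) b * kerV v (-1 * b)) μ :=
      (((isBruhat_refFn hχ).fourier μ).1.continuous.mul
        ((continuous_kerV v).comp (continuous_const.mul continuous_id))).aestronglyMeasurable
    rw [fourierLoc, (isScale_norm μ).integral_mul a.ne_zero hmeas, norm_eq_zpow_of_valued v hva,
      zpow_natCast]
    refine congrArg _ ?_
    conv_rhs => arg 2; rw [gaussLoc, fourierLoc, ← integral_conj]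
    rw [← integral_const_mul]
    refine integral_congr_ae (Eventually.of_forall fun u => ?_)
    show fourierLoc μ (kerV v) (refFn χ) (a * u) * kerV v (-1 * (a * u)) =
      gaussLoc μ χ * conj (refFn χ u * kerV v (a * u))
    rw [fourier_refFn_ramified μ hχ hc, map_mul (starRingEnd ℂ), map_mul Valued.v, hva,
      neg_one_mul, show kerV v (-((a : v.adicCompletion K) * u)) =
        conj (kerV v ((a : v.adicCompletion K) * u)) by
        rw [kerV, kerV, AddChar.map_neg_eq_inv, Circle.coe_inv_eq_conj]]
    simp only [refFn, if_neg hc]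
    by_cases hu : Valued.v u = 1
    · rw [if_pos (by rw [hu, mul_one]), Set.indicator_of_mem (show u ∈ unitShell v from hu),
        Complex.conj_conj, mul_comm (a : v.adicCompletion K) u, mul_assoc u, ha, zpow_neg,
        Units.inv_mul, mul_one]
      ring
    · rw [if_neg (fun h => hu ((mul_eq_left₀ exp_ne_zero).1 h)),
        Set.indicator_of_notMem (show u ∉ unitShell v from hu)]
      simp
  rw [h2, h1, mul_one, Complex.mul_conj', ← Complex.ofReal_pow, ← Complex.ofReal_mul,
    Complex.ofReal_inj, mul_comm] at hinv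
  exact hinv

theorem gaussLoc_ne_zero : gaussLoc μ χ ≠ 0 := fun h => by
  have h1 := norm_gaussLoc_sq μ hχ
  rw [h, norm_zero, zero_pow two_ne_zero, zero_mul] at h1
  have h2 : (0 : ℝ) < μ.real (ball v 0 : Set (v.adicCompletion K)) :=
    ENNReal.toReal_pos (measure_ball_pos μ 0).ne' (measure_ball_lt_top μ 0).ne
  exact (mul_pos (pow_pos h2 2) (zpow_pos (qv_pos v) _)).ne h1

/-- **The absolute value of the local root number**, for the self-dual measure. -/
theorem norm_rootLoc
    (hμ : μ.real (ball v 0 : Set (v.adicCompletion K)) ^ 2 * qv v ^ (diffExp v : ℤ) = 1) :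
    ‖rootLoc μ χ‖ = 1 := by
  have hA : (0 : ℝ) < qv v ^ condDiff χ := pow_pos (qv_pos v) _
  rw [rootLoc, norm_mul, norm_mul, hχ.norm_eq, mul_one, Complex.norm_real,
    Real.norm_of_nonneg (Real.sqrt_nonneg _)]
  refine (pow_eq_one_iff_of_nonneg (mul_nonneg (norm_nonneg _) (Real.sqrt_nonneg _)) two_ne_zero).1 ?_
  rw [mul_pow, Real.sq_sqrt hA.le, norm_gaussLoc_sq μ hχ, hμ]

/-- The root number of an unramified character. -/
theorem rootLoc_unramified (hc : locCond χ = 0)
    (hμ : μ.real (ball v 0 : Set (v.adicCompletion K)) ^ 2 * qv v ^ (diffExp v : ℤ) = 1) :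
    rootLoc μ χ = ((χ (pi₀ v ^ (diffExp v : ℤ)) : ℂˣ) : ℂ) := by
  have he : condDiff χ = diffExp v := by rw [condDiff, hc, zero_add]
  have hG : gaussLoc μ χ = ((μ.real (ball v 0 : Set (v.adicCompletion K)) : ℝ) : ℂ) := by
    rw [gaussLoc, fourier_refFn_unramified μ hχ hc, if_pos]
    show Valued.v _ ≤ exp (diffExp v : ℤ)
    rw [valued_pi₀_zpow, neg_neg, he]
  rw [rootLoc, hG, he, mul_right_comm, ← Complex.ofReal_mul]
  rw [zpow_natCast] at hμ
  rw [show μ.real (ball v 0 : Set (v.adicCompletion K)) * √(qv v ^ diffExp v) = 1 by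
    refine (pow_eq_one_iff_of_nonneg (mul_nonneg measureReal_nonneg (Real.sqrt_nonneg _))
      two_ne_zero).1 ?_
    rw [mul_pow, Real.sq_sqrt (pow_pos (qv_pos v) _).le, hμ], Complex.ofReal_one, one_mul]

/-- The root number is `1` where the character and the field are unramified. -/
theorem rootLoc_eq_one (hc : locCond χ = 0) (hd : diffExp v = 0)
    (hμ : μ.real (ball v 0 : Set (v.adicCompletion K)) ^ 2 * qv v ^ (diffExp v : ℤ) = 1) :
    rootLoc μ χ = 1 := by
  rw [rootLoc_unramified μ hχ hc hμ, hd, Nat.cast_zero, zpow_zero, map_one, Units.val_one]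

/-- **Tate's local functional equation at a prime.** -/
theorem exists_local_equation_fin {f : v.adicCompletion K → ℂ} (hf : IsBruhat f) :
    ∃ E : ℂ → ℂ, Differentiable ℂ E ∧
      (∀ s : ℂ, 0 < s.re →
        E s = zetaLoc μ (fun y : v.adicCompletion K => ‖y‖) f (extChar χ) s * lPoly χ s) ∧
      ∀ s : ℂ, s.re < 1 → zetaLoc μ (fun y : v.adicCompletion K => ‖y‖) (fourierLoc μ (kerV v) f)
        (fun y => conj (extChar χ y)) (1 - s) * lPolyConj χ (1 - s) = epsLoc μ χ s * E s := by
  haveI := secondCountable_adicCompletion v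
  have hA : ((qv v ^ condDiff χ : ℝ) : ℂ) ≠ 0 :=
    Complex.ofReal_ne_zero.2 (pow_pos (qv_pos v) _).ne'
  haveI := locallyCompact_adicCompletion v
  refine exists_local_equation (isScale_norm μ) hχ.isUnitChar (measurable_kerV v)
    (fun y => (norm_kerV v y).le) (hf.isTestFn μ) ((isBruhat_refFn hχ).isTestFn μ)
    ((hf.fourier μ).isTestFn μ) (((isBruhat_refFn hχ).fourier μ).isTestFn μ) (unitVol_ne_zero μ)
    (differentiable_lPoly χ) (differentiable_lPolyConj χ) ?_ (fun s => ?_)
    (fun s hs => zeta_refFn μ hχ hs) (fun s hs => zeta_fourier_refFn μ hχ hs)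
  · exact (((differentiable_const _).sub differentiable_id).const_cpow (Or.inl hA)).const_mul _
  · rw [epsLoc_eq]
    exact mul_ne_zero (mul_ne_zero (gaussLoc_ne_zero μ hχ) (Units.ne_zero _)) (by simp [hA, (qv_pos v).ne'])

end FA.TateLocal

end
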