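import Mathlib.Analysis.SpecialFunctions.Pow.Deriv
import Mathlib.Analysis.Calculus.ParametricIntegral
import Mathlib.Analysis.Complex.RealDeriv
import Mathlib.MeasureTheory.Integral.Prod
import Mathlib.Analysis.Analytic.Uniqueness

/-!
# Local zeta integrals

On a field with a measure scaled by a modulus, Tate's symmetry
`Z (f, c, s) Z (ĝ, c̄, 1 - s) = Z (g, c, s) Z (f̂, c̄, 1 - s)`, holomorphy of the zeta integrals, and
the gluing of two half-planes.
-/

set_option autoImplicit false
set_option linter.unusedSectionVars false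
set_option linter.style.haveILetI false

noncomputable section

open MeasureTheory Filter Topology
open scoped ComplexConjugate NNReal ENNReal

namespace FA.TateLocal

/-- A modulus for a measure: the factor by which the multiplications scale it. -/
structure IsScale {F : Type*} [Field F] [MeasurableSpace F] (μ : Measure F) (md : F → ℝ) : Prop where
  meas : Measurable md
  zero : md 0 = 0
  pos : ∀ y, y ≠ 0 → 0 < md y
  mul : ∀ x y, md (x * y) = md x * md y
  null : μ {0} = 0
  map : ∀ a, a ≠ 0 → Measure.map (a * ·) μ = ENNReal.ofReal (md a)⁻¹ • μ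

/-- A unitary character extended by an arbitrary value at zero. -/
structure IsUnitChar {F : Type*} [Field F] [MeasurableSpace F] (c : F → ℂ) : Prop where
  meas : Measurable c
  norm : ∀ y, y ≠ 0 → ‖c y‖ = 1
  mul : ∀ x y, x ≠ 0 → y ≠ 0 → c (x * y) = c x * c y

variable {F : Type*} [Field F] [MeasurableSpace F] (μ : Measure F) (md : F → ℝ)

/-- **The local zeta integral** `∫ f (y) c (y) |y| ^ (s - 1) dy`. -/
def zetaLoc (f c : F → ℂ) (s : ℂ) : ℂ := ∫ y, f y * c y * (md y : ℂ) ^ (s - 1) ∂μ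

/-- The transform for a kernel. -/
def fourierLoc (ψ : F → ℂ) (f : F → ℂ) (b : F) : ℂ := ∫ y, f y * ψ (b * y) ∂μ

/-- Integrable, with absolutely convergent zeta integrals on `0 < re s`. -/
structure IsTestFn (f : F → ℂ) : Prop where
  meas : StronglyMeasurable f
  int : Integrable f μ
  zeta : ∀ σ : ℝ, 0 < σ → Integrable (fun y => ‖f y‖ * md y ^ (σ - 1)) μ

variable {μ md}

theorem IsUnitChar.conj {c : F → ℂ} (hc : IsUnitChar c) : IsUnitChar fun y => conj (c y) :=
  ⟨Complex.continuous_conj.measurable.comp hc.meas,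
    fun y hy => (RCLike.norm_conj _).trans (hc.norm y hy),
    fun x y hx hy => by show starRingEnd ℂ _ = _; rw [hc.mul x y hx hy, map_mul]⟩

theorem IsScale.nonneg (hm : IsScale μ md) (y : F) : 0 ≤ md y := by
  rcases eq_or_ne y 0 with rfl | hy
  · rw [hm.zero]
  · exact (hm.pos y hy).le

theorem IsScale.ae_ne (hm : IsScale μ md) : ∀ᵐ y ∂μ, y ≠ 0 := ae_iff.2 (by simpa using hm.null)

variable [MeasurableMul₂ F]

theorem IsScale.integral_mul (hm : IsScale μ md) {a : F} (ha : a ≠ 0) {h : F → ℂ}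
    (hh : AEStronglyMeasurable h μ) : ∫ y, h y ∂μ = (md a : ℂ) * ∫ u, h (a * u) ∂μ := by
  have h1 : AEStronglyMeasurable h (Measure.map (a * ·) μ) := by
    rw [hm.map a ha]
    exact hh.smul_measure _
  rw [← integral_map (measurable_const_mul a).aemeasurable h1, hm.map a ha, integral_smul_measure,
    ENNReal.toReal_ofReal (inv_nonneg.2 (hm.nonneg a)), Complex.real_smul, Complex.ofReal_inv,
    mul_inv_cancel_left₀ (Complex.ofReal_ne_zero.2 (hm.pos a ha).ne')]

theorem IsScale.integrable_mul (hm : IsScale μ md) {a : F} (ha : a ≠ 0) {h : F → ℂ}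
    (hh : Integrable h μ) : Integrable (fun u => h (a * u)) μ := by
  have h1 : Integrable h (Measure.map (a * ·) μ) := by
    rw [hm.map a ha]
    exact hh.smul_measure ENNReal.ofReal_ne_top
  exact (integrable_map_measure h1.aestronglyMeasurable (measurable_const_mul a).aemeasurable).1 h1

theorem IsTestFn.integrable (hm : IsScale μ md) {f c : F → ℂ} (hf : IsTestFn μ md f)
    (hc : IsUnitChar c) {s : ℂ} (hs : 0 < s.re) :
    Integrable (fun y => f y * c y * (md y : ℂ) ^ (s - 1)) μ := by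
  refine (hf.zeta s.re hs).mono'
    ((hf.meas.measurable.mul hc.meas).mul
      ((Complex.measurable_ofReal.comp hm.meas).pow_const _)).aestronglyMeasurable
    (hm.ae_ne.mono fun y hy => le_of_eq ?_)
  show ‖f y * c y * (md y : ℂ) ^ (s - 1)‖ = _
  rw [norm_mul, norm_mul, hc.norm y hy, mul_one, Complex.norm_cpow_eq_rpow_re_of_pos (hm.pos y hy),
    Complex.sub_re, Complex.one_re]

variable [SFinite μ]

/-- **The first form of the product.** -/
theorem zetaLoc_mul (hm : IsScale μ md) {c : F → ℂ} (hc : IsUnitChar c) {f G : F → ℂ}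
    (hf : IsTestFn μ md f) (hG : IsTestFn μ md G) {s : ℂ} (hs : 0 < s.re) (hs1 : s.re < 1) :
    zetaLoc μ md f c s * zetaLoc μ md G (fun y => conj (c y)) (1 - s) =
      ∫ u, conj (c u) * (md u : ℂ) ^ (-s) * ∫ x, f x * G (x * u) ∂μ ∂μ := by
  set A : F → ℂ := fun x => f x * c x * (md x : ℂ) ^ (s - 1)
  set B : F → ℂ := fun y => G y * conj (c y) * (md y : ℂ) ^ (1 - s - 1)
  have hA : Integrable A μ := hf.integrable hm hc hs
  have hB : Integrable B μ := hG.integrable hm hc.conj (by simpa using hs1)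
  set Φ : F → F → ℂ := fun x u => conj (c u) * (md u : ℂ) ^ (-s) * (f x * G (x * u))
  have key : ∀ x, x ≠ 0 → ∀ᵐ u ∂μ, Φ x u = A x * (md x : ℂ) * B (x * u) := fun x hx => by
    filter_upwards [hm.ae_ne] with u hu
    have hx' : (md x : ℂ) ≠ 0 := Complex.ofReal_ne_zero.2 (hm.pos x hx).ne'
    have hcc : c x * conj (c x) = 1 := by rw [Complex.mul_conj', hc.norm x hx]; simp
    simp only [Φ, A, B]
    rw [hc.mul x u hx hu, map_mul, hm.mul, Complex.ofReal_mul,
      Complex.mul_cpow_ofReal_nonneg (hm.nonneg x) (hm.nonneg u), show 1 - s - 1 = -s by ring,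
      Complex.cpow_sub _ _ hx', Complex.cpow_one]
    simp only [Complex.cpow_neg]
    have hxs : (md x : ℂ) ^ s ≠ 0 := by simp [hx']
    calc conj (c u) * ((md u : ℂ) ^ s)⁻¹ * (f x * G (x * u))
        = c x * conj (c x) * ((md x : ℂ) ^ s * ((md x : ℂ) ^ s)⁻¹) *
            (conj (c u) * ((md u : ℂ) ^ s)⁻¹ * (f x * G (x * u))) := by
          rw [hcc, mul_inv_cancel₀ hxs, one_mul, one_mul]
      _ = _ := by field_simp
  have hΦm : AEStronglyMeasurable (Function.uncurry Φ) (μ.prod μ) :=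
    ((((Complex.continuous_conj.measurable.comp hc.meas).mul
      ((Complex.measurable_ofReal.comp hm.meas).pow_const _)).comp measurable_snd).mul
        ((hf.meas.measurable.comp measurable_fst).mul
          (hG.meas.measurable.comp measurable_mul))).aestronglyMeasurable
  have hΦ : Integrable (Function.uncurry Φ) (μ.prod μ) := by
    refine (integrable_prod_iff hΦm).2 ⟨?_, ?_⟩
    · filter_upwards [hm.ae_ne] with x hx
      exact ((hm.integrable_mul hx hB).const_mul _).congr ((key x hx).mono fun u hu => hu.symm)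
    · refine (hA.norm.mul_const (∫ y, ‖B y‖ ∂μ)).congr ?_
      filter_upwards [hm.ae_ne] with x hx
      have h0 : ∫ y, ‖Function.uncurry Φ (x, y)‖ ∂μ =
          ‖A x‖ * md x * ∫ y, ‖B (x * y)‖ ∂μ := by
        rw [← integral_const_mul]
        refine integral_congr_ae ((key x hx).mono fun u hu => ?_)
        show ‖Φ x u‖ = ‖A x‖ * md x * ‖B (x * u)‖
        rw [hu, norm_mul, norm_mul, Complex.norm_real, Real.norm_of_nonneg (hm.nonneg x)]
      have h1 := hm.integral_mul hx (h := fun y => ((‖B y‖ : ℝ) : ℂ))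
        (Complex.continuous_ofReal.comp_aestronglyMeasurable hB.aestronglyMeasurable.norm)
      rw [integral_complex_ofReal, integral_complex_ofReal, ← Complex.ofReal_mul,
        Complex.ofReal_inj] at h1
      rw [h0, h1, mul_assoc]
  calc zetaLoc μ md f c s * zetaLoc μ md G (fun y => conj (c y)) (1 - s)
      = ∫ x, A x * ∫ y, B y ∂μ ∂μ := by rw [integral_mul_const]; rfl
    _ = ∫ x, ∫ u, Φ x u ∂μ ∂μ := by
        refine integral_congr_ae (hm.ae_ne.mono fun x hx => ?_)
        show A x * ∫ y, B y ∂μ = ∫ u, Φ x u ∂μ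
        rw [integral_congr_ae (key x hx), integral_const_mul,
          hm.integral_mul hx hB.aestronglyMeasurable]
        ring
    _ = ∫ u, ∫ x, Φ x u ∂μ ∂μ := integral_integral_swap hΦ
    _ = _ := integral_congr_ae (Eventually.of_forall fun u => integral_const_mul _ _)

/-- The symmetric inner integral. -/
theorem integral_mul_fourierLoc_comm {ψ : F → ℂ} (hψ : Measurable ψ) (hψ1 : ∀ y, ‖ψ y‖ ≤ 1)
    {f g : F → ℂ} (hf : Integrable f μ) (hg : Integrable g μ) (u : F) :
    ∫ x, f x * fourierLoc μ ψ g (x * u) ∂μ = ∫ z, g z * fourierLoc μ ψ f (z * u) ∂μ := by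
  have h : Integrable (fun p : F × F => f p.1 * g p.2 * ψ (p.1 * u * p.2)) (μ.prod μ) := by
    refine (hf.mul_prod hg).norm.mono' ((hf.mul_prod hg).aestronglyMeasurable.mul
      (hψ.comp ((measurable_fst.mul_const u).mul measurable_snd)).aestronglyMeasurable)
      (Eventually.of_forall fun p => ?_)
    rw [norm_mul]
    exact mul_le_of_le_one_right (norm_nonneg _) (hψ1 _)
  calc ∫ x, f x * fourierLoc μ ψ g (x * u) ∂μ
      = ∫ x, ∫ z, f x * g z * ψ (x * u * z) ∂μ ∂μ := by
        refine integral_congr_ae (Eventually.of_forall fun x => ?_)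
        simp only [fourierLoc, ← integral_const_mul, mul_assoc]
    _ = ∫ z, ∫ x, f x * g z * ψ (x * u * z) ∂μ ∂μ := integral_integral_swap h
    _ = _ := by
        refine integral_congr_ae (Eventually.of_forall fun z => ?_)
        simp only [fourierLoc, ← integral_const_mul]
        refine integral_congr_ae (Eventually.of_forall fun x => ?_)
        show f x * g z * ψ (x * u * z) = g z * (f x * ψ (z * u * x))
        rw [show z * u * x = x * u * z by ring]
        ring

/-- **Tate's symmetry.** -/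
theorem zetaLoc_symm (hm : IsScale μ md) {c : F → ℂ} (hc : IsUnitChar c) {ψ : F → ℂ}
    (hψ : Measurable ψ) (hψ1 : ∀ y, ‖ψ y‖ ≤ 1) {f g : F → ℂ} (hf : IsTestFn μ md f)
    (hg : IsTestFn μ md g) (hf' : IsTestFn μ md (fourierLoc μ ψ f))
    (hg' : IsTestFn μ md (fourierLoc μ ψ g)) {s : ℂ} (hs : 0 < s.re) (hs1 : s.re < 1) :
    zetaLoc μ md f c s * zetaLoc μ md (fourierLoc μ ψ g) (fun y => conj (c y)) (1 - s) =
      zetaLoc μ md g c s * zetaLoc μ md (fourierLoc μ ψ f) (fun y => conj (c y)) (1 - s) := by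
  rw [zetaLoc_mul hm hc hf hg' hs hs1, zetaLoc_mul hm hc hg hf' hs hs1]
  simp only [integral_mul_fourierLoc_comm hψ hψ1 hf.int hg.int]

omit [MeasurableMul₂ F] [SFinite μ] in
theorem abs_log_mul_rpow_le {r : ℝ} (hr : 0 < r) {σ σ₀ δ : ℝ} (hδ : 0 < δ) (hσ : |σ - σ₀| ≤ δ) :
    |Real.log r| * r ^ (σ - 1) ≤
      2 / δ * (r ^ (σ₀ - 2 * δ - 1) + r ^ (σ₀ + 2 * δ - 1)) := by
  obtain ⟨h1, h2⟩ := abs_le.1 hσ
  have hmon : ∀ a, σ₀ - 2 * δ - 1 ≤ a → a ≤ σ₀ + 2 * δ - 1 →
      r ^ a ≤ r ^ (σ₀ - 2 * δ - 1) + r ^ (σ₀ + 2 * δ - 1) := fun a ha hb => by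
    rcases le_total r 1 with h | h
    · exact (Real.rpow_le_rpow_of_exponent_ge hr h ha).trans
        (le_add_of_nonneg_right (Real.rpow_nonneg hr.le _))
    · exact (Real.rpow_le_rpow_of_exponent_le h hb).trans
        (le_add_of_nonneg_left (Real.rpow_nonneg hr.le _))
  have hl : |Real.log r| ≤ (r ^ δ + r ^ (-δ)) / δ := by
    refine abs_le.2 ⟨?_, ?_⟩
    · have h3 := Real.log_le_rpow_div (inv_nonneg.2 hr.le) hδ
      rw [Real.log_inv, Real.inv_rpow hr.le, ← Real.rpow_neg hr.le] at h3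
      have h4 : r ^ (-δ) / δ ≤ (r ^ δ + r ^ (-δ)) / δ :=
        div_le_div_of_nonneg_right (le_add_of_nonneg_left (Real.rpow_nonneg hr.le _)) hδ.le
      linarith
    · exact (Real.log_le_rpow_div hr.le hδ).trans
        (div_le_div_of_nonneg_right (le_add_of_nonneg_right (Real.rpow_nonneg hr.le _)) hδ.le)
  refine (mul_le_mul_of_nonneg_right hl (Real.rpow_nonneg hr.le _)).trans ?_
  rw [div_mul_eq_mul_div, add_mul, ← Real.rpow_add hr, ← Real.rpow_add hr, div_mul_eq_mul_div]
  refine div_le_div_of_nonneg_right ?_ hδ.le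
  linarith [hmon (δ + (σ - 1)) (by linarith) (by linarith),
    hmon (-δ + (σ - 1)) (by linarith) (by linarith)]

omit [SFinite μ] in
/-- **Holomorphy.** -/
theorem differentiableAt_zetaLoc (hm : IsScale μ md) {c : F → ℂ} (hc : IsUnitChar c) {f : F → ℂ}
    (hf : IsTestFn μ md f) {s : ℂ} (hs : 0 < s.re) :
    DifferentiableAt ℂ (zetaLoc μ md f c) s := by
  set δ : ℝ := s.re / 4 with hδd
  have hδ : 0 < δ := by positivity
  have hmeas : ∀ w : ℂ, Measurable fun y => f y * c y * (md y : ℂ) ^ (w - 1) := fun w =>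
    (hf.meas.measurable.mul hc.meas).mul ((Complex.measurable_ofReal.comp hm.meas).pow_const _)
  have hb : Integrable (fun y => 2 / δ * (‖f y‖ * md y ^ (s.re - 2 * δ - 1) +
      ‖f y‖ * md y ^ (s.re + 2 * δ - 1))) μ :=
    ((hf.zeta _ (by rw [hδd]; linarith)).add (hf.zeta _ (by positivity))).const_mul _
  refine ((hasDerivAt_integral_of_dominated_loc_of_deriv_le (Metric.ball_mem_nhds s hδ)
    (F := fun w y => f y * c y * (md y : ℂ) ^ (w - 1))
    (F' := fun w y => f y * c y * ((md y : ℂ) ^ (w - 1) * Complex.log (md y : ℂ)))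
    (bound := fun y => 2 / δ * (‖f y‖ * md y ^ (s.re - 2 * δ - 1) +
      ‖f y‖ * md y ^ (s.re + 2 * δ - 1)))
    (Eventually.of_forall fun w => (hmeas w).aestronglyMeasurable) (hf.integrable hm hc hs)
    ((hf.meas.measurable.mul hc.meas).mul
      (((Complex.measurable_ofReal.comp hm.meas).pow_const _).mul
        (Complex.measurable_log.comp (Complex.measurable_ofReal.comp hm.meas)))).aestronglyMeasurable
    (hm.ae_ne.mono fun y hy w hw => ?_) hb (hm.ae_ne.mono fun y hy w _ => ?_)).2).differentiableAt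
  · have hp := hm.pos y hy
    show ‖f y * c y * ((md y : ℂ) ^ (w - 1) * Complex.log (md y : ℂ))‖ ≤ _
    rw [norm_mul, norm_mul, hc.norm y hy, mul_one, norm_mul,
      Complex.norm_cpow_eq_rpow_re_of_pos hp, ← Complex.ofReal_log hp.le, Complex.norm_real,
      Real.norm_eq_abs, mul_comm (md y ^ (w - 1).re), ← mul_add, mul_left_comm (2 / δ),
      Complex.sub_re, Complex.one_re]
    refine mul_le_mul_of_nonneg_left (abs_log_mul_rpow_le hp hδ ?_) (norm_nonneg _)
    exact (Complex.sub_re w s ▸ Complex.abs_re_le_norm (w - s)).trans (mem_ball_iff_norm.1 hw).le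
  · refine HasDerivAt.congr_deriv ((((hasDerivAt_id w).sub_const (1 : ℂ)).const_cpow
      (Or.inl (Complex.ofReal_ne_zero.2 (hm.pos y hy).ne'))).const_mul (f y * c y)) ?_
    simp

omit [MeasurableMul₂ F] [SFinite μ] in
/-- **Gluing.** -/
theorem exists_entire_glue {A B : ℂ → ℂ} (hA : ∀ s : ℂ, 0 < s.re → DifferentiableAt ℂ A s)
    (hB : ∀ s : ℂ, s.re < 1 → DifferentiableAt ℂ B s)
    (hAB : ∀ s : ℂ, 0 < s.re → s.re < 1 → A s = B s) :
    ∃ E : ℂ → ℂ, Differentiable ℂ E ∧ (∀ s : ℂ, 0 < s.re → E s = A s) ∧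
      ∀ s : ℂ, s.re < 1 → E s = B s := by
  set E : ℂ → ℂ := fun s => if 0 < s.re then A s else B s
  have h2 : ∀ s : ℂ, s.re < 1 → E s = B s := fun s hs => by
    by_cases h : 0 < s.re
    · simp only [E, if_pos h, hAB s h hs]
    · simp only [E, if_neg h]
  refine ⟨E, fun s => ?_, fun s hs => if_pos hs, h2⟩
  by_cases h : 0 < s.re
  · exact (hA s h).congr_of_eventuallyEq (eventually_of_mem
      ((isOpen_lt continuous_const Complex.continuous_re).mem_nhds h) fun w hw => if_pos hw)
  · have hs1 : s.re < 1 := lt_of_le_of_lt (not_lt.1 h) one_pos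
    exact (hB s hs1).congr_of_eventuallyEq (eventually_of_mem
      ((isOpen_lt Complex.continuous_re continuous_const).mem_nhds hs1) fun w hw => h2 w hw)

/-- **The local functional equation from one test function.** -/
theorem exists_local_equation (hm : IsScale μ md) {c : F → ℂ} (hc : IsUnitChar c) {ψ : F → ℂ}
    (hψ : Measurable ψ) (hψ1 : ∀ y, ‖ψ y‖ ≤ 1) {f g : F → ℂ} (hf : IsTestFn μ md f)
    (hg : IsTestFn μ md g) (hf' : IsTestFn μ md (fourierLoc μ ψ f))
    (hg' : IsTestFn μ md (fourierLoc μ ψ g)) {R R' ε : ℂ → ℂ} {C : ℂ} (hC : C ≠ 0)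
    (hR : Differentiable ℂ R) (hR' : Differentiable ℂ R') (hε : Differentiable ℂ ε)
    (hε0 : ∀ s, ε s ≠ 0)
    (hgR : ∀ s : ℂ, 0 < s.re → zetaLoc μ md g c s * R s = C)
    (hgR' : ∀ s : ℂ, s.re < 1 →
      zetaLoc μ md (fourierLoc μ ψ g) (fun y => conj (c y)) (1 - s) * R' (1 - s) = C * ε s) :
    ∃ E : ℂ → ℂ, Differentiable ℂ E ∧
      (∀ s : ℂ, 0 < s.re → E s = zetaLoc μ md f c s * R s) ∧
      ∀ s : ℂ, s.re < 1 →
        zetaLoc μ md (fourierLoc μ ψ f) (fun y => conj (c y)) (1 - s) * R' (1 - s) = ε s * E s := by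
  obtain ⟨E, hE, hA, hB⟩ := exists_entire_glue (A := fun s => zetaLoc μ md f c s * R s)
    (B := fun s => zetaLoc μ md (fourierLoc μ ψ f) (fun y => conj (c y)) (1 - s) * R' (1 - s) / ε s)
    (fun s hs => (differentiableAt_zetaLoc hm hc hf hs).mul (hR s))
    (fun s hs => (((differentiableAt_zetaLoc hm hc.conj hf'
      (show 0 < (1 - s).re by simpa using hs)).comp s ((differentiableAt_id).const_sub (1 : ℂ))).mul
        ((hR' _).comp s ((differentiableAt_id).const_sub (1 : ℂ)))).div (hε s) (hε0 s))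
    (fun s hs hs1 => by
      have h1 := zetaLoc_symm hm hc hψ hψ1 hf hg hf' hg' hs hs1 (c := c)
      have h2 := hgR s hs
      have h3 := hgR' s hs1
      field_simp [hε0 s]
      refine mul_left_cancel₀ hC ?_
      linear_combination (R s * R' (1 - s)) * h1 -
        (zetaLoc μ md f c s * R s) * h3 +
        (zetaLoc μ md (fourierLoc μ ψ f) (fun y => conj (c y)) (1 - s) * R' (1 - s)) * h2)
  refine ⟨E, hE, hA, fun s hs => ?_⟩
  rw [hB s hs, mul_div_cancel₀ _ (hε0 s)]

end FA.TateLocal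

end
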