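import Fermat.Agent.TateLocal.InfMeasure
import Fermat.Agent.TateLocal.FourierTest
import Fermat.Agent.TateThesis.Zeta
import Fermat.Agent.ExistenceTheorem.RayMaps

/-!
# The zeta integral of the test function

The ideles at which the test function does not vanish are the translates, by the ideles of the
ideals prime to the ramified primes, of the ideles with unit finite components, so the integral is
the L-series times a constant times the Gamma factors.
-/

set_option autoImplicit false
set_option linter.unusedSectionVars false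
set_option linter.style.haveILetI false

noncomputable section

open NumberField NumberField.InfinitePlace NumberField.InfinitePlace.Completion IsDedekindDomain
open MeasureTheory MeasureTheory.Measure Filter Topology
open WithZero
open FA.AdeleDual FA.Ideles FA.IdeleClass FA.TateThesis
open FA.ArtinRec (ordI unif)
open FA.Ext (primeIdeal)
open FA.Hecke (heckeL lHom_apply)
open scoped nonZeroDivisors Classical ComplexConjugate NNReal ENNReal Pointwise

set_option maxHeartbeats 800000

namespace FA.TateLocal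

universe u

variable {K : Type u} [Field K] [NumberField K]

local notation "𝐀" => AdeleRing (𝓞 K) K

attribute [local instance] secondCountable_idele locallyCompact_idele countable_field

/-- **The parameters at infinity**: at `w` the character is `|z|_w ^ (i τ) (z / |z|) ^ m`. -/
structure HasLocalType (χ : Idele K →* ℂˣ) (τ : InfinitePlace K → ℝ) (m : InfinitePlace K → ℤ) :
    Prop where
  small : ∀ w, IsReal w → (m w).natAbs ≤ 1
  value : ∀ (w : InfinitePlace K) (z : w.Completionˣ), ((χ (infSingle w z) : ℂˣ) : ℂ) =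
    Complex.exp ((((w.mult : ℝ) * τ w * Real.log ‖z.val‖ : ℝ) : ℂ) * Complex.I) *
      (extensionEmbedding w z.val / (‖z.val‖ : ℂ)) ^ m w

theorem HasLocalType.one : HasLocalType (1 : Idele K →* ℂˣ) 0 0 :=
  ⟨fun _ _ => by simp, fun w z => by simp⟩

theorem HasLocalType.inv {χ : Idele K →* ℂˣ} {τ : InfinitePlace K → ℝ} {m : InfinitePlace K → ℤ}
    (hv : HasLocalType χ τ m) : HasLocalType χ⁻¹ (-τ) (-m) := by
  refine ⟨fun w hw => by rw [Pi.neg_apply, Int.natAbs_neg]; exact hv.small w hw, fun w z => ?_⟩
  rw [MonoidHom.inv_apply, Units.val_inv_eq_inv_val, hv.value, mul_inv, ← Complex.exp_neg,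
    ← zpow_neg]
  simp only [Pi.neg_apply]
  push_cast
  ring_nf

/-- **Every unitary character has such parameters.** -/
theorem exists_hasLocalType {χ : Idele K →* ℂˣ} (h : IsIdeleChar χ) :
    ∃ τ m, HasLocalType χ τ m := by
  have key : ∀ w : InfinitePlace K, ∃ (τ : ℝ) (m : ℤ), (IsReal w → m.natAbs ≤ 1) ∧
      ∀ z : w.Completionˣ, ((χ (infSingle w z) : ℂˣ) : ℂ) =
        Complex.exp ((((w.mult : ℝ) * τ * Real.log ‖z.val‖ : ℝ) : ℂ) * Complex.I) *
          (extensionEmbedding w z.val / (‖z.val‖ : ℂ)) ^ m := fun w => by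
    obtain ⟨τ, k, hk, hτ⟩ := exists_local_type h w
    by_cases hw : IsReal w
    swap
    · refine ⟨τ / 2, k, fun hr => absurd hr hw, fun z => ?_⟩
      rw [hτ z fun hr => absurd hr hw, show (w.mult : ℝ) = 2 by simp [mult, hw]]
      ring_nf
    have hmult : (w.mult : ℝ) = 1 := by simp [mult, hw]
    set σ : ℂ := ((χ (infSingle w (-1)) : ℂˣ) : ℂ)
    have hσ : σ * σ = 1 := by
      rw [← Units.val_mul, ← map_mul, ← map_mul, neg_one_mul, neg_neg, map_one, map_one,
        Units.val_one]
    refine ⟨τ, if σ = 1 then 0 else 1, fun _ => by split_ifs <;> simp, fun z => ?_⟩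
    have hz0 : extensionEmbeddingOfIsReal hw z.val ≠ 0 := (map_ne_zero _).2 z.ne_zero
    have hn : ‖z.val‖ = |extensionEmbeddingOfIsReal hw z.val| := by
      rw [← (isometry_extensionEmbeddingOfIsReal hw).norm_map_of_map_zero (map_zero _),
        Real.norm_eq_abs]
    rw [hmult, one_mul, ← extensionEmbeddingOfIsReal_apply hw, hn]
    rcases lt_or_gt_of_ne hz0 with hneg | hpos
    · have h1 : ((χ (infSingle w z) : ℂˣ) : ℂ) = σ * ((χ (infSingle w (-z)) : ℂˣ) : ℂ) := by
        rw [← Units.val_mul, ← map_mul, ← map_mul, neg_one_mul, neg_neg]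
      rw [h1, hτ (-z) (fun hr => by rw [Units.val_neg, map_neg]; linarith), hk hw, zpow_zero,
        mul_one, Units.val_neg, norm_neg, hn, mul_comm σ]
      congr 1
      rw [abs_of_neg hneg, Complex.ofReal_neg, div_neg, div_self (Complex.ofReal_ne_zero.2 hz0)]
      split_ifs with h'
      · rw [h', zpow_zero]
      · rw [zpow_one]
        rcases mul_self_eq_one_iff.1 hσ with e | e
        exacts [absurd e h', e]
    · rw [hτ z (fun _ => hpos), hk hw, zpow_zero, hn, abs_of_pos hpos,
        div_self (Complex.ofReal_ne_zero.2 hz0), one_zpow]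
  choose τ m hm hv using key
  exact ⟨τ, m, hm, hv⟩

variable (K) in
/-- The ideles with unit finite components. -/
def unitIdeles : Subgroup (Idele K) where
  carrier := {x | ∀ v, Valued.v ((finComp v x : (v.adicCompletion K)ˣ) : v.adicCompletion K) = 1}
  one_mem' v := by rw [map_one, Units.val_one, map_one]
  mul_mem' {x y} hx hy v := by rw [map_mul, Units.val_mul, map_mul, hx v, hy v, one_mul]
  inv_mem' {x} hx v := by rw [map_inv, Units.val_inv_eq_inv_val, map_inv₀, hx v, inv_one]

variable (K) in
theorem isOpen_unitIdeles : IsOpen (unitIdeles K : Set (Idele K)) :=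
  Subgroup.isOpen_mono (H₁ := levelSub (K := K) (∅ : Set (HeightOneSpectrum (𝓞 K))) 0)
    (fun _ hx v => hx.1 v (Set.notMem_empty v)) isOpen_levelSub_zero

theorem normAtPlace_infVec_ne_zero (x : Idele K) : NoZero (infVec x) :=
  ⟨fun _ => (map_ne_zero _).2 (Units.ne_zero _), fun _ => (map_ne_zero _).2 (Units.ne_zero _)⟩

theorem map_infPart_eq {χ : Idele K →* ℂˣ} {τ : InfinitePlace K → ℝ} {m : InfinitePlace K → ℤ}
    (hv : HasLocalType χ τ m) (x : Idele K) :
    ((χ (infPart x) : ℂˣ) : ℂ) = infCharVal τ m (infVec x) := by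
  rw [infPart_apply, map_prod, Units.coe_prod,
    ← Fintype.prod_subtype_mul_prod_subtype (fun w : InfinitePlace K => IsReal w), infCharVal]
  congr 1
  · refine Finset.prod_congr rfl fun w _ => ?_
    rw [hv.value, show (w.1.mult : ℝ) = 1 by simp [mult, w.2], one_mul, realChar,
      ← extensionEmbeddingOfIsReal_apply w.2,
      ← (isometry_extensionEmbeddingOfIsReal w.2).norm_map_of_map_zero (map_zero _),
      Real.norm_eq_abs]
    rfl
  · refine Fintype.prod_equiv (Equiv.subtypeEquivRight fun _ => not_isReal_iff_isComplex) _ _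
      fun w => ?_
    rw [hv.value, show (w.1.mult : ℝ) = 2 by simp [mult, w.2], cplxChar,
      ← (isometry_extensionEmbedding w.1).norm_map_of_map_zero (map_zero _)]
    rfl

theorem absPow_of_units (s : ℂ) {x : Idele K} (hx : x ∈ unitIdeles K) :
    absPow s x = (∏ w : {w : InfinitePlace K // IsReal w}, ((|(infVec x).1 w| : ℝ) : ℂ) ^ s) *
      ∏ w : {w : InfinitePlace K // IsComplex w}, ((‖(infVec x).2 w‖ ^ 2 : ℝ) : ℂ) ^ s := by
  have hl : logAbs x = ∑ w : InfinitePlace K,
      (w.mult : ℝ) * Real.log ‖((infComp w x : w.Completionˣ) : w.Completion)‖ := by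
    rw [logAbs, ideleAbs_of_units hx,
      Real.log_prod fun w _ => pow_ne_zero _ (norm_ne_zero_iff.2 (Units.ne_zero _))]
    exact Finset.sum_congr rfl fun w _ => Real.log_pow _ _
  rw [absPow, hl, Complex.ofReal_sum, Finset.mul_sum, Complex.exp_sum,
    ← Fintype.prod_subtype_mul_prod_subtype (fun w : InfinitePlace K => IsReal w)]
  congr 1
  · refine Finset.prod_congr rfl fun w _ => ?_
    have hne : (infVec x).1 w ≠ 0 := (normAtPlace_infVec_ne_zero x).1 w
    rw [Complex.cpow_def_of_ne_zero (Complex.ofReal_ne_zero.2 (abs_ne_zero.2 hne)),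
      ← Complex.ofReal_log (abs_nonneg _), show (w.1.mult : ℝ) = 1 by simp [mult, w.2], one_mul,
      mul_comm]
    rw [← (isometry_extensionEmbeddingOfIsReal w.2).norm_map_of_map_zero (map_zero _),
      Real.norm_eq_abs]
    rfl
  · refine Fintype.prod_equiv (Equiv.subtypeEquivRight fun _ => not_isReal_iff_isComplex) _ _
      fun w => ?_
    have hne : (infVec x).2 ⟨w.1, not_isReal_iff_isComplex.1 w.2⟩ ≠ 0 :=
      (normAtPlace_infVec_ne_zero x).2 _
    show _ = ((‖(infVec x).2 ⟨w.1, not_isReal_iff_isComplex.1 w.2⟩‖ ^ 2 : ℝ) : ℂ) ^ s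
    rw [Complex.cpow_def_of_ne_zero
        (Complex.ofReal_ne_zero.2 (pow_ne_zero _ (norm_ne_zero_iff.2 hne))),
      ← Complex.ofReal_log (by positivity), Real.log_pow,
      show (w.1.mult : ℝ) = 2 by simp [mult, w.2], mul_comm s,
      ← (isometry_extensionEmbedding w.1).norm_map_of_map_zero (map_zero _)]
    norm_num
    rfl

/-- **The integrand on the unit ideles.** -/
theorem zetaTerm_of_units {χ : Idele K →* ℂˣ} (h : IsIdeleChar χ) {τ : InfinitePlace K → ℝ}
    {m : InfinitePlace K → ℤ} (hv : HasLocalType χ τ m) (s : ℂ) {x : Idele K}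
    (hx : x ∈ unitIdeles K) :
    zetaTerm (testFun χ m) χ s x = infIntegrand τ m s (infVec x) := by
  have hfin : ((x : 𝐀).2) ∈ finInt K := mem_finInt.2 fun v => (hx v).le
  have hone : (∏ v ∈ (finite_ramSet h).toFinset, conj (locVal χ v ((x : 𝐀).2 v))) *
      ∏ v ∈ (finite_ramSet h).toFinset, locVal χ v ((x : 𝐀).2 v) = 1 := by
    rw [← Finset.prod_mul_distrib]
    refine Finset.prod_eq_one fun v _ => ?_
    rw [show (x : 𝐀).2 v = ((finComp v x : (v.adicCompletion K)ˣ) : v.adicCompletion K) from rfl,
      locVal_unit χ (hx v), ← Complex.inv_eq_conj (h.norm_eq _), inv_mul_cancel₀ (Units.ne_zero _)]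
  rw [zetaTerm, testFun, prodFun, finTest_of_mem h hfin, map_of_units h hx, map_infPart_eq hv,
    absPow_of_units s hx,
    show InfiniteAdeleRing.ringEquiv_mixedSpace K (x : 𝐀).1 = infVec x from rfl]
  simp only [infIntegrand, realInt, cplxInt, infTest, infCharVal, Finset.prod_mul_distrib]
  linear_combination ((∏ w : {w : InfinitePlace K // IsReal w}, realTest (m w.1) ((infVec x).1 w)) *
    (∏ w : {w : InfinitePlace K // IsComplex w}, cplxTest (m w.1) ((infVec x).2 w)) *
    (∏ w : {w : InfinitePlace K // IsReal w}, realChar (τ w.1) (m w.1) ((infVec x).1 w)) *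
    (∏ w : {w : InfinitePlace K // IsComplex w}, cplxChar (τ w.1) (m w.1) ((infVec x).2 w)) *
    ((∏ w : {w : InfinitePlace K // IsReal w}, ((|(infVec x).1 w| : ℝ) : ℂ) ^ s) *
      ∏ w : {w : InfinitePlace K // IsComplex w}, ((‖(infVec x).2 w‖ ^ 2 : ℝ) : ℂ) ^ s)) * hone

/-! ### The measure at infinity -/

theorem continuous_testFun_units : Continuous fun x : Idele K => infVec x := continuous_infVec

theorem exists_idele_infVec {y : mixedEmbedding.mixedSpace K} (hy : NoZero y) :
    ∃ a : Idele K, a ∈ unitIdeles K ∧ infVec a = y := by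
  set e := InfiniteAdeleRing.ringEquiv_mixedSpace K
  have h1 : y * y⁻¹ = 1 := by rw [mul_comm]; exact hy.inv_mul
  let a : Idele K :=
    { val := ((e.symm y, 1) : InfiniteAdeleRing K × FiniteAdeleRing (𝓞 K) K)
      inv := ((e.symm y⁻¹, 1) : InfiniteAdeleRing K × FiniteAdeleRing (𝓞 K) K)
      val_inv := Prod.ext (by
        show e.symm y * e.symm y⁻¹ = 1
        rw [← map_mul, h1, map_one]) (one_mul 1)
      inv_val := Prod.ext (by
        show e.symm y⁻¹ * e.symm y = 1
        rw [← map_mul, hy.inv_mul, map_one]) (one_mul 1) }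
  refine ⟨a, fun v => map_one Valued.v, ?_⟩
  exact e.apply_symm_apply y

theorem lSeries_eq_tsum {χ : Idele K →* ℂˣ} (h : IsIdeleChar χ) {s : ℂ} (hs : 1 < s.re) :
    lSeries χ s = ∑' I : {I : (Ideal (𝓞 K))⁰ // ∀ v ∈ ramSet χ, ordI v I.1 = 0},
      ((χ (primeIdele (ramSet χ) I.1) : ℂˣ) : ℂ) * ((Ideal.absNorm I.1.1 : ℕ) : ℂ) ^ (-s) := by
  obtain ⟨S, t, k, 𝔪, f, hf, hfv, -⟩ := exists_twist h
  rw [lSeries, (hasProd_lFactor hf.unimod hfv hs).tprod_eq, heckeL,
    ← tsum_subtype_eq_of_support_subset
      (s := {I : (Ideal (𝓞 K))⁰ | ∀ v ∈ ramSet χ, ordI v I.1 = 0})]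
  · refine tsum_congr fun I => ?_
    have key : ∀ J : (Ideal (𝓞 K))⁰, (∀ v ∈ ramSet χ, ordI v J.1 = 0) → f J.1 =
        ((χ (primeIdele (ramSet χ) J) : ℂˣ) : ℂ) *
          ((Ideal.absNorm J.1 : ℕ) : ℂ) ^ ((S : ℂ) * Complex.I) := fun J => by
      induction J using ideal_induction with
      | h1 => intro _; rw [OneMemClass.coe_one, map_one, map_one, map_one]; simp
      | hmul v J ih =>
        intro hJ
        have h1 : ∀ u ∈ ramSet χ, ordI u J.1 = 0 ∧ u ≠ v := fun u hu => by
          have h2 := hJ u hu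
          rw [ordI_primeIdeal_mul, Nat.add_eq_zero_iff] at h2
          exact ⟨h2.2, fun e => by simp [e] at h2⟩
        have hv : v ∉ ramSet χ := fun hv => (h1 v hv).2 rfl
        rw [Submonoid.coe_mul, map_mul, ih (fun u hu => (h1 u hu).1), primeIdele_prime_mul,
          if_neg hv, map_mul, Units.val_mul, map_mul, Nat.cast_mul,
          Complex.natCast_mul_natCast_cpow, show (primeIdeal v).1 = v.asIdeal from rfl, hfv,
          unifVal, if_neg hv]
        ring
    show f I.1.1 * ((Ideal.absNorm I.1.1 : ℕ) : ℂ) ^ (-(s + S * Complex.I)) = _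
    rw [key I.1 I.2, mul_assoc, ← Complex.cpow_add _ _ (Nat.cast_ne_zero.2
      (Ideal.absNorm_ne_zero_of_nonZeroDivisors I.1))]
    congr 2
    ring
  · intro I hI v hv
    by_contra hne
    refine hI ?_
    obtain ⟨J, hJ⟩ : v.asIdeal ∣ I.1 := not_not.1 ((FA.ArtinRec.ordI_eq_zero_iff v).not.1 hne)
    show f I.1 * _ = 0
    rw [hJ, map_mul, hfv, unifVal, if_pos hv, zero_mul, zero_mul, zero_mul]

section Measure

variable [MeasurableSpace (Idele K)] [BorelSpace (Idele K)] (ν : Measure (Idele K))
  [IsHaarMeasure ν]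

/-- The measure of the unit ideles at infinity. -/
def unitMeasure : Measure (mixedEmbedding.mixedSpace K) :=
  Measure.map infVec (ν.restrict (unitIdeles K : Set (Idele K)))

theorem map_unitMeasure {y : mixedEmbedding.mixedSpace K} (hy : NoZero y) :
    Measure.map (y * ·) (unitMeasure ν) = unitMeasure ν := by
  obtain ⟨a, ha, rfl⟩ := exists_idele_infVec hy
  have hm : MeasurableSet (unitIdeles K : Set (Idele K)) := (isOpen_unitIdeles K).measurableSet
  have hi : Measurable (infVec : Idele K → mixedEmbedding.mixedSpace K) :=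
    continuous_infVec.measurable
  have hres : Measure.map (a * ·) (ν.restrict (unitIdeles K : Set (Idele K))) =
      ν.restrict (unitIdeles K : Set (Idele K)) := by
    have hpre : (a * ·) ⁻¹' (unitIdeles K : Set (Idele K)) = (unitIdeles K : Set (Idele K)) :=
      Set.ext fun x => Subgroup.mul_mem_cancel_left _ ha
    conv_lhs => rw [← hpre]
    rw [← Measure.restrict_map (continuous_const_mul a).measurable hm, map_mul_left_eq_self]
  rw [unitMeasure, Measure.map_map (continuous_const_mul _).measurable hi,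
    show (fun v => infVec a * v) ∘ infVec = infVec ∘ (fun x => a * x) from
      funext fun x => (infVec_mul a x).symm,
    ← Measure.map_map hi (continuous_const_mul a).measurable, hres]

theorem ae_noZero_unitMeasure : ∀ᵐ v ∂unitMeasure ν, NoZero v := by
  have hn : MeasurableSet {v : mixedEmbedding.mixedSpace K | NoZero v} := by
    have e : {v : mixedEmbedding.mixedSpace K | NoZero v} =
        (⋂ w, {v | v.1 w ≠ 0}) ∩ ⋂ w, {v | v.2 w ≠ 0} := by
      ext v; simp [NoZero]
    rw [e]
    exact (MeasurableSet.iInter fun w => ((continuous_apply w).comp continuous_fst).measurable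
      (measurableSet_singleton (0 : ℝ)).compl).inter (MeasurableSet.iInter fun w =>
        (isOpen_ne_fun ((continuous_apply w).comp continuous_snd) continuous_const).measurableSet)
  rw [unitMeasure, ae_map_iff continuous_infVec.measurable.aemeasurable hn]
  exact Eventually.of_forall normAtPlace_infVec_ne_zero

variable [MeasurableSpace (AdeleRing (𝓞 K) K)] [BorelSpace (AdeleRing (𝓞 K) K)]
  {μ : Measure (AdeleRing (𝓞 K) K)} [IsAddHaarMeasure μ] (hμ : μ (funDom K) = 1)
include hμ

theorem integrable_test {χ : Idele K →* ℂˣ} (h : IsIdeleChar χ) (m : InfinitePlace K → ℤ) {s : ℂ}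
    (hs : 1 < s.re) : Integrable (zetaTerm (testFun χ m) χ s) ν := by
  obtain ⟨D, hDm, hDW, hD⟩ := exists_domain K
  exact integrable_zetaTerm hμ hDm hDW (hD ν) (testFun_mem h m) ⟨h.cont, h.norm_eq, h.principal_eq⟩ hs

/-- **The measure is a positive multiple of the product one.** -/
theorem exists_unitMeasure_eq : ∃ C : ℝ≥0, C ≠ 0 ∧ unitMeasure ν = C • mulMeasure K := by
  haveI : SFinite (unitMeasure ν) := by unfold unitMeasure; infer_instance
  set G : mixedEmbedding.mixedSpace K → ℂ := infIntegrand 0 0 2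
  have hG : Measurable G := measurable_infIntegrand _ _ _
  have h0 : Measurable fun v => ‖G v‖ₑ := hG.enorm
  have hfin := (hasFiniteIntegral_iff_enorm.1
    (integrable_infIntegrand (K := K) 0 0 (s := 2) (by norm_num)).hasFiniteIntegral).ne
  have hpos : ∫⁻ v, ‖G v‖ₑ ∂mulMeasure K ≠ 0 := fun e => by
    have h1 := integral_infIntegrand (K := K) 0 0 (s := 2) (by norm_num)
    rw [integral_eq_zero_of_ae (((lintegral_eq_zero_iff h0).1 e).mono fun v hv => by
      simpa using hv), eq_comm] at h1
    exact mul_ne_zero (pow_ne_zero _ (Complex.ofReal_ne_zero.2 (by positivity)))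
      (infGamma_ne_zero 0 0 (by norm_num)) h1
  have hfinm : ∫⁻ v, ‖G v‖ₑ ∂unitMeasure ν ≠ ⊤ := by
    rw [unitMeasure, lintegral_map h0 continuous_infVec.measurable]
    have hi := (integrable_test ν hμ IsIdeleChar.one (0 : InfinitePlace K → ℤ) (s := 2)
      (by norm_num)).restrict (s := (unitIdeles K : Set (Idele K)))
    refine ne_top_of_le_ne_top (hasFiniteIntegral_iff_enorm.1 hi.hasFiniteIntegral).ne
      (lintegral_mono_ae (ae_restrict_of_forall_mem (isOpen_unitIdeles K).measurableSet
        fun x hx => le_of_eq ?_))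
    rw [zetaTerm_of_units IsIdeleChar.one HasLocalType.one 2 hx]
  obtain ⟨C, hC⟩ := eq_smul_mulMeasure (fun y hy => map_unitMeasure ν hy)
    (ae_noZero_unitMeasure ν) h0 hpos hfin hfinm
  refine ⟨C, fun h0' => ?_, hC⟩
  have h1 : unitMeasure ν Set.univ = ν (unitIdeles K : Set (Idele K)) := by
    rw [unitMeasure, Measure.map_apply continuous_infVec.measurable MeasurableSet.univ,
      Set.preimage_univ, Measure.restrict_apply_univ]
  rw [hC, h0', zero_smul, Measure.coe_zero, Pi.zero_apply] at h1
  exact ((isOpen_unitIdeles K).measure_pos ν ⟨1, one_mem _⟩).ne h1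

/-! ### The sum over the ideals -/

variable {χ : Idele K →* ℂˣ}

/-- The ideals prime to the ramified primes. -/
abbrev CopIdeal (χ : Idele K →* ℂˣ) : Type u :=
  {I : (Ideal (𝓞 K))⁰ // ∀ v ∈ ramSet χ, ordI v I.1 = 0}

omit hμ in
theorem countable_copIdeal : Countable (CopIdeal χ) := by
  haveI : Countable (𝓞 K) :=
    Function.Injective.countable (f := fun r : 𝓞 K => (r : K)) fun _ _ e => RingOfIntegers.ext e
  haveI : Countable (Ideal (𝓞 K)) :=
    Function.Surjective.countable (f := fun s : Finset (𝓞 K) => Ideal.span (s : Set (𝓞 K))) fun I =>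
      (IsNoetherian.noetherian I).imp fun _ hs => hs
  exact Function.Injective.countable (f := fun I : CopIdeal χ => I.1.1)
    fun I J e => Subtype.ext (Subtype.ext e)

omit hμ [MeasurableSpace (Idele K)] [BorelSpace (Idele K)] [MeasurableSpace (AdeleRing (𝓞 K) K)]
  [BorelSpace (AdeleRing (𝓞 K) K)] in
theorem valued_primeIdele_cop (I : CopIdeal χ) (v : HeightOneSpectrum (𝓞 K)) :
    Valued.v ((finComp v (primeIdele (ramSet χ) I.1) : (v.adicCompletion K)ˣ) : v.adicCompletion K) =
      exp (-(ordI v I.1.1 : ℤ)) := by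
  by_cases hv : v ∈ ramSet χ
  · rw [finComp_primeIdele_of_mem I.1 hv, Units.val_one, map_one, I.2 v hv, Nat.cast_zero, neg_zero,
      exp_zero]
  · exact valued_primeIdele I.1 hv

/-- **The zeta integral of the test function.** -/
theorem integral_zetaTerm_testFun (h : IsIdeleChar χ) {τ : InfinitePlace K → ℝ}
    {m : InfinitePlace K → ℤ} (hv : HasLocalType χ τ m) {C : ℝ≥0}
    (hC : unitMeasure ν = C • mulMeasure K) {s : ℂ} (hs : 1 < s.re) :
    ∫ x, zetaTerm (testFun χ m) χ s x ∂ν =
      (C : ℂ) * ((((Real.pi / 2 : ℝ) : ℂ) ^ Fintype.card {w : InfinitePlace K // IsComplex w}) *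
        infGamma τ m s) * lSeries χ s := by
  haveI := countable_copIdeal (χ := χ)
  set F := zetaTerm (testFun χ m) χ s
  have hint : Integrable F ν := integrable_test ν hμ h m hs
  set J : ℂ := ∫ x in (unitIdeles K : Set (Idele K)), F x ∂ν with hJdef
  have hUm : MeasurableSet (unitIdeles K : Set (Idele K)) := (isOpen_unitIdeles K).measurableSet
  have hJ : J = (C : ℂ) * (((Real.pi / 2 : ℝ) : ℂ) ^ Fintype.card {w : InfinitePlace K // IsComplex w} *
      infGamma τ m s) := by
    rw [hJdef, setIntegral_congr_fun hUm fun x hx => zetaTerm_of_units h hv s hx,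
      ← integral_map continuous_infVec.measurable.aemeasurable
        (measurable_infIntegrand τ m s).aestronglyMeasurable,
      show Measure.map infVec (ν.restrict (unitIdeles K : Set (Idele K))) = C • mulMeasure K from hC,
      integral_smul_nnreal_measure, integral_infIntegrand τ m (by linarith), NNReal.smul_def,
      Complex.real_smul]
  set piece : CopIdeal χ → Set (Idele K) := fun I =>
    {x | (primeIdele (ramSet χ) I.1)⁻¹ * x ∈ unitIdeles K}
  have hval : ∀ I, ∀ x ∈ piece I, ∀ v,
      Valued.v ((finComp v x : (v.adicCompletion K)ˣ) : v.adicCompletion K) =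
        exp (-(ordI v I.1.1 : ℤ)) := fun I x hx v => by
    rw [← valued_primeIdele_cop I v]
    have h1 := hx v
    rw [map_mul, map_inv, Units.val_mul, Units.val_inv_eq_inv_val, map_mul, map_inv₀] at h1
    exact (inv_mul_eq_one₀ ((Valuation.ne_zero_iff _).2 (Units.ne_zero _))).1 h1 |>.symm
  have hpm : ∀ I, MeasurableSet (piece I) := fun I =>
    (continuous_const_mul _).measurable hUm
  have hdisj : Pairwise (Function.onFun Disjoint piece) := fun I I' hne =>
    Set.disjoint_left.2 fun x hx hx' => hne (Subtype.ext (Subtype.ext (FA.ArtinRec.ideal_eq_of_ordI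
      (nonZeroDivisors.coe_ne_zero I.1) (nonZeroDivisors.coe_ne_zero I'.1) fun v => by
        have h1 := (hval I x hx v).symm.trans (hval I' x hx' v)
        rw [exp_injective.eq_iff] at h1
        omega)))
  have hsupp : ∀ x, x ∉ ⋃ I, piece I → F x = 0 := fun x hx => by
    suffices finTest χ (x : 𝐀).2 = 0 by
      simp only [F, zetaTerm, testFun, prodFun, this, mul_zero, zero_mul]
    by_cases hxi : (x : 𝐀).2 ∈ finInt K
    swap
    · exact finTest_of_notMem χ hxi
    by_cases hxu : ∀ v ∈ ramSet χ, Valued.v ((x : 𝐀).2 v) = 1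
    swap
    · push Not at hxu
      obtain ⟨v, hv', hne⟩ := hxu
      exact finTest_eq_zero_of_ne h hv' hne
    exfalso
    set n : HeightOneSpectrum (𝓞 K) → ℕ := fun v => (-log (Valued.v ((x : 𝐀).2 v))).toNat
    have hn : ∀ v, Valued.v ((x : 𝐀).2 v) = exp (-(n v : ℤ)) := fun v => by
      have h0 : Valued.v ((x : 𝐀).2 v) ≠ 0 :=
        (Valuation.ne_zero_iff _).2 (finComp v x).ne_zero
      have hle : log (Valued.v ((x : 𝐀).2 v)) ≤ 0 := by
        have h1 := mem_finInt.1 hxi v
        rwa [← exp_log h0, ← exp_zero, exp_le_exp] at h1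
      conv_lhs => rw [← exp_log h0]
      congr 1
      simp only [n]
      omega
    obtain ⟨I₀, hI₀, hI⟩ := FA.ArtinRec.exists_ideal_ordI n ((finite_valued_ne_one x).subset
      fun v hv' h1 => hv' (by
        show (-log (Valued.v ((x : 𝐀).2 v))).toNat = 0
        rw [show Valued.v ((x : 𝐀).2 v) = 1 from h1, log_one]
        rfl))
    refine hx (Set.mem_iUnion.2 ⟨⟨⟨I₀, mem_nonZeroDivisors_iff_ne_zero.2 hI₀⟩, fun v hv' => ?_⟩,
      fun v => ?_⟩)
    · rw [hI]
      have h1 := (hn v).symm.trans (hxu v hv')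
      rw [← exp_zero, exp_injective.eq_iff] at h1
      omega
    · rw [map_mul, map_inv, Units.val_mul, Units.val_inv_eq_inv_val, map_mul, map_inv₀,
        valued_primeIdele_cop, finComp_val, hn, hI, inv_mul_cancel₀ exp_ne_zero]
  have hterm : ∀ I : CopIdeal χ, ∫ x in piece I, F x ∂ν =
      (((χ (primeIdele (ramSet χ) I.1) : ℂˣ) : ℂ) *
        ((Ideal.absNorm I.1.1 : ℕ) : ℂ) ^ (-s)) * J := fun I => by
    set p := primeIdele (ramSet χ) I.1
    rw [hJdef, ← integral_indicator (hpm I), ← integral_indicator hUm,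
      ← integral_mul_left_eq_self ((piece I).indicator F) p, ← integral_const_mul]
    refine integral_congr_ae (Eventually.of_forall fun x => ?_)
    have hiff : p * x ∈ piece I ↔ x ∈ (unitIdeles K : Set (Idele K)) := by
      show p⁻¹ * (p * x) ∈ unitIdeles K ↔ _
      rw [inv_mul_cancel_left]
      rfl
    show (piece I).indicator F (p * x) = _ * (unitIdeles K : Set (Idele K)).indicator F x
    by_cases hx : x ∈ (unitIdeles K : Set (Idele K))
    swap
    · rw [Set.indicator_of_notMem (fun h' => hx (hiff.1 h')), Set.indicator_of_notMem hx, mul_zero]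
    rw [Set.indicator_of_mem (hiff.2 hx), Set.indicator_of_mem hx]
    have hf1 : ((p * x : Idele K) : 𝐀).1 = (x : 𝐀).1 := funext fun w => by
      show ((infComp w (p * x) : w.Completionˣ) : w.Completion) = (x : 𝐀).1 w
      rw [map_mul, infComp_primeIdele, one_mul]
      rfl
    have hfin : finTest χ ((p * x : Idele K) : 𝐀).2 = finTest χ (x : 𝐀).2 := by
      rw [finTest_of_mem h (mem_finInt.2 fun v => by
          rw [← finComp_val, hval I _ (hiff.2 hx) v, ← exp_zero, exp_le_exp]
          omega),
        finTest_of_mem h (mem_finInt.2 fun v => (hx v).le)]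
      refine Finset.prod_congr rfl fun v hv' => ?_
      rw [← finComp_val, map_mul, finComp_primeIdele_of_mem I.1
        ((finite_ramSet h).mem_toFinset.1 hv'), one_mul]
      rfl
    have habs : absPow s p = ((Ideal.absNorm I.1.1 : ℕ) : ℂ) ^ (-s) := by
      rw [absPow, logAbs, ideleAbs_primeIdele _ _ I.2, Real.log_inv,
        Complex.cpow_def_of_ne_zero (Nat.cast_ne_zero.2
          (Ideal.absNorm_ne_zero_of_nonZeroDivisors I.1)), ← Complex.natCast_log]
      push_cast
      ring_nf
    have hab : absPow s (p * x) = absPow s p * absPow s x := by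
      simp only [absPow, logAbs_mul, Complex.ofReal_add, mul_add, Complex.exp_add]
    simp only [F, zetaTerm, testFun, prodFun]
    rw [hf1, hfin, hab, habs, map_mul χ, Units.val_mul]
    ring
  have hL : lSeries χ s = ∑' I : CopIdeal χ,
      ((χ (primeIdele (ramSet χ) I.1) : ℂˣ) : ℂ) *
        ((Ideal.absNorm I.1.1 : ℕ) : ℂ) ^ (-s) := lSeries_eq_tsum h hs
  rw [← setIntegral_eq_integral_of_forall_compl_eq_zero hsupp,
    integral_iUnion hpm hdisj hint.integrableOn, tsum_congr hterm, tsum_mul_right, ← hL, hJ]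
  ring

end Measure

end FA.TateLocal

end
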